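import Fermat.Agent.LowerQ.Defs
import Fermat.Agent.BadQ.TwoInstBase
import Fermat.Agent.Kronecker.Specialization

/-!
# The order at the component of `∞`

`hasOrdI_exists`: a nonzero function of level `Mq` fixed by inertia is a power `q ^ n` times a
function with nonzero reduction on the component of `∞`; its expansion is a quotient of
combinations of integral series over the inertia field, whose value group is generated by `q`.
The order is unique and multiplicative (`HasOrdI.unique`, `mul`, `inv`, `zpow`).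
`exists_indicator` gives a fixed function of orders `1` and `0` on the two components, and
`redI_galF` says reduction commutes with the decomposition group.
-/

set_option autoImplicit false
set_option linter.style.haveILetI false
set_option linter.unusedSectionVars false

noncomputable section

open ModularCurve AlgebraicCurve

namespace FLTAgent.LowerQ

open FLTAgent.BadQ

local notation "Qb" => AlgebraicClosure ℚ

variable {M q : ℕ} [NeZero M] [NeZero q] (hq : q.Prime) (hqM : ¬ q ∣ M)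
  {A : ValuationSubring Qb} (hA : A.LiesOverPrime q)

local notation "FQ" => modularFunctionFieldBar (M * q)

include hq hA in
theorem qpow_mem {m : ℤ} (hm : 0 < m) :
    ∃ h : ((q : Qb) ^ m) ∈ A, IsLocalRing.residue A ⟨_, h⟩ = 0 := by
  haveI := Fact.mk hq
  obtain ⟨m', rfl⟩ := Int.eq_ofNat_of_zero_le hm.le
  have hqA : (q : Qb) ∈ A := natCast_mem A q
  refine ⟨by rw [zpow_natCast]; exact pow_mem hqA m', ?_⟩
  have h0 : IsLocalRing.residue A ⟨_, hqA⟩ = 0 :=
    (GalCommon.coe_mem_nonunits_iff_residue A).mp hA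
  rw [show (⟨(q : Qb) ^ (m' : ℤ), _⟩ : A) = (⟨_, hqA⟩ : A) ^ m' from Subtype.ext (by simp), map_pow,
    h0, zero_pow (by omega)]

omit [NeZero M] [NeZero q] in
/-- Combinations of integral series. -/
theorem exists_sum_intSer {K : Type*} [Field K] {S : Set (LaurentSeries K)}
    (hS : S ⊆ Set.range (intSer K)) {z : LaurentSeries K} (hz : z ∈ Algebra.adjoin K S) :
    ∃ c : LaurentSeries ℤ →₀ K, c.sum (fun e a => HahnSeries.C a * intSer K e) = z := by
  induction hz using Algebra.adjoin_induction with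
  | mem y hy =>
    obtain ⟨e, rfl⟩ := hS hy
    exact ⟨Finsupp.single e 1, by rw [Finsupp.sum_single_index (by simp), map_one, one_mul]⟩
  | algebraMap r =>
    exact ⟨Finsupp.single 1 r, by
      rw [Finsupp.sum_single_index (by simp), map_one, mul_one,
        algebraMap_laurentSeries_eq_single]
      rfl⟩
  | add y y' _ _ hy hy' =>
    obtain ⟨c, rfl⟩ := hy
    obtain ⟨c', rfl⟩ := hy'
    exact ⟨c + c', Finsupp.sum_add_index' (fun _ => by rw [map_zero, zero_mul])
      fun _ _ _ => by rw [map_add, add_mul]⟩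
  | mul y y' _ _ hy hy' =>
    obtain ⟨c, rfl⟩ := hy
    obtain ⟨c', rfl⟩ := hy'
    refine ⟨c.sum fun a x => c'.sum fun b w => Finsupp.single (a * b) (x * w), ?_⟩
    rw [Finsupp.sum_sum_index (fun _ => by rw [map_zero, zero_mul])
      fun _ _ _ => by rw [map_add, add_mul]]
    simp only [Finsupp.sum, Finset.sum_mul_sum]
    refine Finset.sum_congr rfl fun a _ => ?_
    refine Eq.trans (Eq.symm <| Finsupp.sum_finsetSum_index
      (h := fun e x => HahnSeries.C x * intSer K e) (fun _ => by rw [map_zero, zero_mul])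
      fun _ _ _ => by rw [map_add, add_mul]) (Finset.sum_congr rfl fun b _ => ?_)
    rw [Finsupp.sum_single_index (by rw [map_zero, zero_mul]), map_mul, map_mul]
    ring

omit [NeZero M] [NeZero q] in
include hq hA in
/-- A combination over `K₀` of integral series is a constant times a primitive series. -/
theorem prim_base (s : Finset (LaurentSeries ℤ)) (c : LaurentSeries ℤ → TwoInst.K0 A)
    (h : ∑ e ∈ s, HahnSeries.C (c e : Qb) * intSer Qb e ≠ 0) :
    ∃ d : TwoInst.K0 A, d ≠ 0 ∧ ∃ u : LaurentSeries A, redSer A (IsLocalRing.residue A) u ≠ 0 ∧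
      ∑ e ∈ s, HahnSeries.C (c e : Qb) * intSer Qb e = HahnSeries.C (d : Qb) * incl A u := by
  haveI := Fact.mk hq
  haveI := GalCommon.charP_residueField hq hA
  set E := coeffMap (algebraMap (TwoInst.K0 A) Qb)
  have hC : ∀ a : TwoInst.K0 A, E (HahnSeries.C a) = HahnSeries.C (a : Qb) := fun a =>
    coeffMap_single _ 0 a
  have hint : ∀ e, E (intSer _ e) = intSer Qb e := fun e => by ext i; simp [E]
  let g : Fin (Fintype.card s) → s := (Fintype.equivFin s).symm
  set x := ∑ i, HahnSeries.C (c (g i)) * intSer (TwoInst.K0 A) (g i : LaurentSeries ℤ) with hx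
  have hEx : E x = ∑ e ∈ s, HahnSeries.C (c e : Qb) * intSer Qb e := by
    rw [hx, map_sum, ← Finset.sum_attach s, Finset.univ_eq_attach s |>.symm,
      ← (Fintype.equivFin s).symm.sum_comp]
    simp only [map_mul, hC, hint, g]
  obtain ⟨d, hd, u, hu, hxu⟩ := prim_sum (TwoInst.W0 A) (TwoInst.redW A) (q := q) hq.two_le _ _ _
    (fun h0 => h (by rw [← hEx, hx, h0, map_zero]))
  refine ⟨d, hd, coeffMap (TwoInst.toA A) u, ?_, ?_⟩
  · convert hu using 1
    ext i; simp [redSer, TwoInst.redW]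
  · rw [← hEx, hx, hxu, map_mul, hC]
    congr 1

omit [NeZero M] [NeZero q] in
include hq hA in
/-- A nonzero series with coefficients in `K₀` from the field of integral series is `q ^ n` times a
series with nonzero reduction. -/
theorem exists_zpow_mul {S : Set (LaurentSeries Qb)} (hS : S ⊆ Set.range (intSer Qb))
    {x : LaurentSeries Qb} (hx : x ∈ IntermediateField.adjoin Qb S) (h0 : x ≠ 0)
    (hfix : ∀ i, x.coeff i ∈ TwoInst.K0 A) :
    ∃ n : ℤ, HahnSeries.C (((q : Qb) ^ n)⁻¹) * x ∈ gV A (IsLocalRing.residue A) ∧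
      gval A (IsLocalRing.residue A) (HahnSeries.C (((q : Qb) ^ n)⁻¹) * x) ≠ 0 := by
  classical
  haveI := Fact.mk hq
  obtain ⟨a, ha, b, hb, rfl⟩ := IntermediateField.mem_adjoin_iff_div.mp hx
  have hb0 : b ≠ 0 := fun h => h0 (by rw [h, div_zero])
  obtain ⟨ca, hca⟩ := exists_sum_intSer hS ha
  obtain ⟨cb, hcb⟩ := exists_sum_intSer hS hb
  obtain ⟨i₀, hi₀⟩ : ∃ i, b.coeff i ≠ 0 := by
    by_contra h
    push Not at h
    exact hb0 (HahnSeries.ext (funext h))
  obtain ⟨φ, hφ⟩ : ∃ φ : Qb →ₗ[TwoInst.K0 A] TwoInst.K0 A, φ (b.coeff i₀) ≠ 0 := by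
    by_contra h
    push Not at h
    exact hi₀ ((Module.forall_dual_apply_eq_zero_iff _ _).mp h)
  set y := a / b with hy
  set s := ca.support ∪ cb.support
  have hKe : ∀ (e : LaurentSeries ℤ) i, (intSer Qb e).coeff i ∈ TwoInst.K0 A := fun e i =>
    intCast_mem _ _
  have hfe : ∀ (e : LaurentSeries ℤ) i, (y * intSer Qb e).coeff i ∈ TwoInst.K0 A := fun e i => by
    rw [HahnSeries.coeff_mul]
    exact sum_mem fun _ _ => mul_mem (hfix _) (hKe e _)
  have hφmul : ∀ (t : Qb) (r : Qb), r ∈ TwoInst.K0 A → (φ (t * r) : Qb) = (φ t : Qb) * r :=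
    fun t r hr => by
      have h1 : φ ((⟨r, hr⟩ : TwoInst.K0 A) • t) = (⟨r, hr⟩ : TwoInst.K0 A) • φ t := map_smul ..
      rw [mul_comm t]
      exact (congrArg Subtype.val h1).trans (mul_comm _ _)
  have hCc : ∀ (t : Qb) (z : LaurentSeries Qb) i,
      (HahnSeries.C t * z).coeff i = t * z.coeff i := fun t z i => by
    rw [HahnSeries.C_apply, HahnSeries.coeff_single_mul, sub_zero]
  have hsum : ∀ c : LaurentSeries ℤ →₀ Qb, c.support ⊆ s →
      c.sum (fun e t => HahnSeries.C t * intSer Qb e) = ∑ e ∈ s, HahnSeries.C (c e) * intSer Qb e :=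
    fun c hc => Finsupp.sum_of_support_subset c hc _ fun e _ => by rw [map_zero, zero_mul]
  rw [hsum ca Finset.subset_union_left] at hca
  rw [hsum cb Finset.subset_union_right] at hcb
  set a' := ∑ e ∈ s, HahnSeries.C ((φ (ca e) : TwoInst.K0 A) : Qb) * intSer Qb e with ha'
  set b' := ∑ e ∈ s, HahnSeries.C ((φ (cb e) : TwoInst.K0 A) : Qb) * intSer Qb e with hb'
  have hb'0 : b' ≠ 0 := by
    intro h
    refine hφ (Subtype.ext ?_)
    have h1 : b.coeff i₀ = ∑ e ∈ s, cb e * (intSer Qb e).coeff i₀ := by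
      rw [← hcb, HahnSeries.coeff_sum]
      simp only [hCc]
    rw [h1, map_sum, AddSubmonoidClass.coe_finsetSum,
      Finset.sum_congr rfl fun e _ => hφmul _ _ (hKe e i₀)]
    have h2 := congrArg (fun z : LaurentSeries Qb => z.coeff i₀) h
    simp only [hb', HahnSeries.coeff_sum, hCc, HahnSeries.coeff_zero] at h2
    exact h2
  have hab : y * b' = a' := by
    refine HahnSeries.ext (funext fun i => ?_)
    have h1 : (y * b).coeff i = a.coeff i := by rw [hy, div_mul_cancel₀ _ hb0]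
    rw [← hca, ← hcb, Finset.mul_sum, HahnSeries.coeff_sum, HahnSeries.coeff_sum] at h1
    rw [ha', hb', Finset.mul_sum, HahnSeries.coeff_sum, HahnSeries.coeff_sum]
    simp only [mul_left_comm y, hCc] at h1 ⊢
    have h2 := congrArg (fun z : Qb => ((φ z : TwoInst.K0 A) : Qb)) h1
    simp only [map_sum, AddSubmonoidClass.coe_finsetSum] at h2
    rw [Finset.sum_congr rfl fun e _ => hφmul _ _ (hfe e i),
      Finset.sum_congr rfl fun e _ => hφmul _ _ (hKe e i)] at h2
    exact h2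
  have hy0 : y ≠ 0 := h0
  have ha'0 : a' ≠ 0 := hab ▸ mul_ne_zero hy0 hb'0
  obtain ⟨d₁, hd₁, u₁, hu₁, e₁⟩ := prim_base hq hA s (fun e => φ (ca e)) ha'0
  obtain ⟨d₂, hd₂, u₂, hu₂, e₂⟩ := prim_base hq hA s (fun e => φ (cb e)) hb'0
  rw [← ha'] at e₁
  rw [← hb'] at e₂
  obtain ⟨n, hn⟩ := TwoInst.exists_zpow hA (div_ne_zero hd₁ hd₂)
  refine ⟨n, ?_⟩
  set c : Qb := ((q : Qb) ^ n)⁻¹ * ((d₁ / d₂ : TwoInst.K0 A) : Qb) with hc
  have hv : A.valuation c = 1 := by
    rw [hc, map_mul, map_inv₀, map_zpow₀, hn, inv_mul_cancel₀]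
    exact zpow_ne_zero _ TwoInst.valuation_q_ne
  have hcA : c ∈ A := (A.valuation_le_one_iff c).mp hv.le
  have hres : IsLocalRing.residue A ⟨c, hcA⟩ ≠ 0 := fun h => by
    rw [← GalCommon.coe_mem_nonunits_iff_residue, ValuationSubring.mem_nonunits_iff] at h
    exact h.ne hv
  have hd₂' : ((d₂ : Qb)) ≠ 0 := fun h => hd₂ (Subtype.ext h)
  have hrel : (HahnSeries.C (((q : Qb) ^ n)⁻¹) * y) * incl A u₂ =
      incl A (HahnSeries.C ⟨c, hcA⟩ * u₁) := by
    have hmul : HahnSeries.C (d₂ : Qb) * (y * incl A u₂) = HahnSeries.C (d₁ : Qb) * incl A u₁ := by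
      rw [← e₁, ← hab, e₂]; ring
    rw [map_mul (incl A), incl_C]
    show _ = HahnSeries.C c * _
    rw [hc, IntermediateField.coe_div, map_mul, map_div₀ HahnSeries.C]
    have hC2 : (HahnSeries.C (d₂ : Qb) : LaurentSeries Qb) ≠ 0 := (map_ne_zero _).mpr hd₂'
    have h3 : HahnSeries.C (d₁ : Qb) / HahnSeries.C (d₂ : Qb) * incl A u₁ = y * incl A u₂ := by
      rw [div_mul_eq_mul_div, ← hmul, mul_div_cancel_left₀ _ hC2]
    linear_combination -(HahnSeries.C (((q : Qb) ^ n)⁻¹)) * h3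
  refine ⟨⟨_, _, hu₂, hrel⟩, ?_⟩
  rw [gval_eq A _ hu₂ hrel, map_mul, redSer_C]
  exact div_ne_zero (mul_ne_zero ((map_ne_zero _).mpr hres) hu₁) hu₂

include hq hA in
/-- A nonzero fixed function has an order on the component of `∞`. -/
theorem hasOrdI_exists {f : FQ} (hfix : IsFixed A (M * q) f) (hf : f ≠ 0) :
    ∃ n : ℤ, HasOrdI M q A f n := by
  have hcoeff : ∀ i, (f : LaurentSeries Qb).coeff i ∈ TwoInst.K0 A := fun i => by
    rw [TwoChart.mem_fixedK]
    intro σ hσ
    have h := congrArg (fun z : FQ => (z : LaurentSeries Qb).coeff i) (hfix σ hσ)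
    simp only [galF, coe_arithmeticGalois_smul, coeffMap_coeff] at h
    exact h
  obtain ⟨n, hn, hn0⟩ := exists_zpow_mul hq hA
    (S := Set.range fun d : ModularCosets.DivIdx (M * q) => Kronecker.jSeries Qb (d : ℕ))
    (by rintro _ ⟨d, rfl⟩; exact ⟨_, (jSeries_eq_intSer Qb _).symm⟩)
    (x := (f : LaurentSeries Qb))
    (by rw [← Kronecker.laurentBaseChange_full_eq_adjoin]; exact f.2)
    (fun h => hf (Subtype.ext h)) hcoeff
  have hco : ((algebraMap Qb FQ ((q : Qb) ^ n)⁻¹ * f : FQ) : LaurentSeries Qb) =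
      HahnSeries.C (((q : Qb) ^ n)⁻¹) * (f : LaurentSeries Qb) := by
    show algebraMap Qb (LaurentSeries Qb) _ * _ = _
    rw [algebraMap_laurentSeries_eq_single]; rfl
  refine ⟨n, algebraMap Qb FQ ((q : Qb) ^ n)⁻¹ * f, ?_, ?_, ?_⟩
  · rw [mem_VI, hco]; exact hn
  · rw [redI, hco]; exact hn0
  · rw [← mul_assoc, ← map_mul, mul_inv_cancel₀ (zpow_ne_zero _ (by exact_mod_cast hq.ne_zero)),
      map_one, one_mul]

include hq hA in
theorem HasOrdI.mul {f g : FQ} {m n : ℤ} (hf : HasOrdI M q A f m) (hg : HasOrdI M q A g n) :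
    HasOrdI M q A (f * g) (m + n) := by
  obtain ⟨a, ha, ha0, rfl⟩ := hf
  obtain ⟨b, hb, hb0, rfl⟩ := hg
  refine ⟨a * b, mul_mem ha hb, by rw [redI_mul A M q ha hb]; exact mul_ne_zero ha0 hb0, ?_⟩
  rw [zpow_add₀ (by exact_mod_cast hq.ne_zero), map_mul]
  ring

include hq hA in
theorem HasOrdI.inv {f : FQ} {m : ℤ} (hf : HasOrdI M q A f m) : HasOrdI M q A f⁻¹ (-m) := by
  obtain ⟨a, ha, ha0, rfl⟩ := hf
  obtain ⟨hi, hir⟩ := inv_mem_VI A M q ha ha0
  exact ⟨a⁻¹, hi, by rw [hir]; exact inv_ne_zero ha0, by rw [mul_inv, zpow_neg, map_inv₀]⟩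

include hq hA in
theorem HasOrdI.zpow {f : FQ} {m : ℤ} (hf : HasOrdI M q A f m) (a : ℤ) :
    HasOrdI M q A (f ^ a) (a * m) := by
  have hnat : ∀ n : ℕ, HasOrdI M q A (f ^ n) (n * m) := fun n => by
    induction n with
    | zero =>
      exact ⟨1, one_mem _, by rw [redI_one]; exact one_ne_zero,
        by rw [pow_zero, Nat.cast_zero, zero_mul, zpow_zero, map_one, one_mul]⟩
    | succ n ih =>
      rw [pow_succ, Nat.cast_succ, add_mul, one_mul]
      exact ih.mul hq hA hf
  obtain ⟨n, rfl | rfl⟩ := a.eq_nat_or_neg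
  · rw [zpow_natCast]; exact hnat n
  · rw [zpow_neg, zpow_natCast, neg_mul]; exact (hnat n).inv hq hA

include hq hA in
/-- The order on the component of `∞` is unique. -/
theorem HasOrdI.unique {f : FQ} {m n : ℤ} (hf : HasOrdI M q A f m) (hg : HasOrdI M q A f n) :
    m = n := by
  have key : ∀ m n : ℤ, HasOrdI M q A f m → HasOrdI M q A f n → ¬ n < m := by
    rintro m n ⟨a, ha, -, e⟩ ⟨b, hb, hb0, e'⟩ hlt
    obtain ⟨hm, hres⟩ := qpow_mem hq hA (sub_pos.mpr hlt)
    have hq0 : (q : Qb) ≠ 0 := by exact_mod_cast hq.ne_zero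
    have hbe : b = algebraMap Qb FQ ((q : Qb) ^ (m - n)) * a := by
      refine mul_left_cancel₀ ((map_ne_zero (algebraMap Qb FQ)).mpr (zpow_ne_zero n hq0)) ?_
      rw [← e', e, ← mul_assoc, ← map_mul, ← zpow_add₀ hq0, add_sub_cancel]
    refine hb0 ?_
    rw [hbe, redI_mul A M q (redI_const A M q ⟨_, hm⟩).1 ha, (redI_const A M q ⟨_, hm⟩).2, hres,
      map_zero, zero_mul]
  exact le_antisymm (not_lt.mp (key m n hf hg)) (not_lt.mp (key n m hg hf))

include hq hA in
theorem hasOrdI_zero_iff {f : FQ} :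
    HasOrdI M q A f 0 ↔ f ∈ VI A M q ∧ redI A M q f ≠ 0 := by
  constructor
  · rintro ⟨g, hg, hg0, rfl⟩
    rw [zpow_zero, map_one, one_mul]
    exact ⟨hg, hg0⟩
  · rintro ⟨h, h0⟩
    exact ⟨f, h, h0, by rw [zpow_zero, map_one, one_mul]⟩

include hq hqM hA in
/-- A fixed function of order `1` on the component of `∞` and `0` on that of `0`. -/
theorem exists_indicator : ∃ h : FQ, IsFixed A (M * q) h ∧ h ≠ 0 ∧ HasOrdI M q A h 1 ∧
    HasOrdI M q A (atkinLehner hq hqM h) 0 := by
  haveI := Fact.mk hq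
  set Z := zO A M q hq hqM with hZ
  have hjfix : ∀ d : ModularCosets.DivIdx (M * q), IsFixed A (M * q) (jAt d) := fun d σ _ => by
    refine Subtype.ext (HahnSeries.ext (funext fun i => ?_))
    rw [galF, coe_arithmeticGalois_smul, coeffMap_coeff]
    show σ ((Kronecker.jSeries Qb (d : ℕ)).coeff i) = (Kronecker.jSeries Qb (d : ℕ)).coeff i
    rw [jSeries_eq_intSer]
    exact map_intCast σ _
  have hGfix : IsFixed A (M * q) (Z : FQ) := fun σ hσ => by
    show galF (M * q) σ • (jAt _ - jAt _ ^ q) = jAt _ - jAt _ ^ q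
    rw [smul_sub, hjfix _ σ hσ, (hjfix _).pow q σ hσ]
  have hrI : redI A M q (Z : FQ) = 0 := by
    show rIHom A M q hq hqM Z = 0
    simp only [hZ, zO, map_sub, map_pow, rI_jV, jSeries_q_pow A q hq hA, sub_self]
  have hrO : redI A M q (atkinLehner hq hqM (Z : FQ)) ≠ 0 := by
    show rOHom A M q hq hqM Z ≠ 0
    simp only [hZ, zO, map_sub, map_pow, rO_jV, swapIdx_one q hq, swapIdx_q q hq,
      jSeries_q_pow A q hq hA, ← pow_mul]
    exact zeta_ne_zero A q hq hA
  set h := (q : FQ) + (Z : FQ) ^ 2 with hh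
  have hqI : (q : FQ) ∈ VI A M q ∧ redI A M q (q : FQ) = 0 := by
    have h1 := redI_const A M q ⟨(q : Qb), natCast_mem A q⟩
    have h2 : IsLocalRing.residue A ⟨(q : Qb), natCast_mem A q⟩ = 0 :=
      (GalCommon.coe_mem_nonunits_iff_residue A).mp hA
    rw [map_natCast, h2, map_zero] at h1
    exact h1
  have hO : HasOrdI M q A (atkinLehner hq hqM h) 0 := by
    rw [hasOrdI_zero_iff hq hA, hh, map_add, map_natCast, map_pow]
    have hZO : atkinLehner hq hqM (Z : FQ) ∈ VI A M q := Z.2.2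
    refine ⟨add_mem hqI.1 (pow_mem hZO 2), ?_⟩
    rw [redI_add A M q hqI.1 (pow_mem hZO 2), hqI.2, zero_add, sq,
      redI_mul A M q hZO hZO]
    exact mul_ne_zero hrO hrO
  refine ⟨h, (IsFixed.natCast q).add (hGfix.pow 2), ?_, ?_, hO⟩
  · intro h0
    obtain ⟨g, -, hg0, e⟩ := hO
    rw [h0, map_zero, zpow_zero, map_one, one_mul] at e
    exact hg0 (by rw [← e, redI_zero])
  have hq0 : (q : Qb) ≠ 0 := by exact_mod_cast hq.ne_zero
  have hZ0 : (Z : FQ) ≠ 0 := fun h => hrO (by rw [h, map_zero, redI_zero])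
  obtain ⟨n, G, hG, hG0, hGe⟩ := hasOrdI_exists hq hA hGfix hZ0
  have hn : 1 ≤ n := by
    by_contra hlt
    push Not at hlt
    rcases (Int.lt_add_one_iff.mp (by omega : n < 0 + 1)).lt_or_eq with hn | rfl
    · obtain ⟨hm, hres⟩ := qpow_mem hq hA (neg_pos.mpr hn)
      refine hG0 ?_
      have : G = algebraMap Qb FQ ((q : Qb) ^ (-n)) * (Z : FQ) := by
        rw [hGe, ← mul_assoc, ← map_mul, ← zpow_add₀ hq0, neg_add_cancel, zpow_zero, map_one,
          one_mul]
      rw [this, redI_mul A M q (redI_const A M q ⟨_, hm⟩).1 Z.2.1,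
        (redI_const A M q ⟨_, hm⟩).2, hres, map_zero, zero_mul]
    · rw [zpow_zero, map_one, one_mul] at hGe
      exact hG0 (hGe ▸ hrI)
  obtain ⟨hm, hres⟩ := qpow_mem hq hA (show (0 : ℤ) < 2 * n - 1 by omega)
  have hGI := (redI_const A M q ⟨_, hm⟩).1
  refine ⟨1 + algebraMap Qb FQ ((q : Qb) ^ (2 * n - 1)) * G ^ 2,
    add_mem (one_mem _) (mul_mem hGI (pow_mem hG 2)), ?_, ?_⟩
  · rw [redI_add A M q (one_mem _) (mul_mem hGI (pow_mem hG 2)), redI_one,
      redI_mul A M q hGI (pow_mem hG 2), (redI_const A M q ⟨_, hm⟩).2, hres, map_zero, zero_mul,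
      add_zero]
    exact one_ne_zero
  · rw [hh, hGe, zpow_one, map_natCast, mul_add, mul_one, mul_pow, ← map_pow, ← zpow_natCast,
      ← zpow_mul, ← mul_assoc, ← map_natCast (algebraMap Qb FQ) q, ← map_mul,
      ← zpow_one_add₀ hq0]
    congr 4
    push_cast
    ring

include hq hA in
/-- Reduction commutes with the decomposition group. -/
theorem redI_galF (g : A.decompositionSubgroup ℚ) {f : FQ} (hf : f ∈ VI A M q) :
    galF (M * q) (g : Qb ≃ₐ[ℚ] Qb) • f ∈ VI A M q ∧
      redI A M q (galF (M * q) (g : Qb ≃ₐ[ℚ] Qb) • f) =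
        coeffMap (Kronecker.resAut A g).toRingHom (redI A M q f) := by
  rw [mem_VI, redI, galF, coe_arithmeticGalois_smul]
  exact gval_coeffMap A (IsLocalRing.residue A) ((g : Qb ≃ₐ[ℚ] Qb) : Qb →+* Qb)
    (MulSemiringAction.toRingHom (A.decompositionSubgroup ℚ) A g)
    (Kronecker.resAut A g).toRingHom (fun a => rfl)
    (fun a => (GalCommon.smul_residue_eq g a).symm) hf

end FLTAgent.LowerQ
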