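import Fermat.Agent.LowerQ.LiftSwap
import Fermat.Agent.LowerQ.Gauss
import Fermat.Agent.BadQ.LiftData
import Fermat.Agent.Reduction.GaussGenusAll
import Fermat.Agent.MazurP.FrameCount
import Fermat.Agent.ModularPlaces.Genus

/-!
# Rigidity for classes with power reductions

`frob_eq_of_red_pow`: if both reductions of the normalised function of a `p`-torsion class of
`J₀(Mq)` are `p`-th powers, Frobenius at `q` acts on the class as `-q` times the Atkin–Lehner
involution. The modular gluing data `liftData` is fed to `Lift.Data.Good.frob_eq_swap`; the genus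
inequality `two_mul_genus_lt` shows that there is a node.
-/

set_option autoImplicit false
set_option linter.style.haveILetI false
set_option linter.unusedSectionVars false
set_option synthInstance.maxHeartbeats 400000
set_option maxHeartbeats 1000000

noncomputable section

open ModularCurve AlgebraicCurve

namespace FLTAgent.LowerQ

open FLTAgent.BadQ

local notation "Qb" => AlgebraicClosure ℚ
local notation "Γℚ" => (AlgebraicClosure ℚ ≃ₐ[ℚ] AlgebraicClosure ℚ)

variable {M q : ℕ} [NeZero M] [NeZero q] (hq : q.Prime) (hqM : ¬ q ∣ M)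
  {A : ValuationSubring Qb}

local notation "FQ" => modularFunctionFieldBar (M * q)
local notation "k" => IsLocalRing.ResidueField A
local notation "E0" => modularFunctionFieldFullC k M

include hq hqM in
/-- The genus grows by more than a factor two. -/
theorem two_mul_genus_lt : 2 * genusFF Qb (modularFunctionFieldBar M) <
    genusFF Qb FQ + 1 := by
  suffices h : (2 : ℚ) * genusFF Qb (modularFunctionFieldBar M) < genusFF Qb FQ + 1 by
    exact_mod_cast h
  rw [ModularPlaces.genusFF_bar, ModularPlaces.genusFF_bar, genusFormula, genusFormula]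
  have h1 : (nuTwo (M * q) : ℚ) ≤ 2 * nuTwo M := by
    exact_mod_cast MazurP.nuTwo_mul_prime_le hq hqM
  have h2 : (nuThree (M * q) : ℚ) ≤ 2 * nuThree M := by
    exact_mod_cast MazurP.nuThree_mul_prime_le hq hqM
  have h3 : (cuspCount (M * q) : ℚ) = 2 * cuspCount M := by
    exact_mod_cast MazurP.cuspCount_mul_prime hq hqM
  have h4 : (dedekindPsi (M * q) : ℚ) = (q + 1) * dedekindPsi M := by
    rw [ModularCosets.dedekindPsi_mul_prime M hq, if_neg hqM]
    push_cast
    ring
  have h5 : (0 : ℚ) < dedekindPsi M := by exact_mod_cast ModularCosets.dedekindPsi_pos M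
  have h6 : (2 : ℚ) ≤ q := by exact_mod_cast hq.two_le
  rw [h3, h4]
  nlinarith [mul_le_mul_of_nonneg_right h6 h5.le]

include hq hqM in
/-- Rigidity for a class with power reductions. -/
theorem frob_eq_of_red_pow (hA : A.LiesOverPrime q) {p : ℕ} [Fact p.Prime] (hpq : p ≠ q) {f : FQ}
    (hf : Normal hq hqM (A := A) p f) {D : Divisor.degZero (K := Qb) (F := FQ)}
    (hdiv : ∀ P : Place Qb FQ, P.ord f = (p : ℤ) * (D : Divisor Qb FQ) P) {uI uO : E0}
    (hI : redI A M q f = ((uI ^ p : E0) : LaurentSeries k))
    (hO : redI A M q (atkinLehner hq hqM f) = ((uO ^ p : E0) : LaurentSeries k))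
    {σ : Γℚ} (hσ : A.IsFrobeniusAt σ q) :
    σ • (Pic0.mk D : JZero (M * q)) = -(q • (wAut hq hqM • (Pic0.mk D : JZero (M * q)))) := by
  haveI := Fact.mk hq
  haveI := GalCommon.isAlgClosed_residueField A hq hA
  haveI := GalCommon.charP_residueField hq hA
  have hg := Reduction.genusFF_fullC_eq M A hA hqM
  set L := liftData A M q hq hqM hA hg with hL
  have hp : p.Prime := Fact.out
  have hpk : (p : k) ≠ 0 := fun h => hpq
    ((Nat.prime_dvd_prime_iff_eq hq hp).mp ((CharP.cast_eq_zero_iff k q p).mp h)).symm
  have huI : uI ≠ 0 := fun h => hf.redI_ne (by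
    rw [hI, h, zero_pow hp.ne_zero, ZeroMemClass.coe_zero])
  have huO : uO ≠ 0 := fun h => hf.redO_ne (by
    rw [hO, h, zero_pow hp.ne_zero, ZeroMemClass.coe_zero])
  let gd : L.Good p (Pic0.mk D) :=
    { Z := D
      f := f
      w1 := uI
      w0 := uO
      rep := ⟨rfl, hf.ne_zero, Finsupp.ext fun P => by
        rw [L.curve.divOf_apply, Finsupp.smul_apply, smul_eq_mul, hdiv]⟩
      mem := ⟨hf.memI, hf.memO⟩
      w1_ne := huI
      w0_ne := huO
      red_eq := Prod.ext (Subtype.ext hI) (Subtype.ext hO) }
  have hw : L.Swap (wAut hq hqM) :=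
    { base := fun c => rfl
      invol := fun f => atkinLehner_atkinLehner hq hqM f
      mem := fun f => Iff.rfl
      red := fun f => rfl
      alpha := atkinLehner_alpha hq hqM _ }
  have hX : 1 ≤ L.nX := by
    have h1 := Lift.Data.genus_eq (D := L)
    have h2 := two_mul_genus_lt hq hqM (M := M)
    omega
  exact gd.frob_eq_swap hpk hX hw (compat_frobenius A M q hq hqM hA hg hσ)

end FLTAgent.LowerQ
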