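import Fermat.Agent.Reps.Inputs
import Fermat.Agent.Reps.Model
import Fermat.Agent.Kronecker.HeckeReduction
import Fermat.Agent.Reduction.GaussGenusAll
import Fermat.Agent.Torsion.Divisible

/-!
# Lifting eigen classes of order `p` from the special fibre

`exists_torsion_eigen_of_red_eigen`: if the reduction at `q` of a class of level `M` is a nonzero
`p`-torsion eigen class, then `J₀(M)` has a nonzero `p`-torsion class with the same eigenvalues.
Reduction is injective on prime-to-`q` torsion with image of bounded index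
(`RedSurj.card_torsion_residue_le`), so after dividing by a power of `p` the class lifts
(`exists_lift_of_index`); injectivity then gives the eigenvalues.
-/

set_option autoImplicit false
set_option linter.style.haveILetI false
set_option linter.unusedSectionVars false

noncomputable section

open ModularCurve AlgebraicCurve

namespace FLTAgent.LowerQ

set_option synthInstance.maxHeartbeats 400000
set_option maxHeartbeats 1600000

local notation "Qb" => AlgebraicClosure ℚ

/-- A homomorphism injective on `p ^ (C + 1)`-torsion whose image there has index at most `C`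
lifts the classes of order `p` which are `p ^ C`-multiples to classes of order `p`. -/
theorem exists_lift_of_index {J J' : Type*} [AddCommGroup J] [AddCommGroup J'] (f : J →+ J')
    {p C : ℕ} (hp : p.Prime) (T : AddSubgroup J) (T' : AddSubgroup J') [Finite T']
    (hT : ∀ x, x ∈ T ↔ p ^ (C + 1) • x = 0) (hT' : ∀ x, x ∈ T' ↔ p ^ (C + 1) • x = 0)
    (hinj : ∀ x, p ^ (C + 1) • x = 0 → f x = 0 → x = 0)
    (hcard : Nat.card T' ≤ C * Nat.card T) {w : J} (hw : p ^ (C + 1) • f w = 0) :
    ∃ z : J, p • z = 0 ∧ f z = f (p ^ C • w) := by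
  classical
  let g : T →+ T' := (f.comp T.subtype).codRestrict T' fun z => by
    rw [hT', AddMonoidHom.comp_apply, ← map_nsmul, AddSubgroup.coe_subtype, (hT _).mp z.2,
      map_zero]
  have hg : Function.Injective g := by
    rw [injective_iff_map_eq_zero]
    exact fun z hz => Subtype.ext (hinj _ ((hT _).mp z.2) (congrArg Subtype.val hz))
  haveI : Finite T := Finite.of_injective g hg
  have hindex : g.range.index ≤ C := by
    rw [← AddSubgroup.index_mul_card g.range,
      ← Nat.card_congr (AddMonoidHom.ofInjective hg).toEquiv] at hcard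
    exact Nat.le_of_mul_le_mul_right hcard Nat.card_pos
  set u : T' := ⟨f w, (hT' _).mpr hw⟩
  obtain ⟨a, -, ha⟩ := (Nat.dvd_prime_pow hp).mp
    (Nat.gcd_dvd_right g.range.index (p ^ (C + 1)))
  have hd : p ^ a ≤ C := by
    rw [← ha]
    exact (Nat.le_of_dvd (Nat.pos_of_ne_zero AddSubgroup.index_ne_zero_of_finite)
      (Nat.gcd_dvd_left _ _)).trans hindex
  have haC : a ≤ C := (Nat.lt_pow_self hp.one_lt).le.trans hd
  have h2 : p ^ (C + 1) • u = 0 := Subtype.ext ((hT' _).mp u.2)
  have hga : (p ^ a : ℕ) • u ∈ g.range := by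
    rw [← ha, ← natCast_zsmul, Nat.gcd_eq_gcd_ab, add_zsmul, mul_comm, mul_zsmul, natCast_zsmul,
      mul_comm ((p ^ (C + 1) : ℕ) : ℤ), mul_zsmul, natCast_zsmul, h2, zsmul_zero, add_zero]
    exact g.range.zsmul_mem (g.range.nsmul_index_mem u) _
  obtain ⟨z, hz⟩ : p ^ C • u ∈ g.range := by
    rw [← Nat.sub_add_cancel haC, pow_add, mul_nsmul']
    exact g.range.nsmul_mem hga _
  have hzy : f z = f (p ^ C • w) := by
    rw [map_nsmul]
    exact congrArg Subtype.val hz
  refine ⟨z, hinj _ (by rw [smul_comm, (hT _).mp z.2, smul_zero]) ?_, hzy⟩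
  rw [map_nsmul, hzy, map_nsmul, smul_smul, ← pow_succ', hw]

/-- A class of order `p` of the special fibre which lifts to a class lifts to a class of order
`p`. -/
theorem exists_torsion_lift {M : ℕ} [NeZero M] {q : ℕ} [Fact q.Prime] (hqM : ¬ q ∣ M)
    {A : ValuationSubring Qb} (hA : A.LiesOverPrime q) {p : ℕ} [Fact p.Prime] (hpq : p ≠ q)
    (y : JZero M) (hp : reductionModL A M (p • y) = 0) :
    ∃ z : JZero M, p • z = 0 ∧ reductionModL A M z = reductionModL A M y := by
  have hpp : p.Prime := Fact.out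
  have hqq : q.Prime := Fact.out
  obtain ⟨C, hC⟩ := RedSurj.card_torsion_residue_le A M p hA hqM
  haveI : NeZero (p ^ C) := ⟨pow_ne_zero _ hpp.ne_zero⟩
  obtain ⟨w, rfl⟩ := Torsion.exists_nsmul_eq_JZero (p ^ C) y
  haveI : NeZero (p ^ (C + 1)) := ⟨pow_ne_zero _ hpp.ne_zero⟩
  have hnq : ¬ q ∣ p ^ (C + 1) := fun h =>
    hpq ((Nat.prime_dvd_prime_iff_eq hqq hpp).mp (hqq.dvd_of_dvd_pow h)).symm
  haveI := (hC (C + 1)).1
  refine exists_lift_of_index (reductionModL A M) hpp
    (Pic0.torsion Qb (modularFunctionFieldBar M) (p ^ (C + 1)))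
    (Pic0.torsion (IsLocalRing.ResidueField A)
      (modularFunctionFieldFullC (IsLocalRing.ResidueField A) M) (p ^ (C + 1)))
    (fun x => by rw [Pic0.mem_torsion, natCast_zsmul])
    (fun x => by rw [Pic0.mem_torsion, natCast_zsmul])
    (fun x h h' => Kronecker.torsion_injective M hqq hqM hA (Kronecker.reductionInputs M hqq hqM hA)
      hnq h h') ?_ ?_
  · rw [Torsion.natCard_jTorsion (p ^ (C + 1)) _ (ModularPlaces.genusFF_bar M)]
    refine ((hC (C + 1)).2).trans_eq ?_
    rw [Reduction.genusFF_fullC_eq M A hA hqM, ← pow_mul, mul_comm (C + 1)]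
  · rw [← map_nsmul, pow_succ', mul_smul]
    exact hp

/-- An eigen class of order `p` of the special fibre lifts to an eigen class of order `p`. -/
theorem exists_torsion_eigen_of_red_eigen {M : ℕ} [NeZero M] {q : ℕ} [Fact q.Prime] (hqM : ¬ q ∣ M)
    {A : ValuationSubring Qb} (hA : A.LiesOverPrime q) {p : ℕ} [Fact p.Prime] (hpq : p ≠ q)
    (G : ℕ → Prop) (a : ℕ → ℤ) (y : JZero M)
    (hp : reductionModL A M (p • y) = 0) (hy : reductionModL A M y ≠ 0)
    (heig : ∀ (ℓ : ℕ) (hℓ : ℓ.Prime), G ℓ →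
      reductionModL A M (heckeOperatorBar M ⟨ℓ, hℓ⟩ y) = a ℓ • reductionModL A M y) :
    ∃ z : JZero M, z ≠ 0 ∧ p • z = 0 ∧
      ∀ (ℓ : ℕ) (hℓ : ℓ.Prime), G ℓ → heckeOperatorBar M ⟨ℓ, hℓ⟩ z = a ℓ • z := by
  have hpp : p.Prime := Fact.out
  have hqq : q.Prime := Fact.out
  obtain ⟨z, hz, hzy⟩ := exists_torsion_lift hqM hA hpq y hp
  refine ⟨z, fun h => hy (by rw [← hzy, h, map_zero]), hz, fun ℓ hℓ hG => ?_⟩
  rw [← sub_eq_zero]
  refine Kronecker.torsion_injective M hqq hqM hA (Kronecker.reductionInputs M hqq hqM hA)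
    (fun h => hpq ((Nat.prime_dvd_prime_iff_eq hqq hpp).mp h).symm) ?_ ?_
  · rw [nsmul_sub, ← map_nsmul, hz, map_zero, smul_comm, hz, zsmul_zero, sub_zero]
  · have h1 : reductionModL A M (heckeOperatorBar M ⟨ℓ, hℓ⟩ z) =
        reductionModL A M (heckeOperatorBar M ⟨ℓ, hℓ⟩ y) := by
      rw [← sub_eq_zero, ← map_sub, ← map_sub]
      exact Kronecker.reductionModL_heckeOperatorBar_eq_zero M hqM A hA ⟨ℓ, hℓ⟩ _
        (by rw [map_sub, hzy, sub_self])
    rw [map_sub, map_zsmul, hzy, h1, heig ℓ hℓ hG, sub_self]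

end FLTAgent.LowerQ
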