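import Fermat.Agent.LowerQ.Descent
import Fermat.Agent.LowerQ.HeckeRing

/-!
# Reductions of eigen functions on a component

`exists_pow_or_torsion`: if the reduction on the component of `∞` of an eigen function of level
`Mq` has divisor divisible by `p`, it is a `p`-th power or gives an eigen class of order `p` of
level `M`. The divisor divided by `p` is a class on the special fibre of level `M`; expansions
show that reduction commutes with `T_ℓ` (`gval_heckeFun`, `mapDomain_correspondence_eq`), so the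
class is eigen (`exists_pow_or_class`), and it lifts by `exists_torsion_eigen_of_red_eigen`.
-/

set_option autoImplicit false
set_option linter.style.haveILetI false
set_option linter.unusedSectionVars false
set_option maxHeartbeats 1600000
set_option synthInstance.maxHeartbeats 400000

noncomputable section

open ModularCurve AlgebraicCurve

namespace FLTAgent.LowerQ

open FLTAgent.BadQ

local notation "Qb" => AlgebraicClosure ℚ

attribute [local instance 10000] HahnSeries.powerSeriesAlgebra SubalgebraClass.toAlgebra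

section Gauss

variable {A : ValuationSubring Qb}

local notation "π" => IsLocalRing.residue A
local notation "k" => IsLocalRing.ResidueField A

/-- A constant relating two series with nonzero reduction is a unit. -/
theorem exists_unit_of_C_mul {x y : LaurentSeries Qb} {c : Qb} (hx : x ∈ gV A π)
    (hx0 : gval A π x ≠ 0) (hy : y ∈ gV A π) (hy0 : gval A π y ≠ 0)
    (h : x = HahnSeries.C c * y) :
    ∃ a : A, (a : Qb) = c ∧ π a ≠ 0 ∧ gval A π x = HahnSeries.C (π a) * gval A π y := by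
  obtain ⟨hyi, hyr⟩ := inv_mem_gV A π hy hy0
  have hyne : y ≠ 0 := fun h0 => hy0 (by rw [h0, gval_zero])
  have hC : HahnSeries.C c = x * y⁻¹ := by rw [h, mul_assoc, mul_inv_cancel₀ hyne, mul_one]
  have hc : c ∈ A := mem_of_C_mem_gV A π IsLocalRing.residue_surjective (hC ▸ mul_mem hx hyi)
  have e := gval_mul A π (gval_C A π ⟨c, hc⟩).1 hy
  rw [(gval_C A π ⟨c, hc⟩).2] at e
  change gval A π (HahnSeries.C c * y) = _ at e
  rw [← h] at e
  exact ⟨⟨c, hc⟩, rfl, fun h0 => hx0 (by rw [e, h0, map_zero, zero_mul]), e⟩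

/-- Expansions of nonzero functions of level prime to the residue characteristic can be scaled
to nonzero reduction. -/
theorem scalable_of_modularGauss {N ℓ : ℕ} [NeZero N] [Fact ℓ.Prime] (hA : A.LiesOverPrime ℓ)
    (hℓN : ¬ ℓ ∣ N) {y : modularFunctionFieldBar N} (hy : y ≠ 0) :
    Scalable A π (y : LaurentSeries Qb) := by
  obtain ⟨c, hc, hcV, hcr⟩ := Reduction.modularGauss_scale A N hA hℓN y hy
  obtain ⟨a, b, hb, hab⟩ := Reduction.modularGauss_mem.mp hcV
  rw [Reduction.modularGauss_red hb hab] at hcr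
  have hb' : redSer A π (b : LaurentSeries A) ≠ 0 := fun h => hb (Subtype.ext h)
  have ha' : redSer A π (a : LaurentSeries A) ≠ 0 := fun h =>
    (div_ne_zero_iff.mp hcr).1 (Subtype.ext h)
  have he : ((c • y : modularFunctionFieldBar N) : LaurentSeries Qb) *
      incl A (b : LaurentSeries A) = incl A (a : LaurentSeries A) := congrArg Subtype.val hab
  refine ⟨c⁻¹, inv_ne_zero hc, _, ⟨_, _, hb', he⟩, ?_, ?_⟩
  · rw [gval_eq A π hb' he]; exact div_ne_zero ha' hb'
  · rw [IntermediateField.coe_smul, Algebra.smul_def, algebraMap_laurentSeries_eq_single, ← HahnSeries.C_apply, ← mul_assoc,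
      ← map_mul, inv_mul_cancel₀ hc, map_one, one_mul]

/-- The reduction of level `N` is computed on expansions. -/
theorem gval_modularGauss {N : ℕ} [NeZero N] {y : modularFunctionFieldBar N}
    (hy : y ∈ (Reduction.modularGauss A N).V) :
    (y : LaurentSeries Qb) ∈ gV A π ∧
      gval A π (y : LaurentSeries Qb) = ((Reduction.modularGauss A N).red y : LaurentSeries k) := by
  obtain ⟨a, b, hb, hab⟩ := Reduction.modularGauss_mem.mp hy
  have hb' : redSer A π (b : LaurentSeries A) ≠ 0 := fun h => hb (Subtype.ext h)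
  have he : (y : LaurentSeries Qb) * incl A (b : LaurentSeries A) =
      incl A (a : LaurentSeries A) := congrArg Subtype.val hab
  refine ⟨⟨_, _, hb', he⟩, ?_⟩
  rw [gval_eq A π hb' he, Reduction.modularGauss_red hb hab]
  rfl

/-- The expansion of `T_ℓ` of a function with reduction `φ`, at the place. -/
def heckeSer (ℓ : ℕ) [NeZero ℓ] (u : kˣ) (φ : LaurentSeries k) : LaurentSeries k :=
  qExpand k ℓ (qExpand k ℓ φ) * ∏ b : Fin ℓ, Kronecker.twist (u ^ (b : ℕ)) φ

/-- The reduction of `T_ℓ f`. -/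
theorem gval_heckeFun {N ℓ : ℕ} [NeZero N] [NeZero ℓ] (hℓ : ℓ.Prime) (hℓN : ¬ ℓ ∣ N)
    (hsc : ∀ y : modularFunctionFieldBar N, y ≠ 0 → Scalable A π (y : LaurentSeries Qb))
    {u : Aˣ} (hu : IsPrimitiveRoot ((u : A) : Qb) ℓ) {f : modularFunctionFieldBar N}
    (hf : (f : LaurentSeries Qb) ∈ gV A π) (hf0 : gval A π (f : LaurentSeries Qb) ≠ 0) :
    (heckeFun N ℓ f : LaurentSeries Qb) ∈ gV A π ∧
      gval A π (heckeFun N ℓ f : LaurentSeries Qb) ≠ 0 ∧
      qExpand k ℓ (gval A π (heckeFun N ℓ f : LaurentSeries Qb)) =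
        heckeSer ℓ (Units.map (π : A →* k) u) (gval A π (f : LaurentSeries Qb)) := by
  have hne : f ≠ 0 := fun h => hf0 (by rw [h, ZeroMemClass.coe_zero, gval_zero])
  have e := qExpand_heckeFun (N := N) hℓ hℓN (ζ := Units.map (A.subtype : A →* Qb) u) hu f
  obtain ⟨h1, h1'⟩ := gval_qExpand A π ℓ hf
  obtain ⟨h2, h2'⟩ := gval_qExpand A π ℓ h1
  set F := fun b : Fin ℓ =>
    Kronecker.twist ((Units.map (A.subtype : A →* Qb) u) ^ (b : ℕ)) (f : LaurentSeries Qb) with hF
  have hF' : ∀ b, F b ∈ gV A π ∧ gval A π (F b) =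
      Kronecker.twist ((Units.map (π : A →* k) u) ^ (b : ℕ)) (gval A π (f : LaurentSeries Qb)) := by
    intro b
    have := gval_twist A π (u ^ (b : ℕ)) hf
    rwa [map_pow, map_pow] at this
  have hF0 : ∀ b, gval A π (F b) ≠ 0 := fun b h0 => hf0 (HahnSeries.ext (funext fun i => by
    have hi := congrArg (fun z : LaurentSeries k => z.coeff i) ((hF' b).2.symm.trans h0)
    simp only [Kronecker.twist_coeff, HahnSeries.coeff_zero, Units.mul_right_eq_zero] at hi
    exact hi))
  have hprod : ∀ s : Finset (Fin ℓ), (∏ b ∈ s, F b) ∈ gV A π ∧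
      gval A π (∏ b ∈ s, F b) = ∏ b ∈ s, gval A π (F b) := by
    classical
    intro s
    induction s using Finset.induction with
    | empty =>
      exact ⟨by rw [Finset.prod_empty]; exact one_mem _,
        by rw [Finset.prod_empty, Finset.prod_empty, gval_one]⟩
    | insert i s hi ih =>
      rw [Finset.prod_insert hi, Finset.prod_insert hi, gval_mul A π (hF' i).1 ih.1, ih.2]
      exact ⟨mul_mem (hF' i).1 ih.1, rfl⟩
  set B := qExpand Qb ℓ (qExpand Qb ℓ (f : LaurentSeries Qb)) * ∏ b, F b with hB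
  have hBm : B ∈ gV A π := mul_mem h2 (hprod _).1
  have hBv : gval A π B = heckeSer ℓ (Units.map (π : A →* k) u) (gval A π (f : LaurentSeries Qb)) := by
    rw [hB, gval_mul A π h2 (hprod _).1, h2', h1', (hprod _).2, heckeSer]
    exact congrArg _ (Finset.prod_congr rfl fun b _ => (hF' b).2)
  have hB0 : gval A π B ≠ 0 := by
    rw [hB, gval_mul A π h2 (hprod _).1, h2', h1', (hprod _).2]
    refine mul_ne_zero ?_ (Finset.prod_ne_zero_iff.mpr fun b _ => hF0 b)
    rw [map_ne_zero_iff _ (qExpand_injective _), map_ne_zero_iff _ (qExpand_injective _)]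
    exact hf0
  obtain ⟨d, hd, y, hy, hy0, hTy⟩ := hsc _ (heckeFun_ne_zero (ℓ := ℓ) hne)
  rw [hTy, map_mul, qExpand_C'] at e
  obtain ⟨hqy, hqy'⟩ := gval_qExpand A π ℓ hy
  obtain ⟨a, had, ha0, -⟩ := exists_unit_of_C_mul hBm hB0 hqy
    (by rw [hqy', map_ne_zero_iff _ (qExpand_injective _)]; exact hy0) e.symm
  have hT : (heckeFun N ℓ f : LaurentSeries Qb) ∈ gV A π :=
    hTy ▸ had ▸ mul_mem (gval_C A π a).1 hy
  refine ⟨hT, ?_, ?_⟩
  · rw [hTy, ← had, gval_mul A π (gval_C A π a).1 hy, (gval_C A π a).2]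
    exact mul_ne_zero ((map_ne_zero _).mpr ha0) hy0
  · rw [← (gval_qExpand A π ℓ hT).2, hTy, map_mul, qExpand_C', e, hBv]

end Gauss

section Correspondence

open FLTAgent.Kronecker

variable {N : ℕ} [NeZero N] {ℓ : ℕ} {A : ValuationSubring Qb}

/-- Reduction commutes with the Hecke correspondence. -/
theorem mapDomain_correspondence_eq [Fact ℓ.Prime] (hℓN : ¬ ℓ ∣ N) (hA : A.LiesOverPrime ℓ)
    (hNi : ReductionInputsModL A N) (r : ℕ) [NeZero r] (hr : r.Prime) (hrℓ : r ≠ ℓ)
    [HasPrincipalDivisors Qb (laurentBaseChange Qb (modularFunctionFieldFull (N * r)))]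
    (hα : HeckeAlphaBarIntegral Qb N r) (hβ : HeckeBetaBarIntegral Qb N r)
    {D D' : Divisor Qb (modularFunctionFieldBar N)} (hD : Divisor.degree D = 0)
    (hD' : Divisor.degree D' = 0)
    (h : Finsupp.mapDomain hNi.choose D = Finsupp.mapDomain hNi.choose D') :
    Finsupp.mapDomain hNi.choose
        (Divisor.correspondence (heckeBetaBar Qb N r) (heckeAlphaBar Qb N r) hβ hα D) =
      Finsupp.mapDomain hNi.choose
        (Divisor.correspondence (heckeBetaBar Qb N r) (heckeAlphaBar Qb N r) hβ hα D') := by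
  haveI : NeZero (N * r) := ⟨mul_ne_zero (NeZero.ne N) (NeZero.ne _)⟩
  have hℓ : ℓ.Prime := Fact.out
  have hℓM : ¬ ℓ ∣ N * r := fun h => (hℓ.dvd_mul.mp h).elim hℓN
    fun h => hrℓ ((Nat.prime_dvd_prime_iff_eq hℓ hr).mp h).symm
  haveI := GalCommon.isAlgClosed_residueField A hℓ hA
  haveI := FLTAgent.Reduction.isFF_fullC_residue N A hA hℓN
  haveI := FLTAgent.Reduction.isFF_fullC_residue (N * r) A hA hℓM
  haveI := isFF_bar N
  haveI := isFF_bar (N * r)
  have hM := reductionInputs (N * r) hℓ hℓM hA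
  obtain ⟨rM, hrM, -⟩ := id hM
  have hrN := hNi.choose_spec.1
  have hgen := hNi.choose_spec.2
  set k := IsLocalRing.ResidueField A
  have hαk := FLTAgent.FF.isIntegral_alongFF (alphaC k N r)
  have hβk := FLTAgent.FF.isIntegral_alongFF (betaC k N r)
  have hsepα : SeparableAlong k (alphaC k N r) := by
    refine separableAlong_of_adjoin _ (FLTAgent.Reduction.jF N k) ?_
    rw [show alphaC k N r (FLTAgent.Reduction.jF N k) = FLTAgent.Reduction.jF (N * r) k from
      Subtype.ext (coe_alphaC _ N r _)]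
    exact FLTAgent.Reduction.isSeparable_fullC_residue (N * r) A hA hℓM
  have hsep0 : SeparableAlong Qb (heckeAlphaBar Qb N r) := FLTAgent.FF.separableAlong _
  have hsep1 : SeparableAlong Qb (heckeBetaBar Qb N r) := FLTAgent.FF.separableAlong _
  have hres := restrictAlong_compat (heckeAlphaBar Qb N r) hα (alphaC k N r) hαk
    isReductionOf_alpha hrN hrM hgen (deg_eq_one_bar N) (deg_eq_one_bar (N * r))
    FLTAgent.FF.deg_eq_one (hasRiemannBound_bar N)
    (FLTAgent.FF.fundamentalIdentityAlong _ hα hsep0)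
    (FLTAgent.FF.fundamentalIdentityAlong _ hαk hsepα)
    (exists_ramificationIndexAlong_le _ hαk) (finrankAlong_alpha_eq hA hℓN hℓM)
    (exists_reduction_ne hrN (deg_eq_one_bar N))
  have key : ∀ E : Divisor Qb (modularFunctionFieldBar N), Divisor.degree E = 0 →
      Finsupp.mapDomain hNi.choose
        (Divisor.correspondence (heckeBetaBar Qb N r) (heckeAlphaBar Qb N r) hβ hα E) =
      Divisor.pushforwardAlong (alphaC k N r) hαk (Divisor.pullbackAlong (betaC k N r) hβk
        (Finsupp.mapDomain hNi.choose E)) := fun E hE => by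
    refine (mapDomain_pushforwardAlong_compat (heckeAlphaBar Qb N r) hα (alphaC k N r) hαk hres
      (deg_eq_one_bar N) (deg_eq_one_bar (N * r)) FLTAgent.FF.deg_eq_one FLTAgent.FF.deg_eq_one
      _).trans (congrArg _ ?_)
    exact mapDomain_pullbackAlong_compat _ hβ (betaC k N r) hβk isReductionOf_beta hrN hrM hgen
      (deg_eq_one_bar N) (deg_eq_one_bar (N * r)) (hasRiemannBound_bar N)
      (FLTAgent.FF.fundamentalIdentityAlong _ hβ hsep1)
      (exists_ramificationIndexAlong_le _ hβk) hE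
  rw [key D hD, key D' hD', h]

end Correspondence

variable {M q : ℕ} [NeZero M] [NeZero q] (hq : q.Prime) (hqM : ¬ q ∣ M)
  {A : ValuationSubring Qb}

local notation "FQ" => modularFunctionFieldBar (M * q)
local notation "FM" => modularFunctionFieldBar M
local notation "k" => IsLocalRing.ResidueField A
local notation "E0" => modularFunctionFieldFullC k M

include hq hqM in
/-- The reduction of the class attached to an eigen function is an eigen class. -/
theorem exists_pow_or_class (hA : A.LiesOverPrime q) {p : ℕ} [Fact p.Prime]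
    (G : ℕ → Prop) (hG : ∀ ℓ, G ℓ → ℓ.Prime ∧ ¬ ℓ ∣ M * q) (a : ℕ → ℤ) {f : FQ}
    (hI : f ∈ VI A M q) (hI0 : redI A M q f ≠ 0)
    (hdvd : ∀ v : Place k E0,
      (p : ℤ) ∣ v.ord (⟨redI A M q f, redI_mem A M q hq hqM hA f⟩ : E0))
    (heig : ∀ ℓ : ℕ, ∀ _ : NeZero ℓ, G ℓ → ∃ (c : Qb) (g : FQ), c ≠ 0 ∧ g ≠ 0 ∧
      heckeFun (M * q) ℓ f = algebraMap Qb FQ c * f ^ (a ℓ) * g ^ p) :
    (∃ u : E0, redI A M q f = ((u ^ p : E0) : LaurentSeries k)) ∨
      ∃ y : JZero M, reductionModL A M (p • y) = 0 ∧ reductionModL A M y ≠ 0 ∧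
        ∀ (ℓ : ℕ) (hℓ : ℓ.Prime), G ℓ →
          reductionModL A M (heckeOperatorBar M ⟨ℓ, hℓ⟩ y) = a ℓ • reductionModL A M y := by
  classical
  haveI := Fact.mk hq
  haveI := GalCommon.isAlgClosed_residueField A hq hA
  haveI := FLTAgent.Reduction.isFF_fullC_residue M A hA hqM
  haveI := Kronecker.isFF_bar M
  have hp : p.Prime := Fact.out
  have hpZ : (p : ℤ) ≠ 0 := Int.natCast_ne_zero.mpr hp.ne_zero
  have hNi := Kronecker.reductionInputs M hq hqM hA
  have hred := Reduction.isRed_of_isPlaceReductionModL M A hA hqM hNi.choose_spec.1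
  set φ : E0 := ⟨redI A M q f, redI_mem A M q hq hqM hA f⟩ with hφdef
  have hφ : φ ≠ 0 := fun h => hI0 (congrArg Subtype.val h)
  obtain ⟨fM, hfM, hfMr⟩ := (Reduction.modularGauss A M).red_surj φ
  obtain ⟨hfg, hfgv⟩ := gval_modularGauss hfM
  -- the divisor
  have hsurj : ∀ Q : Place k E0, ∃ P : Place Qb FM, hNi.choose P = Q := by
    intro Q
    obtain ⟨g, hg, hgQ⟩ := FF.exists_ord_eq Q 1
    obtain ⟨u, hu, hur⟩ := (Reduction.modularGauss A M).red_surj g
    have h := hred.ord_eq u hu (hur ▸ hg) Q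
    rw [hur, hgQ] at h
    by_contra hne
    push Not at hne
    rw [Finsupp.mapDomain_of_notMem_range _ _ (by rintro ⟨P, hP⟩; exact hne P hP)] at h
    exact one_ne_zero h
  choose σ hσ using hsurj
  let Db : Divisor k E0 :=
    (FF.divisorOf φ).mapRange (fun n : ℤ => n / (p : ℤ)) (Int.zero_ediv _)
  let D : Divisor Qb FM := Finsupp.mapDomain σ Db
  have hDb : Finsupp.mapDomain hNi.choose D = Db := by
    rw [← Finsupp.mapDomain_comp, show hNi.choose ∘ σ = id from funext hσ, Finsupp.mapDomain_id]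
  have hpDb : ∀ Q, (p : ℤ) * Db Q = Q.ord φ := fun Q => by
    rw [Finsupp.mapRange_apply, FF.divisorOf_apply, Int.mul_ediv_cancel' (hdvd Q)]
  have hpDb' : (p : ℤ) • Db = FF.divisorOf φ := Finsupp.ext fun Q => by
    rw [Finsupp.smul_apply, smul_eq_mul, hpDb, FF.divisorOf_apply]
  have hdeg : Divisor.degree D = 0 := by
    rw [← degree_mapDomain_of_deg_eq hNi.choose_spec.1.1, hDb]
    refine mul_left_cancel₀ hpZ ?_
    rw [mul_zero, ← smul_eq_mul, ← map_zsmul, hpDb', FF.degree_divisorOf]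
  set D₀ : Divisor.degZero (K := Qb) (F := FM) := ⟨D, Divisor.mem_degZero.mpr hdeg⟩
  set y : JZero M := Pic0.mk D₀
  have hy : ∀ {E : Divisor.degZero (K := Qb) (F := FM)} {g : E0}, g ≠ 0 →
      (∀ Q, Finsupp.mapDomain hNi.choose (E : Divisor Qb FM) Q = Q.ord g) →
      reductionModL A M (Pic0.mk E) = 0 := fun {E g} hg hE => by
    rw [reductionModL, reductionAlong_mk hNi]
    exact (QuotientAddGroup.eq_zero_iff _).mpr (AddSubgroup.mem_addSubgroupOf.mpr ⟨g, hg, hE⟩)
  have hpy : reductionModL A M (p • y) = 0 := by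
    rw [show p • y = Pic0.mk (p • D₀) from rfl]
    refine hy hφ fun Q => ?_
    rw [AddSubgroupClass.coe_nsmul, ← natCast_zsmul,
      show Finsupp.mapDomain hNi.choose ((p : ℤ) • D) = (p : ℤ) • Db by
        rw [Finsupp.mapDomain_smul, hDb], Finsupp.smul_apply, smul_eq_mul, hpDb]
  by_cases hy0 : reductionModL A M y = 0
  · left
    rw [reductionModL, reductionAlong_mk hNi] at hy0
    obtain ⟨u, hu, hud⟩ := AddSubgroup.mem_addSubgroupOf.mp ((QuotientAddGroup.eq_zero_iff _).mp hy0)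
    have hud' : ∀ Q, Db Q = Q.ord u := fun Q => by rw [← hDb]; exact hud Q
    obtain ⟨c, hc⟩ := FF.mem_range_of_forall_ord_nonneg (K := k) (f := φ / u ^ p) fun Q =>
      le_of_eq <| by
        rw [FF.ord_div _ hφ (pow_ne_zero p hu), FF.ord_pow, ← hud', hpDb, sub_self]
    obtain ⟨c₀, hc₀⟩ := IsAlgClosed.exists_pow_nat_eq c hp.pos
    refine ⟨algebraMap k E0 c₀ * u, ?_⟩
    show (φ : LaurentSeries k) = _
    rw [mul_pow, ← map_pow, hc₀, hc, div_mul_cancel₀ _ (pow_ne_zero p hu)]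
  refine Or.inr ⟨y, hpy, hy0, fun ℓ hℓ hGℓ => ?_⟩
  haveI : NeZero ℓ := ⟨hℓ.ne_zero⟩
  have hℓN := (hG ℓ hGℓ).2
  have hℓM : ¬ ℓ ∣ M := fun h => hℓN (h.mul_right q)
  have hℓq : ℓ ≠ q := fun h => hℓN (h ▸ dvd_mul_left q M)
  obtain ⟨ζ₀, hζ₀⟩ := HasEnoughRootsOfUnity.exists_primitiveRoot Qb ℓ
  obtain ⟨ζ, rfl⟩ := hζ₀.isUnit (NeZero.ne ℓ)
  obtain ⟨v, hv⟩ := exists_unit_of_pow_eq_one (A := A) (NeZero.ne ℓ) (ζ := ζ)
    (Units.ext (by rw [Units.val_pow_eq_pow_val, hζ₀.pow_eq_one, Units.val_one]))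
  have hprim : IsPrimitiveRoot ((v : A) : Qb) ℓ := by rw [← hv] at hζ₀; exact hζ₀
  have hfg0 : gval A (IsLocalRing.residue A) (fM : LaurentSeries Qb) ≠ 0 := by
    rw [hfgv, hfMr]; exact hI0
  obtain ⟨hT, hT0, hTq⟩ := gval_heckeFun hℓ hℓM
    (fun y hy => scalable_of_modularGauss hA hqM hy) hprim hfg hfg0
  obtain ⟨hU, hU0, hUq⟩ := gval_heckeFun hℓ hℓN
    (fun y hy => scalable_coe A M q hq hA hy) hprim (f := f) hI hI0
  have hTU : gval A (IsLocalRing.residue A) (heckeFun M ℓ fM : LaurentSeries Qb) =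
      redI A M q (heckeFun (M * q) ℓ f) := by
    refine qExpand_injective ℓ ?_
    rw [hTq, hfgv, hfMr]
    exact hUq.symm
  -- the eigen relation on the component
  obtain ⟨c, g, hc, hg, hrel⟩ := heig ℓ ‹_› hGℓ
  obtain ⟨d, hd, g₁, hg₁, hg₁0, hge⟩ := scalable_coe A M q hq hA hg
  have hd' : algebraMap Qb FQ d ≠ 0 := (map_ne_zero _).mpr hd
  set g' : FQ := algebraMap Qb FQ d⁻¹ * g with hg'
  have hg'coe : (g' : LaurentSeries Qb) = g₁ := by
    rw [hg', coe_const_mul, hge, ← mul_assoc, ← map_mul, inv_mul_cancel₀ hd, map_one, one_mul]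
  have hg'I : g' ∈ VI A M q := by rw [mem_VI, hg'coe]; exact hg₁
  have hg'0 : redI A M q g' ≠ 0 := by rw [redI, hg'coe]; exact hg₁0
  have hfa : f ^ (a ℓ) ∈ VI A M q ∧ redI A M q (f ^ (a ℓ)) = redI A M q f ^ (a ℓ) := by
    have hnat : ∀ n : ℕ, f ^ n ∈ VI A M q ∧ redI A M q (f ^ n) = redI A M q f ^ n := fun n => by
      induction n with
      | zero => exact ⟨by rw [pow_zero]; exact one_mem _, by rw [pow_zero, pow_zero, redI_one]⟩
      | succ n ih =>
        rw [pow_succ, pow_succ, redI_mul A M q ih.1 hI, ih.2]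
        exact ⟨mul_mem ih.1 hI, rfl⟩
    obtain ⟨n, hn | hn⟩ := (a ℓ).eq_nat_or_neg
    · rw [hn, zpow_natCast, zpow_natCast]; exact hnat n
    · rw [hn, zpow_neg, zpow_natCast, zpow_neg, zpow_natCast]
      obtain ⟨hi, hir⟩ := inv_mem_VI A M q (hnat n).1 ((hnat n).2 ▸ pow_ne_zero n hI0)
      exact ⟨hi, by rw [hir, (hnat n).2]⟩
  have hgp : g' ^ p ∈ VI A M q ∧ redI A M q (g' ^ p) = redI A M q g' ^ p := by
    have : ∀ n : ℕ, redI A M q (g' ^ n) = redI A M q g' ^ n := fun n => by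
      induction n with
      | zero => rw [pow_zero, pow_zero, redI_one]
      | succ n ih => rw [pow_succ, pow_succ, redI_mul A M q (pow_mem hg'I n) hg'I, ih]
    exact ⟨pow_mem hg'I p, this p⟩
  have hprodI : f ^ (a ℓ) * g' ^ p ∈ VI A M q := mul_mem hfa.1 hgp.1
  have hprod0 : redI A M q (f ^ (a ℓ) * g' ^ p) ≠ 0 := by
    rw [redI_mul A M q hfa.1 hgp.1, hfa.2, hgp.2]
    exact mul_ne_zero (zpow_ne_zero _ hI0) (pow_ne_zero p hg'0)
  have hrel' : (heckeFun (M * q) ℓ f : LaurentSeries Qb) =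
      HahnSeries.C (c * d ^ p) * ((f ^ (a ℓ) * g' ^ p : FQ) : LaurentSeries Qb) := by
    rw [← coe_const_mul]
    refine congrArg Subtype.val ?_
    have hgd : g = algebraMap Qb FQ d * g' := by
      rw [hg', ← mul_assoc, ← map_mul, mul_inv_cancel₀ hd, map_one, one_mul]
    rw [hrel, hgd, mul_pow, map_mul, map_pow]
    ring
  obtain ⟨e, -, he0, hee⟩ := exists_unit_of_C_mul hU hU0 hprodI hprod0 hrel'
  set gb : E0 := ⟨redI A M q g', redI_mem A M q hq hqM hA g'⟩ with hgb
  have hgb0 : gb ≠ 0 := fun h => hg'0 (congrArg Subtype.val h)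
  set w : E0 := algebraMap k E0 (IsLocalRing.residue A e) * φ ^ (a ℓ) * gb ^ p with hw
  -- the translate at level `M`
  have hTne : heckeFun M ℓ fM ≠ 0 := fun h => hT0 (by rw [h, ZeroMemClass.coe_zero, gval_zero])
  obtain ⟨c', hc', hcV, hcr⟩ := Reduction.modularGauss_scale A M hA hqM _ hTne
  obtain ⟨hcg, hcgv⟩ := gval_modularGauss hcV
  have hcoe : ((c' • heckeFun M ℓ fM : FM) : LaurentSeries Qb) =
      HahnSeries.C c' * (heckeFun M ℓ fM : LaurentSeries Qb) := by
    rw [IntermediateField.coe_smul, Algebra.smul_def, algebraMap_laurentSeries_eq_single]; rfl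
  obtain ⟨c'', -, hc''0, hce⟩ := exists_unit_of_C_mul hcg
    (fun h => hcr (Subtype.ext (hcgv.symm.trans h))) hT hT0 hcoe
  have hredw : (Reduction.modularGauss A M).red (c' • heckeFun M ℓ fM) =
      algebraMap k E0 (IsLocalRing.residue A c'') * w := by
    refine Subtype.ext ?_
    rw [← hcgv, hce, hTU, redI, hee]
    change _ * (_ * redI A M q (f ^ (a ℓ) * g' ^ p)) = _
    rw [redI_mul A M q hfa.1 hgp.1, hfa.2, hgp.2]
    show _ = algebraMap k (LaurentSeries k) _ * (algebraMap k (LaurentSeries k) _ *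
      (φ : LaurentSeries k) ^ (a ℓ) * (gb : LaurentSeries k) ^ p)
    rw [algebraMap_laurentSeries_eq_single, algebraMap_laurentSeries_eq_single, ← HahnSeries.C_apply,
      ← HahnSeries.C_apply, mul_assoc]
  obtain ⟨hα, hβ, hP, hfin, hFI, hNF⟩ := Kronecker.heckeInputs_bar M ℓ
  haveI := hP
  haveI : NeZero (M * ℓ) := ⟨mul_ne_zero (NeZero.ne M) (NeZero.ne ℓ)⟩
  haveI := Kronecker.isFF_bar (M * ℓ)
  set corr := Divisor.correspondence (heckeBetaBar Qb M ℓ) (heckeAlphaBar Qb M ℓ) hβ hα with hcorr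
  -- the translate of the divisor
  have hfM0 : fM ≠ 0 := fun h => hfg0 (by rw [h, ZeroMemClass.coe_zero, gval_zero])
  have hcorrdiv : ∀ P, corr (FF.divisorOf fM) P = P.ord (heckeFun M ℓ fM) := fun P => by
    unfold NormFormulaAlong at hNF
    exact hNF _ ((map_ne_zero _).mpr hfM0) _ (fun W =>
      (Divisor.pullbackAlong_apply (heckeBetaBar Qb M ℓ) hβ _ W).trans
        ((congrArg _ (FF.divisorOf_apply fM _)).trans
          (Place.ord_restrictAlong (heckeBetaBar Qb M ℓ) hβ W fM).symm)) P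
  have hmap : Finsupp.mapDomain hNi.choose ((p : ℤ) • D) =
      Finsupp.mapDomain hNi.choose (FF.divisorOf fM) := by
    rw [Finsupp.mapDomain_smul, hDb, hpDb']
    refine Finsupp.ext fun Q => ?_
    have h := hred.ord_eq fM hfM (hfMr ▸ hφ) Q
    rw [hfMr] at h
    rw [FF.divisorOf_apply, h]
    exact congrArg (fun E => Finsupp.mapDomain hNi.choose E Q)
      (Finsupp.ext fun P => (hred.curve.divOf_apply fM P).trans (FF.divisorOf_apply fM P).symm)
  have hcompat := mapDomain_correspondence_eq hqM hA hNi ℓ hℓ hℓq hα hβ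
    (by rw [map_zsmul, hdeg, smul_zero]) (FF.degree_divisorOf fM) hmap
  have hΔ : ∀ Q, (p : ℤ) * Finsupp.mapDomain hNi.choose (corr D) Q =
      (p : ℤ) * (a ℓ * Db Q + Q.ord gb) := fun Q => by
    have h1 := congrArg (fun E => E Q) hcompat
    simp only [map_zsmul, Finsupp.mapDomain_smul, Finsupp.smul_apply, smul_eq_mul] at h1
    rw [hcorr, h1]
    have h2 := hred.ord_eq _ hcV hcr Q
    have hs : (Reduction.divOf (c' • heckeFun M ℓ fM) : Divisor Qb FM) = corr (FF.divisorOf fM) :=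
      Finsupp.ext fun P => by
        rw [hred.curve.divOf_apply, hcorrdiv, Algebra.smul_def,
          P.ord_mul ((map_ne_zero _).mpr hc') hTne, FF.ord_algebraMap, zero_add]
    rw [hs, hredw] at h2
    change Q.ord _ = _ at h2
    rw [← hcorr, ← h2]
    have hw0 : φ ^ (a ℓ) ≠ 0 := zpow_ne_zero _ hφ
    have he' : algebraMap k E0 (IsLocalRing.residue A e) ≠ 0 := (map_ne_zero _).mpr he0
    rw [hw, Q.ord_mul ((map_ne_zero _).mpr hc''0)
        (mul_ne_zero (mul_ne_zero he' hw0) (pow_ne_zero p hgb0)),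
      Q.ord_mul (mul_ne_zero he' hw0) (pow_ne_zero p hgb0), Q.ord_mul he' hw0, FF.ord_algebraMap,
      FF.ord_algebraMap, Q.ord_zpow, FF.ord_pow, ← hpDb]
    ring
  have hgoal : reductionModL A M (heckeOperatorBar M ⟨ℓ, hℓ⟩ y - a ℓ • y) = 0 := by
    rw [show heckeOperatorBar M ⟨ℓ, hℓ⟩ y = heckeOperatorAlong Qb M ℓ y from rfl,
      heckeOperatorAlong_eq hα hβ hFI hfin hNF, heckePic0Bar]
    have e1 := Pic0.correspondence_mk (heckeBetaBar Qb M ℓ) (heckeAlphaBar Qb M ℓ) hβ hα hFI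
      hfin hNF D₀
    rw [show Pic0.correspondence (heckeBetaBar Qb M ℓ) (heckeAlphaBar Qb M ℓ) hβ hα hFI hfin hNF y
        = _ from e1,
      show a ℓ • y = Pic0.mk (a ℓ • D₀) from rfl,
      show ∀ x x' : Divisor.degZero (K := Qb) (F := FM), Pic0.mk x - Pic0.mk x' = Pic0.mk (x - x')
        from fun _ _ => rfl]
    refine hy hgb0 fun Q => ?_
    rw [AddSubgroupClass.coe_sub, AddSubgroupClass.coe_zsmul, Finsupp.mapDomain_sub,
      Finsupp.sub_apply, Finsupp.mapDomain_smul, hDb, Finsupp.smul_apply, smul_eq_mul]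
    change Finsupp.mapDomain hNi.choose (corr D) Q - _ = _
    rw [mul_left_cancel₀ hpZ (hΔ Q)]
    ring
  rwa [map_sub, map_zsmul, sub_eq_zero] at hgoal

/-- The reduction of an eigen function with divisor divisible by `p` is a `p`-th power, or gives
an eigen class of order `p` of level `M`. -/
theorem exists_pow_or_torsion (hA : A.LiesOverPrime q) {p : ℕ} [Fact p.Prime] (hpq : p ≠ q)
    (G : ℕ → Prop) (hG : ∀ ℓ, G ℓ → ℓ.Prime ∧ ¬ ℓ ∣ M * q) (a : ℕ → ℤ) {f : FQ}
    (hI : f ∈ VI A M q) (hI0 : redI A M q f ≠ 0)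
    (hdvd : ∀ v : Place k E0,
      (p : ℤ) ∣ v.ord (⟨redI A M q f, redI_mem A M q hq hqM hA f⟩ : E0))
    (heig : ∀ ℓ : ℕ, ∀ _ : NeZero ℓ, G ℓ → ∃ (c : Qb) (g : FQ), c ≠ 0 ∧ g ≠ 0 ∧
      heckeFun (M * q) ℓ f = algebraMap Qb FQ c * f ^ (a ℓ) * g ^ p) :
    (∃ u : E0, redI A M q f = ((u ^ p : E0) : LaurentSeries k)) ∨
      ∃ z : JZero M, z ≠ 0 ∧ p • z = 0 ∧
        ∀ (ℓ : ℕ) (hℓ : ℓ.Prime), G ℓ → heckeOperatorBar M ⟨ℓ, hℓ⟩ z = a ℓ • z := by
  haveI := Fact.mk hq
  rcases exists_pow_or_class hq hqM hA G hG a hI hI0 hdvd heig with h | ⟨y, hp, hy, he⟩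
  · exact Or.inl h
  · exact Or.inr (exists_torsion_eigen_of_red_eigen hqM hA hpq G a y hp hy he)

end FLTAgent.LowerQ
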