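import Fermat.Agent.LowerQ.Descent
import Fermat.Agent.LowerQ.Gauss
import Fermat.Agent.LowerQ.Rigidity
import Fermat.Agent.LowerQ.Special

/-!
# Mazur's principle at `q ≠ p` for one class

`frob_eq_or_exists_torsion`: for a non-Eisenstein eigen class `z ∈ J₀(Mq)[p]` fixed by inertia at
`q`, assuming that reductions of normalised functions have divisor divisible by `p`, either
Frobenius sends `z` to `-q` times its image under the Atkin–Lehner involution, or `J₀(M)` has an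
eigen class of order `p`. A normalised function of `z` (`exists_normal`) has two reductions; each
is a `p`-th power or gives a class of level `M` (`exists_pow_or_torsion`), and two powers force the
Frobenius relation (`frob_eq_of_red_pow`).
-/

set_option autoImplicit false
set_option linter.style.haveILetI false
set_option linter.unusedSectionVars false

noncomputable section

open ModularCurve AlgebraicCurve

namespace FLTAgent.LowerQ

open FLTAgent.BadQ

local notation "Qb" => AlgebraicClosure ℚ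
local notation "Γℚ" => (AlgebraicClosure ℚ ≃ₐ[ℚ] AlgebraicClosure ℚ)

variable {M q : ℕ} [NeZero M] [NeZero q] (hq : q.Prime) (hqM : ¬ q ∣ M)

local notation "FQ" => modularFunctionFieldBar (M * q)

/-- The involution on the Jacobian. -/
def wHom : JZero (M * q) →+ JZero (M * q) :=
  DistribSMul.toAddMonoidHom (JZero (M * q)) (wAut hq hqM)

theorem wHom_wHom (z : JZero (M * q)) : wHom hq hqM (wHom hq hqM z) = z := by
  show wAut hq hqM • wAut hq hqM • z = z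
  rw [← mul_smul, wAut_mul_self, one_smul]

theorem wHom_galois (σ : Γℚ) (z : JZero (M * q)) :
    wHom hq hqM (σ • z) = σ • wHom hq hqM z := by
  show wAut hq hqM • galF (M * q) σ • z = galF (M * q) σ • wAut hq hqM • z
  rw [← mul_smul, ← mul_smul, wAut_mul_galF]

include hq hqM in
/-- Mazur's principle for one class: a non-Eisenstein eigen class of order `p` fixed by inertia
gives an eigen class of order `p` of level `M`, or Frobenius acts on it as `-q` times the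
involution. -/
theorem frob_eq_or_exists_torsion {A : ValuationSubring Qb} (hA : A.LiesOverPrime q)
    {p : ℕ} [Fact p.Prime] (hpq : p ≠ q)
    (hdvd : ∀ f : FQ, Normal hq hqM (A := A) p f →
      ∀ v : Place (IsLocalRing.ResidueField A)
        (modularFunctionFieldFullC (IsLocalRing.ResidueField A) M),
        (p : ℤ) ∣ v.ord (⟨redI A M q f, redI_mem A M q hq hqM hA f⟩ :
          modularFunctionFieldFullC (IsLocalRing.ResidueField A) M))
    (G : ℕ → Prop) (hG : ∀ ℓ, G ℓ → ℓ.Prime ∧ ¬ ℓ ∣ M * q) (a : ℕ → ℤ)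
    (hne : ∃ ℓ, G ℓ ∧ ¬ (p : ℤ) ∣ a ℓ - 1 - ℓ) {z : JZero (M * q)} (hz : p • z = 0)
    (hI : ∀ σ ∈ A.inertiaSubgroupIn ℚ, σ • z = z)
    (heigz : ∀ (ℓ : ℕ) (hℓ : ℓ.Prime), G ℓ → heckeOperatorBar (M * q) ⟨ℓ, hℓ⟩ z = a ℓ • z)
    {σ₀ : Γℚ} (hσ₀ : A.IsFrobeniusAt σ₀ q) :
    σ₀ • z = -(q • wHom hq hqM z) ∨
      ∃ x : JZero M, x ≠ 0 ∧ p • x = 0 ∧
        ∀ (ℓ : ℕ) (hℓ : ℓ.Prime), G ℓ → heckeOperatorBar M ⟨ℓ, hℓ⟩ x = a ℓ • x := by
  rw [or_iff_not_imp_right]
  intro hnot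
  obtain ⟨ℓ₀, hℓ₀, hne₀⟩ := hne
  obtain ⟨D, f, hDz, hf, hdiv⟩ := exists_normal hq hqM hA hpq hz hI (hG ℓ₀ hℓ₀).1 (hG ℓ₀ hℓ₀).2
    (heigz ℓ₀ (hG ℓ₀ hℓ₀).1 hℓ₀) hne₀
  have heig : ∀ ℓ : ℕ, ∀ _ : NeZero ℓ, G ℓ → ∃ (c : Qb) (g : FQ), c ≠ 0 ∧ g ≠ 0 ∧
      heckeFun (M * q) ℓ f = algebraMap Qb FQ c * f ^ (a ℓ) * g ^ p := fun ℓ _ h =>
    exists_heckeFun_eq (hG ℓ h).1 hf.ne_zero D hdiv _ (hDz ▸ heigz ℓ (hG ℓ h).1 h)
  have heigw : ∀ ℓ : ℕ, ∀ _ : NeZero ℓ, G ℓ → ∃ (c : Qb) (g : FQ), c ≠ 0 ∧ g ≠ 0 ∧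
      heckeFun (M * q) ℓ (atkinLehner hq hqM f) =
        algebraMap Qb FQ c * atkinLehner hq hqM f ^ (a ℓ) * g ^ p := fun ℓ _ h => by
    obtain ⟨c, g, hc, hg, e⟩ := heig ℓ ‹_› h
    refine ⟨c, atkinLehner hq hqM g, hc, (map_ne_zero _).mpr hg, ?_⟩
    rw [← atkinLehner_heckeFun hq hqM (hG ℓ h).1 (hG ℓ h).2 f, e]
    simp only [map_mul, map_pow, map_zpow₀, AlgHom.commutes]
  have hpow : ∀ f' : FQ, Normal hq hqM (A := A) p f' →
      (∀ ℓ : ℕ, ∀ _ : NeZero ℓ, G ℓ → ∃ (c : Qb) (g : FQ), c ≠ 0 ∧ g ≠ 0 ∧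
        heckeFun (M * q) ℓ f' = algebraMap Qb FQ c * f' ^ (a ℓ) * g ^ p) →
      ∃ u : modularFunctionFieldFullC (IsLocalRing.ResidueField A) M,
        redI A M q f' = ((u ^ p : modularFunctionFieldFullC (IsLocalRing.ResidueField A) M) :
          LaurentSeries (IsLocalRing.ResidueField A)) := fun f' hf' he =>
    (exists_pow_or_torsion hq hqM hA hpq G hG a hf'.memI hf'.redI_ne
      (hdvd f' hf') he).resolve_right hnot
  obtain ⟨uI, huI⟩ := hpow f hf heig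
  obtain ⟨uO, huO⟩ := hpow _ (hf.wAL hq hqM) heigw
  rw [← hDz]
  exact frob_eq_of_red_pow hq hqM hA hpq hf hdiv huI huO hσ₀

end FLTAgent.LowerQ
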