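import Mathlib

/-!
# Linear algebra of an odd irreducible plane

For a two-dimensional irreducible representation `ρ` over `ZMod p`, `p ≠ 2`, with an involution of
determinant `-1`, and a nonzero `p`-torsion module `S` killed by every integral combination of group
elements that kills `ρ`, `eval_eq_zero` shows conversely that a combination killing `S` kills the
plane. The proof tests against the rank one elements `1 ± c₀`. `exists_scalar_of_commute`: an
endomorphism commuting with `ρ` is a scalar.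
-/

set_option autoImplicit false
set_option linter.style.haveILetI false
set_option linter.unusedSectionVars false

noncomputable section

namespace FLTAgent.LowerQ

variable {p : ℕ} [Fact p.Prime] {Γ : Type*} [Group Γ] {V : Type*} [AddCommGroup V]
  [Module (ZMod p) V] (ρ : Γ →* Module.End (ZMod p) V)

/-- Integral combinations of group elements acting on `V`. -/
def evalV : MonoidAlgebra ℤ Γ →ₐ[ℤ] Module.End (ZMod p) V := MonoidAlgebra.lift ℤ _ _ ρ

theorem evalV_of (σ : Γ) : evalV ρ (MonoidAlgebra.of ℤ Γ σ) = ρ σ := MonoidAlgebra.lift_of ..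

variable (Γ) in
/-- Integral combinations of group elements acting on a module. -/
def evalJ (J : Type*) [AddCommGroup J] [DistribMulAction Γ J] :
    MonoidAlgebra ℤ Γ →ₐ[ℤ] AddMonoid.End J :=
  MonoidAlgebra.lift ℤ _ _ (DistribMulAction.toAddMonoidEnd Γ J)

theorem evalJ_of {J : Type*} [AddCommGroup J] [DistribMulAction Γ J] (σ : Γ) (z : J) :
    evalJ Γ J (MonoidAlgebra.of ℤ Γ σ) z = σ • z := by
  rw [evalJ, MonoidAlgebra.lift_of]
  rfl

variable (hirr : ∀ N : Submodule (ZMod p) V, (∀ σ, ∀ x ∈ N, ρ σ x ∈ N) → N = ⊥ ∨ N = ⊤)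
include hirr

/-- A nonzero vector is cyclic. -/
theorem exists_eval_eq {u : V} (hu : u ≠ 0) (v : V) : ∃ a, evalV ρ a u = v := by
  let N : Submodule (ZMod p) V :=
    { carrier := Set.range fun a => evalV ρ a u
      zero_mem' := ⟨0, by simp⟩
      add_mem' := by rintro _ _ ⟨a, rfl⟩ ⟨b, rfl⟩; exact ⟨a + b, by simp⟩
      smul_mem' := by
        rintro c _ ⟨a, rfl⟩
        obtain ⟨n, rfl⟩ := ZMod.natCast_zmod_surjective c
        exact ⟨n • a, by simp [Nat.cast_smul_eq_nsmul]⟩ }
  have hN : N = ⊥ ∨ N = ⊤ := hirr N fun σ x hx => by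
    obtain ⟨a, rfl⟩ := hx
    exact ⟨MonoidAlgebra.of ℤ Γ σ * a, by simp only [map_mul, evalV_of, Module.End.mul_apply]⟩
  have huN : u ∈ N := ⟨1, by simp⟩
  rcases hN with h | h
  · rw [h, Submodule.mem_bot] at huN
    exact absurd huN hu
  · exact (h ▸ Submodule.mem_top : v ∈ N)

/-- An element killing an isotypic module kills `V`, tested through an element of rank one. -/
theorem eval_eq_zero_of_kills {J : Type*} [AddCommGroup J] [DistribMulAction Γ J]
    (S : AddSubgroup J) (hst : ∀ σ : Γ, ∀ z ∈ S, σ • z ∈ S)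
    (hrel : ∀ x, evalV ρ x = 0 → ∀ z ∈ S, evalJ Γ J x z = 0)
    {x : MonoidAlgebra ℤ Γ} (hx : ∀ z ∈ S, evalJ Γ J x z = 0) (hne : evalV ρ x ≠ 0)
    {E : MonoidAlgebra ℤ Γ} {v : V} (hv : v ≠ 0) (hline : ∀ w, ∃ c : ZMod p, evalV ρ E w = c • v) :
    ∀ z ∈ S, evalJ Γ J (E * E) z = 0 := by
  obtain ⟨u, hu⟩ : ∃ u, evalV ρ x u ≠ 0 := by
    by_contra h
    push Not at h
    exact hne (LinearMap.ext h)
  obtain ⟨b, hb⟩ := exists_eval_eq ρ hirr hv u
  obtain ⟨a, ha⟩ := exists_eval_eq ρ hirr hu v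
  have hmem : ∀ (y : MonoidAlgebra ℤ Γ), ∀ z ∈ S, evalJ Γ J y z ∈ S := by
    intro y z hz
    induction y using MonoidAlgebra.induction_on with
    | of g => rw [evalJ_of]; exact hst g z hz
    | add f g hf hg => rw [map_add]; exact add_mem hf hg
    | smul r f hf => rw [map_zsmul]; exact AddSubgroup.zsmul_mem _ hf r
  have hy : evalV ρ (E * a * x * b * E - E * E) = 0 := by
    refine LinearMap.ext fun w => ?_
    obtain ⟨c, hc⟩ := hline w
    simp only [map_sub, map_mul, LinearMap.sub_apply, Module.End.mul_apply, LinearMap.zero_apply,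
      hc, map_smul, hb, ha, sub_self]
  intro z hz
  have h := hrel _ hy z hz
  rw [map_sub] at h
  have h1 : evalJ Γ J (E * a * x * b * E) z = 0 := by
    rw [mul_assoc (E * a * x), mul_assoc (E * a) x, map_mul, map_mul, map_mul]
    show evalJ Γ J E (evalJ Γ J a (evalJ Γ J x (evalJ Γ J (b * E) z))) = 0
    rw [hx _ (hmem _ _ hz), map_zero, map_zero]
  change evalJ Γ J (E * a * x * b * E) z - evalJ Γ J (E * E) z = 0 at h
  rwa [h1, zero_sub, neg_eq_zero] at h

variable (hdim : Module.finrank (ZMod p) V = 2) (hp2 : p ≠ 2) {c₀ : Γ} (hc₀ : ρ c₀ * ρ c₀ = 1)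
  (hdet₀ : LinearMap.det (ρ c₀) = -1)
include hdim hp2 hc₀ hdet₀

omit hirr in
theorem two_ne_zero_zmod : (2 : ZMod p) ≠ 0 := by
  intro h
  have h1 : p ∣ 2 := (ZMod.natCast_eq_zero_iff 2 p).mp (by exact_mod_cast h)
  exact hp2 ((Nat.prime_dvd_prime_iff_eq Fact.out Nat.prime_two).mp h1)

omit hirr in
/-- The eigenlines of an involution of determinant `-1`. -/
theorem exists_lines : ∃ v₁ v₂ : V, v₁ ≠ 0 ∧ v₂ ≠ 0 ∧ ρ c₀ v₁ = v₁ ∧ ρ c₀ v₂ = -v₂ ∧
    ∀ w : V, ∃ a b : ZMod p, w = a • v₁ + b • v₂ := by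
  haveI : Module.Finite (ZMod p) V := Module.finite_of_finrank_pos (by omega)
  have h2 := two_ne_zero_zmod ρ hdim hp2 hc₀ hdet₀
  set C := ρ c₀ with hC
  have hCC : ∀ w, C (C w) = w := fun w => by rw [← Module.End.mul_apply, hc₀]; rfl
  have hm1 : LinearMap.det (-1 : Module.End (ZMod p) V) = 1 := by
    rw [show (-1 : Module.End (ZMod p) V) = (-1 : ZMod p) • LinearMap.id by
      rw [neg_one_smul]; rfl, LinearMap.det_smul, hdim, LinearMap.det_id]
    ring
  have hne1 : C ≠ 1 := fun h => h2 (by rw [h, map_one] at hdet₀; linear_combination hdet₀)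
  have hne2 : C ≠ -1 := fun h => h2 (by rw [h, hm1] at hdet₀; linear_combination hdet₀)
  obtain ⟨u₁, hu₁⟩ : ∃ u, u + C u ≠ 0 := by
    by_contra h
    push Not at h
    exact hne2 (LinearMap.ext fun w => eq_neg_of_add_eq_zero_right (h w))
  obtain ⟨u₂, hu₂⟩ : ∃ u, u - C u ≠ 0 := by
    by_contra h
    push Not at h
    exact hne1 (LinearMap.ext fun w => (sub_eq_zero.mp (h w)).symm)
  refine ⟨u₁ + C u₁, u₂ - C u₂, hu₁, hu₂, by rw [map_add, hCC, add_comm],
    by rw [map_sub, hCC, neg_sub], ?_⟩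
  have hind : LinearIndependent (ZMod p) ![u₁ + C u₁, u₂ - C u₂] := by
    refine LinearIndependent.pair_iff.mpr fun a b hab => ?_
    have h' := congrArg C hab
    rw [map_add, map_smul, map_smul, map_add, hCC, map_sub, hCC, map_zero] at h'
    have ha : (2 * a) • (u₁ + C u₁) = 0 := by linear_combination (norm := module) hab + h'
    have hb : (2 * b) • (u₂ - C u₂) = 0 := by linear_combination (norm := module) hab - h'
    exact ⟨(mul_eq_zero.mp ((smul_eq_zero.mp ha).resolve_right hu₁)).resolve_left h2,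
      (mul_eq_zero.mp ((smul_eq_zero.mp hb).resolve_right hu₂)).resolve_left h2⟩
  intro w
  have hw : w ∈ Submodule.span (ZMod p) (Set.range ![u₁ + C u₁, u₂ - C u₂]) := by
    rw [hind.span_eq_top_of_card_eq_finrank (by rw [hdim, Fintype.card_fin])]
    exact Submodule.mem_top
  rw [Matrix.range_cons_cons_empty, Submodule.mem_span_pair] at hw
  obtain ⟨a, b, h⟩ := hw
  exact ⟨a, b, h.symm⟩

/-- An element killing a nonzero isotypic module killed by `p` acts as zero on `V`. -/
theorem eval_eq_zero {J : Type*} [AddCommGroup J] [DistribMulAction Γ J]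
    (S : AddSubgroup J) (hS : S ≠ ⊥) (htor : ∀ z ∈ S, p • z = 0)
    (hst : ∀ σ : Γ, ∀ z ∈ S, σ • z ∈ S) (hrel : ∀ x, evalV ρ x = 0 → ∀ z ∈ S, evalJ Γ J x z = 0)
    {x : MonoidAlgebra ℤ Γ} (hx : ∀ z ∈ S, evalJ Γ J x z = 0) : evalV ρ x = 0 := by
  by_contra hne
  obtain ⟨v₁, v₂, hv₁, hv₂, hC₁, hC₂, hsp⟩ := exists_lines ρ hdim hp2 hc₀ hdet₀
  set e := MonoidAlgebra.of ℤ Γ c₀ with he
  have he_apply : ∀ w, evalV ρ e w = ρ c₀ w := fun w => by rw [he, evalV_of]
  have h1 := eval_eq_zero_of_kills ρ hirr S hst hrel hx hne (E := 1 + e) hv₁ fun w => by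
    obtain ⟨a, b, rfl⟩ := hsp w
    refine ⟨2 * a, ?_⟩
    simp only [map_add, map_one, LinearMap.add_apply, Module.End.one_apply, map_smul, he_apply,
      hC₁, hC₂]
    module
  have h2 := eval_eq_zero_of_kills ρ hirr S hst hrel hx hne (E := 1 - e) hv₂ fun w => by
    obtain ⟨a, b, rfl⟩ := hsp w
    refine ⟨2 * b, ?_⟩
    simp only [map_sub, map_add, map_one, LinearMap.sub_apply, Module.End.one_apply, map_smul,
      he_apply, hC₁, hC₂]
    module
  have hee : ∀ z ∈ S, evalJ Γ J (e * e) z = z := fun z hz => by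
    have h := hrel (e * e - 1) (LinearMap.ext fun w => by
      simp only [map_sub, map_mul, map_one, LinearMap.sub_apply, Module.End.mul_apply, he_apply,
        Module.End.one_apply, LinearMap.zero_apply]
      rw [← Module.End.mul_apply, hc₀, Module.End.one_apply, sub_self]) z hz
    rw [map_sub, map_one] at h
    exact sub_eq_zero.mp h
  refine hS ((AddSubgroup.eq_bot_iff_forall _).mpr fun z hz => ?_)
  have h4 : (4 : ℤ) • z = 0 := by
    have hsum := congrArg₂ (· + ·) (h1 z hz) (h2 z hz)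
    simp only [add_zero] at hsum
    have e1 : (1 + e) * (1 + e) + (1 - e) * (1 - e) = (2 : ℤ) • 1 + (2 : ℤ) • (e * e) := by
      noncomm_ring
    change (evalJ Γ J ((1 + e) * (1 + e)) + evalJ Γ J ((1 - e) * (1 - e))) z = 0 at hsum
    rw [← map_add, e1, map_add, map_zsmul, map_zsmul, map_one] at hsum
    change (2 : ℤ) • z + (2 : ℤ) • evalJ Γ J (e * e) z = 0 at hsum
    rw [hee z hz, ← add_smul] at hsum
    exact hsum
  have hpz : (p : ℤ) • z = 0 := by rw [natCast_zsmul]; exact htor z hz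
  have hcop : IsCoprime (p : ℤ) 4 := by
    rw [Int.isCoprime_iff_gcd_eq_one]
    show Nat.gcd p 4 = 1
    exact (Nat.coprime_pow_right_iff (two_pos) p 2).mpr
      ((Nat.coprime_primes Fact.out Nat.prime_two).mpr hp2)
  obtain ⟨s, t, hst'⟩ := hcop
  rw [← one_zsmul z, ← hst', add_smul, mul_smul, mul_smul, hpz, h4, zsmul_zero, zsmul_zero,
    add_zero]

/-- An endomorphism commuting with the action is a scalar. -/
theorem exists_scalar_of_commute {T : Module.End (ZMod p) V} (hT : ∀ σ, Commute (ρ σ) T) :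
    ∃ c : ZMod p, T = c • 1 := by
  obtain ⟨v₁, v₂, hv₁, hv₂, hC₁, hC₂, hsp⟩ := exists_lines ρ hdim hp2 hc₀ hdet₀
  have h2 := two_ne_zero_zmod ρ hdim hp2 hc₀ hdet₀
  obtain ⟨a, b, hab⟩ := hsp (T v₁)
  have hb : b • v₂ = 0 := by
    have h1 : ρ c₀ (T v₁) = T v₁ := by
      rw [← Module.End.mul_apply, (hT c₀).eq, Module.End.mul_apply, hC₁]
    rw [hab, map_add, map_smul, map_smul, hC₁, hC₂] at h1
    have h3 : (2 * b) • v₂ = 0 := by linear_combination (norm := module) -h1
    rw [mul_smul] at h3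
    exact (smul_eq_zero.mp h3).resolve_left h2
  rw [hb, add_zero] at hab
  refine ⟨a, ?_⟩
  have hN := hirr (LinearMap.ker (T - a • (1 : Module.End (ZMod p) V))) fun σ x hx => by
    simp only [LinearMap.mem_ker, LinearMap.sub_apply, LinearMap.smul_apply, Module.End.one_apply,
      sub_eq_zero] at hx ⊢
    rw [← Module.End.mul_apply, ← (hT σ).eq, Module.End.mul_apply, hx, map_smul]
  rcases hN with h | h
  · refine absurd ?_ hv₁
    rw [← Submodule.mem_bot (ZMod p), ← h]
    simp [hab]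
  · exact sub_eq_zero.mp (LinearMap.ker_eq_top.mp h)

end FLTAgent.LowerQ
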