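import Fermat.Agent.LowerQ.Gauss
import Fermat.Agent.MazurP.Slope
import Fermat.Agent.MazurP.FrameInst
import Fermat.Agent.MazurP.Classes
import Fermat.Agent.EllP.Unramified

/-!
# Divisibility at nodes of thickness one

`dvd_ordAt_of_fixed`: in a frame with node parameters, a function fixed by inertia, of the same
absolute value on both components and with divisor divisible by `n`, has reduced divisor divisible
by `n`. `hasNodeParams_of_noElliptic`: at level `Mq` without elliptic points every node has such a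
parameter, by counting zeros and poles of the reduced unit function. This gives
`Normal.dvd_ord_red_of_noElliptic` and `Normal.dvd_ord_red_of_goodLevel` (`4 ∣ M` or `9 ∣ M`).
-/

set_option autoImplicit false
set_option linter.style.haveILetI false
set_option linter.unusedSectionVars false
set_option synthInstance.maxHeartbeats 400000
set_option maxHeartbeats 800000

noncomputable section

open ModularCurve AlgebraicCurve
open scoped Classical

namespace FLTAgent.LowerQ

open FLTAgent.BadQ
open FLTAgent.Reduction (divOf mapDomain_apply_eq_sum)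
open FLTAgent.MazurP (Frame ModFrame)

local notation "Qb" => AlgebraicClosure ℚ

section Generic

variable {A : ValuationSubring Qb} {k : Type*} [Field k] {π : A →+* k} {q : ℕ}
  {F E : Type*} [Field F] [Field E] [Algebra Qb F] [Algebra k E] {Fr : Frame A π q F E}

/-- Divisibility of the divisor passes to the reduction on the first component. -/
theorem dvd_ordAt_of_fixed (hnp : Fr.HasNodeParams) (hA : A.LiesOverPrime q) {n : ℕ} (hn : n ≠ 0)
    (D : Divisor Qb F) {f : F} (hf : f ≠ 0) (hdiv : ∀ Q : Place Qb F, Q.ord f = (n : ℤ) * D Q)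
    (hfix : ∀ σ ∈ A.inertiaSubgroupIn ℚ, Fr.act σ • f = f)
    (habs : Fr.absv true f = Fr.absv false f) (P : Place k E) :
    (n : ℤ) ∣ Fr.ordAt false P f := by
  by_cases hP : P ∈ Fr.nodes
  swap
  · rw [← Frame.fib_smooth hf (x := (false, P)) ⟨fun _ => hP, fun h => absurd h (by simp)⟩,
      Frame.fib, mapDomain_apply_eq_sum]
    exact Finset.dvd_sum fun Q _ => by rw [Fr.curve.divOf_apply, hdiv]; exact dvd_mul_right _ _
  have hD : ∀ τ ∈ A.inertiaSubgroupIn ℚ, Fr.act τ • D = D := fun τ hτ => Finsupp.ext fun Q => by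
    refine mul_left_cancel₀ (Int.natCast_ne_zero.mpr hn) ?_
    rw [SemilinearAut.divisor_smul_apply, ← hdiv, ← hdiv, ← Frame.ord_act, hfix τ hτ]
  obtain ⟨u, hu⟩ := Frame.exists_isNodeParam hnp hP
  obtain ⟨h, C, hh, hC, hCfix, hord, ha0, ha1, -⟩ :=
    Frame.exists_node_factor (e := 1) le_rfl hD hu
  obtain ⟨m, hm⟩ := EllP.exists_valuation_eq_zpow Fr.p_prime hA hC fun σ hσ => hCfix σ hσ
  have hhn : h ^ n ≠ 0 := pow_ne_zero _ hh
  have hg := hu.absv_true_eq (g := f / h ^ n) (div_ne_zero hf hhn) fun Q hQ => by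
    rw [FF.ord_div Q hf hhn, FF.ord_pow, hord Q hQ, hdiv, sub_self]
  rw [div_eq_mul_inv f, Frame.absv_mul, Frame.absv_mul, Frame.absv_inv, Frame.absv_inv,
    Frame.absv_pow, Frame.absv_pow, ha0, ha1, one_pow, inv_one, mul_one, habs, hm,
    ← div_eq_mul_inv f] at hg
  have hvq : 0 < A.valuation (q : Qb) :=
    zero_lt_iff.mpr ((map_ne_zero _).mpr (Nat.cast_ne_zero.mpr Fr.p_prime.ne_zero))
  have h1 := mul_left_cancel₀ (Frame.absv_ne_zero hf) hg
  rw [← zpow_natCast, ← zpow_mul, ← zpow_neg] at h1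
  have h2 := zpow_right_injective₀ hvq Fr.p_nonunit.ne h1
  rw [div_eq_mul_inv f, Frame.ordAt_mul hf (inv_ne_zero hhn), Frame.ordAt_inv,
    Frame.ordAt_pow] at h2
  exact ⟨Fr.ordAt false P h - m, by linear_combination -h2⟩

end Generic

variable {M q : ℕ} [NeZero M] [NeZero q] {hq : q.Prime} {hqM : ¬ q ∣ M}
  {A : ValuationSubring Qb} {hA : A.LiesOverPrime q}

local notation "FQ" => modularFunctionFieldBar (M * q)
local notation "k" => IsLocalRing.ResidueField A
local notation "E0" => modularFunctionFieldFullC k M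

/-- Nodes have thickness one when there are no elliptic points. -/
theorem hasNodeParams_of_noElliptic (T : ModFrame A q M hq hqM hA) (h2M : nuTwo M = 0)
    (h3M : nuThree M = 0) :
    T.Fr.HasNodeParams := by
  haveI := Fact.mk hq
  haveI := MazurP.levelData_infinite A hq hA
  have hg := Reduction.genusFF_fullC_eq M A hA hqM
  set D := MazurP.levelData A q M hq hqM hA with hDdef
  let W : MazurP.UnitFn D (q : Qb) := MazurP.unitFnLevel hg
  have hq0 : (q : Qb) ≠ 0 := by exact_mod_cast hq.ne_zero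
  have hU : ∀ P ∈ D.Xfin, ∃ U : MazurP.NodeElt D (q : Qb) P, ∀ σ ∈ A.inertiaSubgroupIn ℚ,
      arithmeticGalois (modularFunctionFieldFull (M * q)) σ • U.u = U.u :=
    fun P hP => MazurP.exists_nodeElt hg hP
  choose U hUfix using hU
  have hcount : ((q : ℤ) - 1) * Divisor.degree (Reduction.poleDiv D.tau : Divisor k E0) =
      12 * D.Xfin.card := by
    have h1 := ModularPlaces.genusFF_bar (M * q)
    have h2 := ModularPlaces.genusFF_bar M
    have h2Mq : nuTwo (M * q) = 0 := by
      have := MazurP.nuTwo_mul_prime_le hq hqM; omega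
    have h3Mq : nuThree (M * q) = 0 := by
      have := MazurP.nuThree_mul_prime_le hq hqM; omega
    rw [genusFormula, MazurP.cuspCount_mul_prime hq hqM,
      ModularCosets.dedekindPsi_mul_prime M hq, if_neg hqM,
      h2Mq, h3Mq] at h1
    rw [genusFormula, h2M, h3M] at h2
    have h3 : (genusFF Qb FQ : ℚ) + 1 =
        2 * genusFF Qb (modularFunctionFieldBar M) + D.Xfin.card := by
      exact_mod_cast D.genus_eq
    rw [show D.tau = Reduction.jF M k from Reduction.red_jParam A M,
      Reduction.degree_poleDiv_jF A M hA hqM]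
    push_cast at h1 h2
    have h4 : ((q : ℚ) - 1) * dedekindPsi M = 12 * D.Xfin.card := by linarith
    exact_mod_cast h4
  have h12 : ∀ P ∈ D.Xfin, P.ord (D.Ginf.red W.w) = 12 := fun P hP =>
    MazurP.ord_red_node W U hcount hP
  have hred : ∀ R, T.Fr.red R = MazurP.redSide D R := fun R => by rw [T.red_eq]; rfl
  have hG0 : T.Fr.G false = D.Ginf := T.G_false
  have hG1 : T.Fr.G true = D.Gzero := T.G_true
  intro P hP
  rw [T.nodes_eq] at hP
  obtain ⟨h1, h2, h3, h4, h5, h6⟩ := MazurP.node_param W hq0 hP (U P hP) (h12 P hP)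
  refine ⟨(q : Qb) • (U P hP).u⁻¹, ?_, h2, ?_, ?_, ?_, fun R hR => h6 R (by rw [← hred, hR]),
    fun σ hσ => ?_⟩
  · rw [hG0]; exact h1
  · rw [hG0]; exact h3
  · rw [hG1]; exact h4
  · rw [hG1, T.partner_eq]; exact h5
  · rw [T.act_eq, Algebra.smul_def, smul_mul', smul_inv'', hUfix P hP σ hσ,
      SemilinearAut.smul_algebraMap]
    congr 2
    exact map_natCast σ q

/-- The reduced divisor of a normalised function of a level without elliptic points is as
divisible as its divisor. -/
theorem Normal.dvd_ord_red_of_noElliptic (h2M : nuTwo M = 0) (h3M : nuThree M = 0) (hA : A.LiesOverPrime q) {n : ℕ}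
    (hn : n ≠ 0) {f : FQ} (hf : Normal hq hqM (A := A) n f) (v : Place k E0) :
    (n : ℤ) ∣ v.ord (⟨redI A M q f, redI_mem A M q hq hqM hA f⟩ : E0) := by
  haveI := Fact.mk hq
  obtain ⟨T⟩ := MazurP.nonempty_modFrame A hq hqM hA
  obtain ⟨D, -, hD⟩ := MazurP.exists_div_eq hn hf.ne_zero hf.dvd
  have hV0 : f ∈ (T.Fr.G false).V := by rw [T.G_false]; exact hf.memI
  have hV1 : f ∈ (T.Fr.G true).V := by rw [T.G_true]; exact hf.memO
  have hred : (T.Fr.G false).red f = (⟨redI A M q f, redI_mem A M q hq hqM hA f⟩ : E0) := by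
    rw [T.G_false]; exact Subtype.ext rfl
  have h0 : (T.Fr.G false).red f ≠ 0 := fun h => hf.redI_ne (by
    rw [hred] at h; exact congrArg Subtype.val h)
  have h1 : (T.Fr.G true).red f ≠ 0 := fun h => hf.redO_ne (by
    rw [T.G_true] at h; exact congrArg Subtype.val h)
  have := dvd_ordAt_of_fixed (hasNodeParams_of_noElliptic T h2M h3M) hA hn D hf.ne_zero hD
    (fun σ hσ => by rw [T.act_eq]; exact hf.fixed σ hσ)
    (by rw [Frame.absv_eq_one hV1 h1, Frame.absv_eq_one hV0 h0]) v
  rwa [Frame.ordAt_eq hV0 h0, hred] at this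

/-- The same at a level divisible by `4` or `9`. -/
theorem Normal.dvd_ord_red_of_goodLevel (hM : 4 ∣ M ∨ 9 ∣ M) (hA : A.LiesOverPrime q) {n : ℕ}
    (hn : n ≠ 0) {f : FQ} (hf : Normal hq hqM (A := A) n f) (v : Place k E0) :
    (n : ℤ) ∣ v.ord (⟨redI A M q f, redI_mem A M q hq hqM hA f⟩ : E0) :=
  hf.dvd_ord_red_of_noElliptic (Reduction.nuTwo_eq_zero hM) (Reduction.nuThree_eq_zero hM) hA hn v

end FLTAgent.LowerQ
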