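import Fermat.Agent.LowerQ.Defs
import Fermat.Agent.Kronecker.NormProduct
import Fermat.Agent.Kronecker.Inputs
import Fermat.Prelude.Def_ModularCurve_HeckeModule

/-!
# Hecke translates of functions

`heckeFun N ℓ` is `T_ℓ` on functions, the norm of `f(ℓ z)`, with expansion `qExpand_heckeFun`.
`exists_heckeFun_eq`: if `div f = p • D` and the class of `D` has eigenvalue `a`, then `T_ℓ f` is a
constant times `f ^ a` times a `p`-th power, by comparing divisors. `atkinLehner_heckeFun`: `T_ℓ`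
commutes with the involution at `q`, which lifts to level `Mqℓ` compatibly with both degeneracy
maps.
-/

set_option autoImplicit false
set_option linter.style.haveILetI false
set_option linter.unusedSectionVars false
set_option maxHeartbeats 1600000
set_option synthInstance.maxHeartbeats 400000

noncomputable section

open ModularCurve AlgebraicCurve

namespace FLTAgent.LowerQ

open FLTAgent.BadQ FLTAgent.Kronecker
open FLTAgent.ModularCosets (qScale qScale_eq qScale_qScale)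

local notation "Qb" => AlgebraicClosure ℚ

variable (N ℓ : ℕ) [NeZero N] [NeZero ℓ]

/-- `T_ℓ` on functions: the norm of `f(ℓ z)`. -/
def heckeFun (f : modularFunctionFieldBar N) : modularFunctionFieldBar N :=
  normAlpha Qb N ℓ (heckeBetaBar Qb N ℓ f)

variable {N ℓ}

theorem hasSwap_bar (hℓ : ℓ.Prime) (hℓN : ¬ ℓ ∣ N) : HasSwap Qb N ℓ :=
  hasSwap Qb (FLTAgent.Reduction.barToC : Qb →+* ℂ) hℓ hℓN

/-- The expansion of `T_ℓ f`. -/
theorem qExpand_heckeFun (hℓ : ℓ.Prime) (hℓN : ¬ ℓ ∣ N) {ζ : Qbˣ}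
    (hζ : IsPrimitiveRoot (ζ : Qb) ℓ) (f : modularFunctionFieldBar N) :
    qExpand Qb ℓ (heckeFun N ℓ f : LaurentSeries Qb) =
      qExpand Qb ℓ (qExpand Qb ℓ (f : LaurentSeries Qb)) *
        ∏ b : Fin ℓ, twist (ζ ^ (b : ℕ)) (f : LaurentSeries Qb) := by
  haveI := Fact.mk hℓ
  obtain ⟨-, -, -, hfin, -⟩ := heckeInputs_bar N ℓ
  exact qExpand_normAlpha_heckeBetaBar hfin (finrankAlong_alpha N hℓ hℓN) (hasSwap_bar hℓ hℓN)
    ζ hζ f

/-- `T_ℓ` of a nonzero function is nonzero. -/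
theorem heckeFun_ne_zero {f : modularFunctionFieldBar N} (hf : f ≠ 0) : heckeFun N ℓ f ≠ 0 := by
  obtain ⟨-, -, -, hfin, -⟩ := heckeInputs_bar N ℓ
  letI := algebraAlong (heckeAlphaBar Qb N ℓ)
  haveI : Module.Finite (modularFunctionFieldBar N) (modularFunctionFieldBar (N * ℓ)) := hfin
  exact Algebra.norm_ne_zero_iff.mpr ((map_ne_zero _).mpr hf)

/-- An eigen class gives an eigen function up to `p`-th powers and constants. -/
theorem exists_heckeFun_eq {p : ℕ} (hℓ : ℓ.Prime) {f : modularFunctionFieldBar N} (hf : f ≠ 0)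
    (D : Divisor.degZero (K := Qb) (F := modularFunctionFieldBar N))
    (hdiv : ∀ P : Place Qb (modularFunctionFieldBar N),
      P.ord f = (p : ℤ) * (D : Divisor Qb (modularFunctionFieldBar N)) P)
    (a : ℤ) (heig : heckeOperatorBar N ⟨ℓ, hℓ⟩ (Pic0.mk D) = a • Pic0.mk D) :
    ∃ (c : Qb) (g : modularFunctionFieldBar N), c ≠ 0 ∧ g ≠ 0 ∧
      heckeFun N ℓ f = algebraMap Qb (modularFunctionFieldBar N) c * f ^ a * g ^ p := by
  haveI := isFF_bar N
  obtain ⟨hα, hβ, hP, hfin, hFI, hN⟩ := heckeInputs_bar N ℓ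
  haveI := hP
  haveI : NeZero (N * ℓ) := ⟨mul_ne_zero (NeZero.ne N) (NeZero.ne ℓ)⟩
  haveI := isFF_bar (N * ℓ)
  rw [show heckeOperatorBar N ⟨ℓ, hℓ⟩ (Pic0.mk D) = heckeOperatorAlong Qb N ℓ (Pic0.mk D) from rfl]
    at heig
  rw [heckeOperatorAlong_eq hα hβ hFI hfin hN, heckePic0Bar] at heig
  replace heig := (Pic0.correspondence_mk (heckeBetaBar Qb N ℓ) (heckeAlphaBar Qb N ℓ) hβ hα hFI
    hfin hN D).symm.trans heig
  replace heig : Pic0.mk (Pic0.degZeroCorrespondence (heckeBetaBar Qb N ℓ) (heckeAlphaBar Qb N ℓ)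
      hβ hα hFI D - a • D) = 0 := by
    rw [show ∀ x y, Pic0.mk (x - y) = Pic0.mk x - Pic0.mk y from map_sub (QuotientAddGroup.mk' _),
      show Pic0.mk (a • D) = a • Pic0.mk D from map_zsmul (QuotientAddGroup.mk' _) a D, heig,
      sub_self]
  obtain ⟨h, hh, hdh⟩ :=
    AddSubgroup.mem_addSubgroupOf.1 ((QuotientAddGroup.eq_zero_iff _).1 heig)
  -- the divisor of `T_ℓ f`
  have hT : ∀ v : Place Qb (modularFunctionFieldBar N), v.ord (heckeFun N ℓ f) =
      (p : ℤ) * (a * (D : Divisor Qb (modularFunctionFieldBar N)) v + v.ord h) := by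
    intro v
    let Df : Divisor Qb (modularFunctionFieldBar N) := (p : ℤ) • (D : Divisor Qb _)
    have hDf : ∀ w, Df w = w.ord f := fun w => by simp [Df, hdiv]
    have h1 : ∀ w, Divisor.pullbackAlong (heckeBetaBar Qb N ℓ) hβ Df w =
        w.ord (heckeBetaBar Qb N ℓ f) := fun w =>
      (Divisor.pullbackAlong_apply (heckeBetaBar Qb N ℓ) hβ Df w).trans
        ((congrArg _ (hDf _)).trans (Place.ord_restrictAlong (heckeBetaBar Qb N ℓ) hβ w f).symm)
    have h2 : Divisor.pushforwardAlong (heckeAlphaBar Qb N ℓ) hα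
        (Divisor.pullbackAlong (heckeBetaBar Qb N ℓ) hβ Df) v = v.ord (heckeFun N ℓ f) := by
      unfold NormFormulaAlong at hN
      exact hN _ ((map_ne_zero _).mpr hf) _ h1 v
    have h3 := hdh v
    simp only [AddSubgroup.coe_sub, AddSubgroupClass.coe_zsmul, Finsupp.sub_apply,
      Finsupp.smul_apply, smul_eq_mul] at h3
    rw [← h2]
    simp only [Df, map_zsmul, Finsupp.smul_apply, smul_eq_mul]
    rw [← h3, add_sub_cancel]
    exact congrArg _ rfl
  have hfh : f ^ a * h ^ p ≠ 0 := mul_ne_zero (zpow_ne_zero a hf) (pow_ne_zero p hh)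
  obtain ⟨c, hc⟩ := FF.mem_range_of_forall_ord_nonneg (K := Qb)
    (f := heckeFun N ℓ f / (f ^ a * h ^ p)) fun v => le_of_eq <| by
      rw [div_eq_mul_inv, v.ord_mul (heckeFun_ne_zero hf) (inv_ne_zero hfh), v.ord_inv,
        v.ord_mul (zpow_ne_zero a hf) (pow_ne_zero p hh), hT, FF.ord_pow, v.ord_zpow, hdiv]
      ring
  refine ⟨c, h, fun h0 => ?_, hh, ?_⟩
  · rw [h0, map_zero, eq_comm, div_eq_zero_iff] at hc
    exact hc.elim (heckeFun_ne_zero hf) hfh
  · rw [mul_assoc, hc, div_mul_cancel₀ _ hfh]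

theorem exists_transport {K L : Type*} [Field K] [Field L] [Algebra K L]
    {E E' : IntermediateField K L} (h : E = E') (w : E →ₐ[K] E) (hw : ∀ x, w (w x) = x) :
    ∃ w' : E' ≃ₐ[K] E', ∀ (z : E') (x : E), (z : L) = x → (w' z : L) = w x := by
  subst h
  refine ⟨AlgEquiv.ofAlgHom w w (AlgHom.ext hw) (AlgHom.ext hw), fun z x hzx => ?_⟩
  rw [Subtype.ext hzx]
  rfl

theorem algHom_ext_jAt {n : ℕ} [NeZero n] {E : IntermediateField Qb (LaurentSeries Qb)}
    {φ ψ : modularFunctionFieldBar n →ₐ[Qb] E}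
    (h : ∀ d, (φ (jAt (N := n) d) : LaurentSeries Qb) = ψ (jAt d)) : φ = ψ :=
  AlgHom.ext fun y => Subtype.ext
    (DFunLike.congr_fun (algHom_ext_bar (φ := E.val.comp φ) (ψ := E.val.comp ψ) h) y)

/-- An involution of level `(Mq)ℓ` over the involution of level `Mq`, for both degeneracy maps. -/
theorem exists_atkinLehner_lift {M q : ℕ} [NeZero M] [NeZero q] (hq : q.Prime) (hqM : ¬ q ∣ M)
    (hqℓ : ¬ q ∣ ℓ) :
    ∃ w' : modularFunctionFieldBar (M * q * ℓ) ≃ₐ[Qb] modularFunctionFieldBar (M * q * ℓ),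
      (∀ y, w' (heckeAlphaBar Qb (M * q) ℓ y) = heckeAlphaBar Qb (M * q) ℓ (atkinLehner hq hqM y))
      ∧ ∀ y, w' (heckeBetaBar Qb (M * q) ℓ y) =
          heckeBetaBar Qb (M * q) ℓ (atkinLehner hq hqM y) := by
  haveI : NeZero (M * ℓ) := ⟨mul_ne_zero (NeZero.ne M) (NeZero.ne ℓ)⟩
  have hqMℓ : ¬ q ∣ M * ℓ := fun h => (hq.dvd_mul.mp h).elim hqM hqℓ
  obtain ⟨w', hw'⟩ := exists_transport
    (congrArg (fun n => modularFunctionFieldBar n) (mul_right_comm M ℓ q))
    (atkinLehner hq hqMℓ) (atkinLehner_atkinLehner hq hqMℓ)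
  have key : ∀ (z : modularFunctionFieldBar (M * q * ℓ)) (d : ℕ) (hd : d ∣ M * q * ℓ),
      (z : LaurentSeries Qb) = jSeries Qb d →
        (w' z : LaurentSeries Qb) = jSeries Qb (swapIdx q d) := fun z d hd hz =>
    have hd' : d ∈ (M * ℓ * q).divisors :=
      Nat.mem_divisors.mpr ⟨mul_right_comm M q ℓ ▸ hd, NeZero.ne _⟩
    (hw' z (jAt ⟨d, hd'⟩) hz).trans (atkinLehner_jAt hq hqMℓ ⟨d, hd'⟩)
  have hswap : ∀ d : ℕ, swapIdx q (ℓ * d) = ℓ * swapIdx q d := by
    intro d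
    by_cases h : q ∣ d
    · rw [swapIdx, swapIdx, if_pos h, if_pos (h.mul_left ℓ), Nat.mul_div_assoc _ h]
    · rw [swapIdx, swapIdx, if_neg h, if_neg fun h' => (hq.dvd_mul.mp h').elim hqℓ h, mul_assoc]
  have hexp : ∀ d : ℕ, d ≠ 0 → qExpand Qb ℓ (jSeries Qb d) = jSeries Qb (ℓ * d) := fun d hd => by
    rw [jSeries, jSeries, ← qScale_eq ℓ, qScale_qScale (NeZero.ne ℓ) hd]
  have hα : w'.toAlgHom.comp (heckeAlphaBar Qb (M * q) ℓ) =
      (heckeAlphaBar Qb (M * q) ℓ).comp (atkinLehner hq hqM) := algHom_ext_jAt fun d => by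
    simp only [AlgHom.comp_apply, AlgEquiv.toAlgHom_apply]
    rw [key _ d (d.dvd.mul_right ℓ) (coe_heckeAlphaBar _ _ _), coe_heckeAlphaBar, atkinLehner_jAt]
  have hβ : w'.toAlgHom.comp (heckeBetaBar Qb (M * q) ℓ) =
      (heckeBetaBar Qb (M * q) ℓ).comp (atkinLehner hq hqM) := algHom_ext_jAt fun d => by
    simp only [AlgHom.comp_apply, AlgEquiv.toAlgHom_apply]
    rw [key _ (ℓ * d) (mul_comm ℓ (d : ℕ) ▸ mul_dvd_mul_right d.dvd ℓ)
        ((coe_heckeBetaBar _ _ _).trans (hexp _ (ne_zero_of_dvd_ne_zero (NeZero.ne _) d.dvd))),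
      coe_heckeBetaBar, atkinLehner_jAt, hswap, hexp]
    exact ne_zero_of_dvd_ne_zero (NeZero.ne _) (swapIdx_dvd M q hq d.dvd)
  refine ⟨w', fun y => ?_, fun y => ?_⟩
  · have := DFunLike.congr_fun hα y
    simpa only [AlgHom.comp_apply, AlgEquiv.toAlgHom_apply] using this
  · have := DFunLike.congr_fun hβ y
    simpa only [AlgHom.comp_apply, AlgEquiv.toAlgHom_apply] using this

/-- `T_ℓ` commutes with the involution at `q`. -/
theorem atkinLehner_heckeFun {M q : ℕ} [NeZero M] [NeZero q] (hq : q.Prime) (hqM : ¬ q ∣ M)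
    (hℓ : ℓ.Prime) (hℓN : ¬ ℓ ∣ M * q) (f : modularFunctionFieldBar (M * q)) :
    atkinLehner hq hqM (heckeFun (M * q) ℓ f) = heckeFun (M * q) ℓ (atkinLehner hq hqM f) := by
  have hqℓ : ¬ q ∣ ℓ := fun h =>
    hℓN (((Nat.prime_dvd_prime_iff_eq hq hℓ).mp h) ▸ dvd_mul_left q M)
  obtain ⟨w', hα, hβ⟩ := exists_atkinLehner_lift hq hqM hqℓ
  let w : modularFunctionFieldBar (M * q) ≃ₐ[Qb] modularFunctionFieldBar (M * q) :=
    AlgEquiv.ofAlgHom (atkinLehner hq hqM) (atkinLehner hq hqM)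
      (AlgHom.ext (atkinLehner_atkinLehner hq hqM)) (AlgHom.ext (atkinLehner_atkinLehner hq hqM))
  show atkinLehner hq hqM (normAlpha Qb (M * q) ℓ (heckeBetaBar Qb (M * q) ℓ f)) =
    normAlpha Qb (M * q) ℓ (heckeBetaBar Qb (M * q) ℓ (atkinLehner hq hqM f))
  rw [← hβ]
  letI := algebraAlong (heckeAlphaBar Qb (M * q) ℓ)
  have key := Algebra.norm_eq_of_equiv_equiv w.toRingEquiv w'.toRingEquiv
    (RingHom.ext fun y => (hα y).symm) (heckeBetaBar Qb (M * q) ℓ f)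
  change w (Algebra.norm _ (heckeBetaBar Qb (M * q) ℓ f)) = _
  rw [key]
  exact w.toRingEquiv.apply_symm_apply _

end FLTAgent.LowerQ
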