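import Fermat.Agent.LowerQ.Gauss
import Fermat.Agent.LowerQ.HeckeFun
import Fermat.Agent.Kronecker.HeckeGalois
import Fermat.Agent.TwoChart.DescentClasses

/-!
# Normalised functions attached to eigen classes

`exists_normal`: a class of order `p` fixed by inertia whose eigenvalue for some `T_ℓ` is not
`1 + ℓ` mod `p` is represented by a divisor `D` such that `p • D` is the divisor of a normalised
function. As `T_ℓ` multiplies the order on each component by `ℓ + 1` (`HasOrdI.heckeFun'`), the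
eigen relation makes the two orders congruent mod `p` (`dvd_sub_of_pow`); a power of the function
of `exists_indicator` and a power of `q` remove them.
-/

set_option autoImplicit false
set_option linter.style.haveILetI false
set_option linter.unusedSectionVars false
set_option maxHeartbeats 1600000
set_option synthInstance.maxHeartbeats 400000

noncomputable section

open ModularCurve AlgebraicCurve

namespace FLTAgent.LowerQ

open FLTAgent.BadQ

local notation "Qb" => AlgebraicClosure ℚ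
local notation "Γℚ" => (AlgebraicClosure ℚ ≃ₐ[ℚ] AlgebraicClosure ℚ)

section Gauss

open FLTAgent.Kronecker (twist twist_coeff coeffMap_twist)

variable {K k : Type*} [Field K] [Field k] (A : ValuationSubring K) (π : A →+* k)

theorem gval_qExpand (n : ℕ) [NeZero n] {x : LaurentSeries K} (hx : x ∈ gV A π) :
    qExpand K n x ∈ gV A π ∧ gval A π (qExpand K n x) = qExpand k n (gval A π x) := by
  obtain ⟨u, v, hv, h⟩ := hx
  have hi : ∀ y, incl A (qExpand A n y) = qExpand K n (incl A y) := fun y =>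
    coeffMap_qExpand A.subtype n y
  have hr : ∀ y, redSer A π (qExpand A n y) = qExpand k n (redSer A π y) := fun y =>
    coeffMap_qExpand π n y
  have hv' : redSer A π (qExpand A n v) ≠ 0 := by
    rw [hr, map_ne_zero_iff _ (qExpand_injective _)]; exact hv
  have h' : qExpand K n x * incl A (qExpand A n v) = incl A (qExpand A n u) := by
    rw [hi, hi, ← map_mul, h]
  refine ⟨⟨_, _, hv', h'⟩, ?_⟩
  rw [gval_eq A π hv' h', gval_eq A π hv h, map_div₀, hr, hr]

theorem gval_twist (u : Aˣ) {x : LaurentSeries K} (hx : x ∈ gV A π) :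
    twist (Units.map (A.subtype : A →* K) u) x ∈ gV A π ∧
      gval A π (twist (Units.map (A.subtype : A →* K) u) x) =
        twist (Units.map (π : A →* k) u) (gval A π x) := by
  obtain ⟨a, b, hb, h⟩ := hx
  have hb' : redSer A π (twist u b) ≠ 0 := by
    intro h0
    refine hb (HahnSeries.ext (funext fun i => ?_))
    have h1 := congrArg (fun z : LaurentSeries k => z.coeff i) h0
    simp only [redSer, coeffMap_twist, twist_coeff, HahnSeries.coeff_zero,
      Units.mul_right_eq_zero] at h1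
    exact h1
  have h' : twist (Units.map (A.subtype : A →* K) u) x * incl A (twist u b) =
      incl A (twist u a) := by
    rw [incl, coeffMap_twist, coeffMap_twist, ← map_mul]
    exact congrArg _ h
  refine ⟨⟨_, _, hb', h'⟩, ?_⟩
  rw [gval_eq A π hb' h', gval_eq A π hb h, map_div₀, redSer, coeffMap_twist, coeffMap_twist]

theorem gval_prod {ι : Type*} (s : Finset ι) (f : ι → LaurentSeries K)
    (hf : ∀ i ∈ s, f i ∈ gV A π ∧ gval A π (f i) ≠ 0) :
    (∏ i ∈ s, f i) ∈ gV A π ∧ gval A π (∏ i ∈ s, f i) ≠ 0 := by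
  classical
  induction s using Finset.induction with
  | empty => exact ⟨by rw [Finset.prod_empty]; exact one_mem _,
      by rw [Finset.prod_empty, gval_one]; exact one_ne_zero⟩
  | insert i s hi ih =>
    obtain ⟨h1, h2⟩ := hf i (Finset.mem_insert_self _ _)
    obtain ⟨h3, h4⟩ := ih fun j hj => hf j (Finset.mem_insert_of_mem hj)
    rw [Finset.prod_insert hi, gval_mul A π h1 h3]
    exact ⟨mul_mem h1 h3, mul_ne_zero h2 h4⟩

end Gauss

variable {M q : ℕ} [NeZero M] [NeZero q] (hq : q.Prime) (hqM : ¬ q ∣ M)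
  {A : ValuationSubring Qb}

local notation "FQ" => modularFunctionFieldBar (M * q)
local notation "π" => IsLocalRing.residue A

/-- Roots of unity are units of a valuation ring. -/
theorem exists_unit_of_pow_eq_one {n : ℕ} (hn : n ≠ 0) {ζ : Qbˣ} (hζ : ζ ^ n = 1) :
    ∃ u : Aˣ, Units.map (A.subtype : A →* Qb) u = ζ := by
  have hp : ((ζ : Qb)) ^ n = 1 := by rw [← Units.val_pow_eq_pow_val, hζ, Units.val_one]
  have h1 : A.valuation (ζ : Qb) = 1 := by
    have := congrArg A.valuation hp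
    rw [map_pow, map_one] at this
    exact (pow_eq_one_iff.mp this).resolve_right hn
  have hm : (ζ : Qb) ∈ A := (A.valuation_le_one_iff _).mp h1.le
  have hu : IsUnit (⟨(ζ : Qb), hm⟩ : A) := by
    exact (A.valuation_eq_one_iff _).mpr h1
  exact ⟨hu.unit, Units.ext rfl⟩

theorem coe_const_mul (c : Qb) (y : FQ) :
    ((algebraMap Qb FQ c * y : FQ) : LaurentSeries Qb) =
      HahnSeries.C c * (y : LaurentSeries Qb) := by
  show algebraMap Qb (LaurentSeries Qb) c * _ = _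
  rw [algebraMap_laurentSeries_eq_single]; rfl

theorem qExpand_C' {K : Type*} [Field K] (n : ℕ) [NeZero n] (c : K) :
    qExpand K n (HahnSeries.C c) = HahnSeries.C c := by
  rw [HahnSeries.C_apply, qExpand_single, mul_zero]

theorem twist_C' {K : Type*} [Field K] (u : Kˣ) (c : K) :
    Kronecker.twist u (HahnSeries.C c) = HahnSeries.C c := by
  ext i
  rw [Kronecker.twist_coeff, HahnSeries.C_apply]
  rcases eq_or_ne i 0 with rfl | hi
  · simp
  · rw [HahnSeries.coeff_single_of_ne hi, mul_zero]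

/-- `T_ℓ` commutes with Galois on functions. -/
theorem galF_heckeFun {N ℓ : ℕ} [NeZero N] [NeZero ℓ] (σ : Γℚ) (f : modularFunctionFieldBar N) :
    galF N σ • heckeFun N ℓ f = heckeFun N ℓ (galF N σ • f) := by
  have hα := Kronecker.intertwinesAlong_heckeAlphaBar Qb N ℓ σ
  have hβ : galF (N * ℓ) σ • heckeBetaBar Qb N ℓ f = heckeBetaBar Qb N ℓ (galF N σ • f) :=
    Kronecker.intertwinesAlong_heckeBetaBar Qb N ℓ σ f
  letI := algebraAlong (heckeAlphaBar Qb N ℓ)
  have key := Algebra.norm_eq_of_equiv_equiv (SemilinearAut.toRingAut (galF N σ))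
    (SemilinearAut.toRingAut (galF (N * ℓ) σ)) (RingHom.ext fun y => (hα y).symm)
    (heckeBetaBar Qb N ℓ f)
  show galF N σ • Kronecker.normAlpha Qb N ℓ (heckeBetaBar Qb N ℓ f) =
    Kronecker.normAlpha Qb N ℓ (heckeBetaBar Qb N ℓ (galF N σ • f))
  rw [← hβ]
  change SemilinearAut.toRingAut (galF N σ) (Algebra.norm _ (heckeBetaBar Qb N ℓ f)) = _
  rw [key]
  exact RingEquiv.apply_symm_apply _ _

theorem IsFixed.heckeFun' {N ℓ : ℕ} [NeZero N] [NeZero ℓ] {f : modularFunctionFieldBar N}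
    (hf : IsFixed A N f) : IsFixed A N (heckeFun N ℓ f) :=
  fun σ hσ => by rw [galF_heckeFun, hf σ hσ]

include hq in
/-- The order of `T_ℓ f` on the component of `∞`. -/
theorem HasOrdI.heckeFun' (hA : A.LiesOverPrime q) {ℓ : ℕ} [NeZero ℓ] (hℓ : ℓ.Prime)
    (hℓN : ¬ ℓ ∣ M * q) {f : FQ} {n : ℤ} (hf : HasOrdI M q A f n) (hfix : IsFixed A (M * q) f)
    (hf0 : f ≠ 0) : HasOrdI M q A (heckeFun (M * q) ℓ f) ((ℓ + 1) * n) := by
  obtain ⟨m, hm⟩ := hasOrdI_exists hq hA (IsFixed.heckeFun' (ℓ := ℓ) hfix) (heckeFun_ne_zero hf0)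
  suffices m = (ℓ + 1) * n from this ▸ hm
  obtain ⟨ζ₀, hζ₀⟩ := HasEnoughRootsOfUnity.exists_primitiveRoot Qb ℓ
  obtain ⟨ζ, rfl⟩ := hζ₀.isUnit (NeZero.ne ℓ)
  obtain ⟨u, hu⟩ := exists_unit_of_pow_eq_one (A := A) (NeZero.ne ℓ) (ζ := ζ)
    (Units.ext (by rw [Units.val_pow_eq_pow_val, hζ₀.pow_eq_one, Units.val_one]))
  obtain ⟨G, hG, hG0, hfe⟩ := hf
  obtain ⟨H, hH, hH0, hTe⟩ := hm
  rw [mem_VI] at hG hH
  rw [redI] at hG0 hH0
  have e := qExpand_heckeFun hℓ hℓN hζ₀ f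
  rw [hTe, hfe, coe_const_mul, coe_const_mul] at e
  set B := qExpand Qb ℓ (qExpand Qb ℓ (G : LaurentSeries Qb)) *
    ∏ b : Fin ℓ, Kronecker.twist (ζ ^ (b : ℕ)) (G : LaurentSeries Qb) with hB
  have hBg : B ∈ gV A π ∧ gval A π B ≠ 0 := by
    obtain ⟨h1, h1'⟩ := gval_qExpand A π ℓ hG
    obtain ⟨h2, h2'⟩ := gval_qExpand A π ℓ h1
    obtain ⟨h3, h3'⟩ := gval_prod A π (Finset.univ : Finset (Fin ℓ))
      (fun b => Kronecker.twist (ζ ^ (b : ℕ)) (G : LaurentSeries Qb)) fun b _ => by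
        obtain ⟨h, h'⟩ := gval_twist A π (u ^ (b : ℕ)) hG
        rw [map_pow, hu] at h h'
        refine ⟨h, fun h0 => hG0 (HahnSeries.ext (funext fun i => ?_))⟩
        have hi := congrArg (fun z : LaurentSeries (IsLocalRing.ResidueField A) => z.coeff i)
          (h'.symm.trans h0)
        simp only [Kronecker.twist_coeff, HahnSeries.coeff_zero, Units.mul_right_eq_zero] at hi
        exact hi
    refine ⟨mul_mem h2 h3, ?_⟩
    rw [hB, gval_mul A π h2 h3, h2', h1']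
    refine mul_ne_zero ?_ h3'
    rw [map_ne_zero_iff _ (qExpand_injective _), map_ne_zero_iff _ (qExpand_injective _)]
    exact hG0
  obtain ⟨hQH, hQH'⟩ := gval_qExpand A π ℓ hH
  have hQH0 : gval A π (qExpand Qb ℓ (H : LaurentSeries Qb)) ≠ 0 := by
    rw [hQH', map_ne_zero_iff _ (qExpand_injective _)]; exact hH0
  have hq0 : (q : Qb) ≠ 0 := by exact_mod_cast hq.ne_zero
  replace e : HahnSeries.C ((q : Qb) ^ m) * qExpand Qb ℓ (H : LaurentSeries Qb) =
      HahnSeries.C ((q : Qb) ^ ((ℓ + 1) * n)) * B := by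
    rw [map_mul, qExpand_C'] at e
    refine e.trans ?_
    simp only [map_mul, qExpand_C', twist_C', Finset.prod_mul_distrib, Finset.prod_const,
      Finset.card_univ, Fintype.card_fin, hB, ← map_pow]
    rw [show (q : Qb) ^ ((ℓ + 1) * n) = (q : Qb) ^ n * ((q : Qb) ^ n) ^ ℓ by
      rw [add_mul, one_mul, zpow_add₀ hq0, mul_comm (ℓ : ℤ), zpow_mul, zpow_natCast, mul_comm],
      map_mul]
    ring
  have key : ∀ {i j : ℤ} {x y : LaurentSeries Qb}, x ∈ gV A π → y ∈ gV A π →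
      gval A π y ≠ 0 → HahnSeries.C ((q : Qb) ^ i) * x = HahnSeries.C ((q : Qb) ^ j) * y →
      ¬ j < i := by
    intro i j x y hx hy hy0 he hlt
    obtain ⟨hc, hres⟩ := qpow_mem hq hA (sub_pos.mpr hlt)
    have hyx : y = HahnSeries.C ((q : Qb) ^ (i - j)) * x := by
      refine mul_left_cancel₀ ((map_ne_zero HahnSeries.C).mpr (zpow_ne_zero j hq0)) ?_
      rw [← he, ← mul_assoc, ← map_mul, ← zpow_add₀ hq0, add_sub_cancel]
    refine hy0 ?_
    rw [hyx, gval_mul A π (gval_C A π ⟨_, hc⟩).1 hx, (gval_C A π ⟨_, hc⟩).2, hres, map_zero,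
      zero_mul]
  exact le_antisymm (not_lt.mp (key hQH hBg.1 hBg.2 e)) (not_lt.mp (key hBg.1 hQH hQH0 e.symm))

include hq in
theorem hasOrdI_qzpow (k : ℤ) (c : Qb) (hc : c ∈ A) (hc0 : π ⟨c, hc⟩ ≠ 0) :
    HasOrdI M q A (algebraMap Qb FQ ((q : Qb) ^ k * c)) k :=
  ⟨algebraMap Qb FQ c, (redI_const A M q ⟨c, hc⟩).1,
    by rw [(redI_const A M q ⟨c, hc⟩).2]; exact (map_ne_zero _).mpr hc0, map_mul _ _ _⟩

include hq in
/-- A constant fixed by inertia is a power of `q` times a unit. -/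
theorem hasOrdI_const (hA : A.LiesOverPrime q) {c : Qb} (hc0 : c ≠ 0)
    (hc : ∀ σ ∈ A.inertiaSubgroupIn ℚ, σ c = c) :
    ∃ m : ℤ, HasOrdI M q A (algebraMap Qb FQ c) m := by
  haveI := Fact.mk hq
  obtain ⟨m, hm⟩ := TwoInst.exists_zpow hA (y := (⟨c, TwoChart.mem_fixedK.2 hc⟩ : TwoInst.K0 A))
    (fun h => hc0 (congrArg Subtype.val h))
  have hq0 : (q : Qb) ≠ 0 := by exact_mod_cast hq.ne_zero
  have hv : A.valuation (c / (q : Qb) ^ m) = 1 := by
    rw [map_div₀, map_zpow₀, ← hm, div_self ((map_ne_zero _).mpr hc0)]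
  have hmem : c / (q : Qb) ^ m ∈ A := (A.valuation_le_one_iff _).mp hv.le
  have hres : π ⟨_, hmem⟩ ≠ 0 := fun h => by
    rw [← GalCommon.coe_mem_nonunits_iff_residue, ValuationSubring.mem_nonunits_iff] at h
    exact h.ne hv
  refine ⟨m, ?_⟩
  have := hasOrdI_qzpow (M := M) hq m _ hmem hres
  rwa [mul_div_cancel₀ _ (zpow_ne_zero m hq0)] at this

theorem sum_smul_galF (σ : Γℚ) (D : Divisor Qb FQ) (h : galF (M * q) σ • D = D) (P : Place Qb FQ) :
    D ((galF (M * q) σ)⁻¹ • P) = D P := by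
  rw [← SemilinearAut.divisor_smul_apply, h]

include hq hqM in
/-- A fixed function which is a constant times a `p`-th power has congruent orders on the two
components. -/
theorem dvd_sub_of_pow (hA : A.LiesOverPrime q) {p : ℕ} (hp : p ≠ 0) {R g : FQ} {c : Qb}
    (hR : IsFixed A (M * q) R) (hc : c ≠ 0) (hg : g ≠ 0) (hRe : R = algebraMap Qb FQ c * g ^ p)
    {m n : ℤ} (hI : HasOrdI M q A R m) (hO : HasOrdI M q A (atkinLehner hq hqM R) n) :
    (p : ℤ) ∣ m - n := by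
  classical
  haveI := Kronecker.isFF_bar (M * q)
  have hc' : algebraMap Qb FQ c ≠ 0 := (map_ne_zero _).mpr hc
  have hR0 : R ≠ 0 := hRe ▸ mul_ne_zero hc' (pow_ne_zero p hg)
  have hordR : ∀ P : Place Qb FQ, P.ord R = p * P.ord g := fun P => by
    rw [hRe, P.ord_mul hc' (pow_ne_zero p hg), FF.ord_algebraMap, FF.ord_pow, zero_add]
  let Dg : Divisor Qb FQ := FF.divisorOf g
  have hpr : Dg ∈ Divisor.principal (K := Qb) (F := FQ) := ⟨g, hg, FF.divisorOf_apply g⟩
  have hfix : ∀ σ ∈ A.inertiaSubgroupIn ℚ, galF (M * q) σ • Dg = Dg := fun σ hσ => by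
    refine Finsupp.ext fun P => mul_left_cancel₀ (Int.natCast_ne_zero.mpr hp) ?_
    rw [SemilinearAut.divisor_smul_apply, FF.divisorOf_apply, FF.divisorOf_apply, ← hordR, ← hordR]
    conv_rhs => rw [← hR σ hσ, ← smul_inv_smul (galF (M * q) σ) P, SemilinearAut.ord_smul]
  obtain ⟨g', hg'0, hg'⟩ := TwoChart.exists_fixed_fun hpr hfix
  have hg'F : IsFixed A (M * q) (g' : FQ) := g'.2
  have hg'ne : (g' : FQ) ≠ 0 := fun h => hg'0 (Subtype.ext h)
  obtain ⟨d, hd⟩ := FF.mem_range_of_forall_ord_nonneg (K := Qb) (f := R / (g' : FQ) ^ p)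
    fun P => le_of_eq <| by
      rw [FF.ord_div _ hR0 (pow_ne_zero p hg'ne), FF.ord_pow, hordR, ← hg', FF.divisorOf_apply,
        sub_self]
  have hRd : R = algebraMap Qb FQ d * (g' : FQ) ^ p := by
    rw [hd, div_mul_cancel₀ _ (pow_ne_zero p hg'ne)]
  have hd0 : d ≠ 0 := fun h => hR0 (by rw [hRd, h, map_zero, zero_mul])
  obtain ⟨e, he⟩ := hasOrdI_const (M := M) hq hA hd0 fun σ hσ => (algebraMap Qb FQ).injective <| by
    rw [← TwoChart.galois_smul_algebraMap]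
    show galF (M * q) σ • algebraMap Qb FQ d = _
    rw [hd, div_eq_mul_inv, smul_mul', hR σ hσ, (hg'F.pow p).inv σ hσ]
  obtain ⟨s, hs⟩ := hasOrdI_exists hq hA hg'F hg'ne
  obtain ⟨t, ht⟩ := hasOrdI_exists hq hA (hg'F.wAL hq hqM) ((map_ne_zero _).mpr hg'ne)
  have h1 := he.mul hq hA (hs.zpow hq hA p)
  have h2 := he.mul hq hA (ht.zpow hq hA p)
  rw [zpow_natCast, ← hRd] at h1
  rw [zpow_natCast, ← AlgHom.commutes (atkinLehner hq hqM) d, ← map_pow, ← map_mul, ← hRd] at h2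
  rw [hI.unique hq hA h1, hO.unique hq hA h2]
  exact ⟨s - t, by ring⟩

/-- A class of order `p`, fixed by inertia, with non-Eisenstein eigenvalue of some `T_ℓ`, has a
normalised function. -/
theorem exists_normal (hA : A.LiesOverPrime q) {p : ℕ} [Fact p.Prime] (hpq : p ≠ q)
    {z : JZero (M * q)} (hp : p • z = 0) (hI : ∀ σ ∈ A.inertiaSubgroupIn ℚ, σ • z = z)
    {ℓ : ℕ} (hℓ : ℓ.Prime) (hℓN : ¬ ℓ ∣ M * q) {a : ℤ}
    (heig : heckeOperatorBar (M * q) ⟨ℓ, hℓ⟩ z = a • z) (ha : ¬ (p : ℤ) ∣ a - 1 - ℓ) :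
    ∃ (D : Divisor.degZero (K := Qb) (F := FQ)) (f : FQ),
      Pic0.mk D = z ∧ Normal hq hqM (A := A) p f ∧
        ∀ P : Place Qb FQ, P.ord f = (p : ℤ) * (D : Divisor Qb FQ) P := by
  classical
  haveI : NeZero ℓ := ⟨hℓ.ne_zero⟩
  haveI := Kronecker.isFF_bar (M * q)
  have hp0 : p ≠ 0 := (Fact.out : p.Prime).ne_zero
  have hq0 : (q : Qb) ≠ 0 := by exact_mod_cast hq.ne_zero
  obtain ⟨D₀, hD₀z, hD₀fix⟩ := TwoChart.exists_fixed_divisor
    (F₀ := modularFunctionFieldFull (M * q)) (I := A.inertiaSubgroupIn ℚ) (x := z) hI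
  have hpr : (p : ℤ) • (D₀ : Divisor Qb FQ) ∈ Divisor.principal (K := Qb) (F := FQ) := by
    have h : Pic0.mk ((p : ℤ) • D₀) = 0 := by
      rw [show Pic0.mk ((p : ℤ) • D₀) = (p : ℤ) • Pic0.mk D₀ from
        map_zsmul (QuotientAddGroup.mk' _) _ _, hD₀z, natCast_zsmul, hp]
    exact AddSubgroup.mem_addSubgroupOf.mp ((QuotientAddGroup.eq_zero_iff _).1 h)
  obtain ⟨f₁, hf₁, hdiv₁⟩ := TwoChart.exists_fixed_fun hpr fun σ hσ => by
    rw [smul_comm, hD₀fix σ hσ]
  set f₀ : FQ := (f₁ : FQ)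
  have hf₀ : IsFixed A (M * q) f₀ := f₁.2
  have hf0 : f₀ ≠ 0 := fun h => hf₁ (Subtype.ext h)
  have hdiv : ∀ P : Place Qb FQ, P.ord f₀ = (p : ℤ) * (D₀ : Divisor Qb FQ) P := fun P => by
    rw [← hdiv₁ P, Finsupp.smul_apply, smul_eq_mul]
  have hwf0 : atkinLehner hq hqM f₀ ≠ 0 := (map_ne_zero _).mpr hf0
  obtain ⟨nI, hnI⟩ := hasOrdI_exists hq hA hf₀ hf0
  obtain ⟨nO, hnO⟩ := hasOrdI_exists hq hA (hf₀.wAL hq hqM) hwf0
  -- the eigenvalue forces congruent orders on the two components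
  obtain ⟨c, g, hc, hg, hT⟩ := exists_heckeFun_eq hℓ hf0 D₀ hdiv a (hD₀z ▸ heig)
  have hcong : (p : ℤ) ∣ nI - nO := by
    set R := heckeFun (M * q) ℓ f₀ / f₀ ^ a with hR
    have hRe : R = algebraMap Qb FQ c * g ^ p := by
      rw [hR, hT, div_eq_iff (zpow_ne_zero a hf0)]; ring
    have hRI := (hnI.heckeFun' hq hA hℓ hℓN hf₀ hf0).mul hq hA ((hnI.zpow hq hA a).inv hq hA)
    have hRO := (hnO.heckeFun' hq hA hℓ hℓN (hf₀.wAL hq hqM) hwf0).mul hq hA
      ((hnO.zpow hq hA a).inv hq hA)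
    rw [← div_eq_mul_inv, ← hR] at hRI
    rw [← div_eq_mul_inv, ← atkinLehner_heckeFun hq hqM hℓ hℓN, ← map_zpow₀, ← map_div₀, ← hR]
      at hRO
    have h := dvd_sub_of_pow hq hqM hA hp0 ((IsFixed.heckeFun' hf₀).div (hf₀.zpow a)) hc hg hRe
      hRI hRO
    rw [show ((ℓ : ℤ) + 1) * nI + -(a * nI) - (((ℓ : ℤ) + 1) * nO + -(a * nO)) =
      -((a - 1 - ℓ) * (nI - nO)) by ring, dvd_neg] at h
    exact ((Nat.prime_iff_prime_int.mp Fact.out).dvd_mul.mp h).resolve_left ha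
  obtain ⟨k, hk⟩ := hcong
  obtain ⟨h, hhfix, hh0, hhI, hhO⟩ := exists_indicator hq hqM hA
  -- normalisation
  set f : FQ := algebraMap Qb FQ ((q : Qb) ^ (-nO)) * f₀ * h ^ (-((p : ℤ) * k)) with hf
  have hqfix : IsFixed A (M * q) (algebraMap Qb FQ ((q : Qb) ^ (-nO))) := by
    rw [map_zpow₀, map_natCast]; exact (IsFixed.natCast q).zpow _
  have hone : π ⟨1, one_mem A⟩ ≠ 0 := by
    rw [show (⟨1, one_mem A⟩ : A) = 1 from rfl, map_one]; exact one_ne_zero
  have hqI : HasOrdI M q A (algebraMap Qb FQ ((q : Qb) ^ (-nO))) (-nO) := by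
    have := hasOrdI_qzpow (M := M) hq (-nO) 1 (one_mem A) hone
    rwa [mul_one] at this
  have hfI : HasOrdI M q A f 0 := by
    have := (hqI.mul hq hA hnI).mul hq hA (hhI.zpow hq hA (-((p : ℤ) * k)))
    rwa [show -nO + nI + -((p : ℤ) * k) * 1 = 0 by linear_combination hk] at this
  have hfO : HasOrdI M q A (atkinLehner hq hqM f) 0 := by
    have := (hqI.mul hq hA hnO).mul hq hA (hhO.zpow hq hA (-((p : ℤ) * k)))
    rw [show -nO + nO + -((p : ℤ) * k) * 0 = 0 by ring,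
      ← AlgHom.commutes (atkinLehner hq hqM), ← map_zpow₀, ← map_mul, ← map_mul] at this
    exact this
  have hq' : algebraMap Qb FQ ((q : Qb) ^ (-nO)) ≠ 0 := (map_ne_zero _).mpr (zpow_ne_zero _ hq0)
  have hfne : f ≠ 0 := mul_ne_zero (mul_ne_zero hq' hf0) (zpow_ne_zero _ hh0)
  have hordf : ∀ P : Place Qb FQ, P.ord f =
      (p : ℤ) * ((D₀ : Divisor Qb FQ) P - k * P.ord h) := fun P => by
    rw [hf, P.ord_mul (mul_ne_zero hq' hf0) (zpow_ne_zero _ hh0), P.ord_mul hq' hf0,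
      FF.ord_algebraMap, P.ord_zpow, hdiv]
    ring
  let Dh : Divisor.degZero (K := Qb) (F := FQ) :=
    ⟨FF.divisorOf h, Divisor.mem_degZero.mpr (FF.degree_divisorOf h)⟩
  have hDh : Pic0.mk Dh = 0 :=
    (QuotientAddGroup.eq_zero_iff _).2 (AddSubgroup.mem_addSubgroupOf.mpr
      ⟨h, hh0, FF.divisorOf_apply h⟩)
  refine ⟨D₀ - k • Dh, f, ?_,
    ⟨(hqfix.mul hf₀).mul (hhfix.zpow _), hfne, fun P => ⟨_, hordf P⟩,
      ((hasOrdI_zero_iff hq hA).mp hfI).1, ((hasOrdI_zero_iff hq hA).mp hfI).2,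
      ((hasOrdI_zero_iff hq hA).mp hfO).1, ((hasOrdI_zero_iff hq hA).mp hfO).2⟩, fun P => ?_⟩
  · rw [show Pic0.mk (D₀ - k • Dh) = Pic0.mk D₀ - k • Pic0.mk Dh by
      rw [show ∀ x y, Pic0.mk (x - y) = Pic0.mk x - Pic0.mk y from
        map_sub (QuotientAddGroup.mk' _)]
      exact congrArg _ (map_zsmul (QuotientAddGroup.mk' _) _ _), hDh, smul_zero, sub_zero, hD₀z]
  · rw [hordf P, AddSubgroup.coe_sub, AddSubgroupClass.coe_zsmul, Finsupp.sub_apply,
      Finsupp.smul_apply, smul_eq_mul]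
    rfl

end FLTAgent.LowerQ
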