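import Fermat.Agent.BadQ.AtkinLehner
import Fermat.Agent.BadQ.ReductionQM
import Fermat.Agent.GalCommon.Frobenius
import Fermat.Prelude.Def_FLTPrelim_Ramification
import Fermat.Prelude.Def_ModularCurve_HeckeOperator

/-!
# Normalised functions of level `Mq`

The Atkin–Lehner involution at `q` as a semilinear automorphism of the function field of level
`Mq` (`wAut`), functions fixed by inertia (`IsFixed`), the order on the component of `∞` of the
special fibre (`HasOrdI`), and normalised functions (`Normal`): fixed by inertia, divisor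
divisible by `p`, integral with nonzero reduction on both components. `Normal.wAL`: the involution
preserves normalised functions.
-/

set_option autoImplicit false
set_option linter.style.haveILetI false
set_option linter.unusedSectionVars false

noncomputable section

open ModularCurve AlgebraicCurve
open scoped Pointwise

namespace FLTAgent.LowerQ

open FLTAgent.BadQ

local notation "Qb" => AlgebraicClosure ℚ
local notation "Γℚ" => (AlgebraicClosure ℚ ≃ₐ[ℚ] AlgebraicClosure ℚ)

variable {M q : ℕ} [NeZero M] [NeZero q] (hq : q.Prime) (hqM : ¬ q ∣ M)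

local notation "FQ" => modularFunctionFieldBar (M * q)

/-- Galois acting on the coefficients of functions of level `N`. -/
abbrev galF (N : ℕ) (σ : Γℚ) :
    SemilinearAut Qb (modularFunctionFieldBar N) :=
  arithmeticGalois (modularFunctionFieldFull N) σ

/-- The involution as an automorphism. -/
def wEquiv : FQ ≃ₐ[Qb] FQ :=
  AlgEquiv.ofAlgHom (atkinLehner hq hqM) (atkinLehner hq hqM)
    (AlgHom.ext (atkinLehner_atkinLehner hq hqM)) (AlgHom.ext (atkinLehner_atkinLehner hq hqM))

@[simp] theorem wEquiv_apply (f : FQ) : wEquiv hq hqM f = atkinLehner hq hqM f := rfl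

/-- The involution acting on divisors and classes. -/
def wAut : SemilinearAut Qb FQ := SemilinearAut.ofAlgAut (wEquiv hq hqM)

theorem wAut_smul (f : FQ) : wAut hq hqM • f = atkinLehner hq hqM f := rfl

theorem wAut_mul_self : wAut hq hqM * wAut hq hqM = 1 := by
  rw [wAut, ← map_mul, ← map_one SemilinearAut.ofAlgAut]
  exact congrArg _ (AlgEquiv.ext (atkinLehner_atkinLehner hq hqM))

theorem wAut_mul_galF (σ : Γℚ) :
    wAut hq hqM * galF (M * q) σ = galF (M * q) σ * wAut hq hqM := by
  refine Subtype.ext (Prod.ext (RingEquiv.ext fun f => atkinLehner_galois hq hqM σ f) ?_)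
  exact RingEquiv.ext fun c => rfl

variable (A : ValuationSubring Qb)

/-- Functions whose expansions are fixed by inertia. -/
def IsFixed (N : ℕ) (f : modularFunctionFieldBar N) : Prop :=
  ∀ σ ∈ A.inertiaSubgroupIn ℚ, galF N σ • f = f

variable {A}

namespace IsFixed

variable {N : ℕ} {f g : modularFunctionFieldBar N}

theorem one : IsFixed A N (1 : modularFunctionFieldBar N) := fun _ _ => smul_one _

theorem mul (hf : IsFixed A N f) (hg : IsFixed A N g) : IsFixed A N (f * g) :=
  fun σ hσ => by rw [smul_mul', hf σ hσ, hg σ hσ]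

theorem inv (hf : IsFixed A N f) : IsFixed A N f⁻¹ :=
  fun σ hσ => by rw [smul_inv'', hf σ hσ]

theorem div (hf : IsFixed A N f) (hg : IsFixed A N g) : IsFixed A N (f / g) := by
  rw [div_eq_mul_inv]; exact hf.mul hg.inv

theorem pow (hf : IsFixed A N f) (n : ℕ) : IsFixed A N (f ^ n) :=
  fun σ hσ => by rw [smul_pow', hf σ hσ]

theorem add (hf : IsFixed A N f) (hg : IsFixed A N g) : IsFixed A N (f + g) :=
  fun σ hσ => by rw [smul_add, hf σ hσ, hg σ hσ]

theorem natCast (n : ℕ) : IsFixed A N (n : modularFunctionFieldBar N) :=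
  fun σ _ => map_natCast (SemilinearAut.toRingAut (galF N σ)) n

theorem zpow (hf : IsFixed A N f) (n : ℤ) : IsFixed A N (f ^ n) := by
  obtain ⟨m, rfl | rfl⟩ := n.eq_nat_or_neg
  · rw [zpow_natCast]; exact hf.pow m
  · rw [zpow_neg, zpow_natCast]; exact (hf.pow m).inv

end IsFixed

theorem IsFixed.wAL {f : FQ} (hf : IsFixed A (M * q) f) :
    IsFixed A (M * q) (atkinLehner hq hqM f) := fun σ hσ => by
  rw [← atkinLehner_galois hq hqM σ f, hf σ hσ]

theorem IsFixed.galF_smul {σ : Γℚ} (hσ : σ ∈ A.decompositionSubgroup ℚ) {N : ℕ}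
    {f : modularFunctionFieldBar N} (hf : IsFixed A N f) : IsFixed A N (galF N σ • f) := by
  intro τ hτ
  have h : σ⁻¹ * τ * σ ∈ A.inertiaSubgroupIn ℚ := by
    have hA : σ • A = A := hσ
    have h1 := GalCommon.mem_inertia_conj hτ σ⁻¹
    rw [inv_inv, inv_smul_eq_iff.mpr hA.symm] at h1
    exact h1
  have e := hf _ h
  have e1 : galF N (σ⁻¹ * τ * σ) = (galF N σ)⁻¹ * (galF N τ * galF N σ) := by
    simp only [galF, map_mul, map_inv, mul_assoc]
  rw [e1, mul_smul, mul_smul, inv_smul_eq_iff] at e
  exact e

variable (A) (M q) in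
/-- `f` is `q ^ n` times a function with nonzero reduction on the component of `∞`. -/
def HasOrdI (f : FQ) (n : ℤ) : Prop :=
  ∃ g : FQ, g ∈ VI A M q ∧ redI A M q g ≠ 0 ∧ f = algebraMap Qb FQ ((q : Qb) ^ n) * g

/-- A normalised function fixed by inertia with divisor divisible by `p`. -/
structure Normal (p : ℕ) (f : FQ) : Prop where
  fixed : IsFixed A (M * q) f
  ne_zero : f ≠ 0
  dvd : ∀ P : Place Qb FQ, (p : ℤ) ∣ P.ord f
  memI : f ∈ VI A M q
  redI_ne : redI A M q f ≠ 0
  memO : atkinLehner hq hqM f ∈ VI A M q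
  redO_ne : redI A M q (atkinLehner hq hqM f) ≠ 0

theorem Normal.wAL {p : ℕ} {f : FQ} (h : Normal hq hqM (A := A) p f) :
    Normal hq hqM (A := A) p (atkinLehner hq hqM f) where
  fixed := h.fixed.wAL hq hqM
  ne_zero := (map_ne_zero _).mpr h.ne_zero
  dvd P := by
    have e := SemilinearAut.ord_smul (wAut hq hqM) ((wAut hq hqM)⁻¹ • P) f
    rw [smul_inv_smul, wAut_smul] at e
    exact e ▸ h.dvd _
  memI := h.memO
  redI_ne := h.redO_ne
  memO := by rw [atkinLehner_atkinLehner]; exact h.memI
  redO_ne := by rw [atkinLehner_atkinLehner]; exact h.redI_ne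

end FLTAgent.LowerQ
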