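import Fermat.Agent.MazurP.ResidualHecke

/-!
# Eigen torsion points for almost all primes

`mem_heckeEigTors_of_cofinite`: a point of `J₀(N)[p]` with `T_ℓ = a_ℓ(W)` for the good primes `ℓ`
outside a finite set `B` has these eigenvalues at all good primes `ℓ ∤ Np`. On the module
`eigTorsOff` of such points Galois satisfies the characteristic polynomial of `W[p]`: true at
Frobenius elements by the Eichler–Shimura relation, hence everywhere by density. Comparing it with
the relation of Frobenius at an excluded prime gives the eigenvalue there.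
-/

set_option autoImplicit false

noncomputable section

open AlgebraicCurve ModularCurve WeierstrassCurve

namespace FLTAgent.LowerQ

open FLTAgent.MazurP

local notation "Qb" => AlgebraicClosure ℚ
local notation "Γℚ" => (AlgebraicClosure ℚ ≃ₐ[ℚ] AlgebraicClosure ℚ)

/-- The points of `J₀(N)[p]` with `T_ℓ = a_ℓ` for the good `ℓ` outside `B`. -/
def eigTorsOff (W : WeierstrassCurve ℤ) (p N : ℕ) [NeZero N] (B : Finset ℕ) :
    Submodule (ZMod p) (Reps.tors N p) :=
  AddSubgroup.toZModSubmodule p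
    { carrier := {z | ∀ (ℓ : ℕ) (hℓ : ℓ.Prime), W.IsGoodPrimeFor ℓ → ¬ ℓ ∣ N → ℓ ≠ p → ℓ ∉ B →
        heckeOperatorBar N ⟨ℓ, hℓ⟩ (z : JZero N) = W.apOfModel ℓ • (z : JZero N)}
      zero_mem' := fun _ _ _ _ _ _ => by simp
      add_mem' := fun {a b} ha hb ℓ hℓ h1 h2 h3 h4 => by
        rw [AddSubgroup.coe_add, map_add, ha ℓ hℓ h1 h2 h3 h4, hb ℓ hℓ h1 h2 h3 h4, zsmul_add]
      neg_mem' := fun {a} ha ℓ hℓ h1 h2 h3 h4 => by
        rw [AddSubgroup.coe_neg, map_neg, ha ℓ hℓ h1 h2 h3 h4, zsmul_neg] }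

variable {W : WeierstrassCurve ℤ} {p N : ℕ} [NeZero N] [Fact p.Prime]

/-- A representation restricted to a stable submodule. -/
private def restrictRep {R G U : Type*} [CommRing R] [Monoid G] [AddCommGroup U] [Module R U]
    (ρ : G →* Module.End R U) (V : Submodule R U) (h : ∀ σ, ∀ z ∈ V, ρ σ z ∈ V) :
    G →* Module.End R V where
  toFun σ := (ρ σ).restrict (h σ)
  map_one' := LinearMap.ext fun z => Subtype.ext (by simp [LinearMap.coe_restrict_apply])
  map_mul' σ τ := LinearMap.ext fun z => Subtype.ext (by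
    simp [LinearMap.coe_restrict_apply, Module.End.mul_apply])

/-- Evaluation of a quadratic polynomial in an endomorphism, pushed to an additive group. -/
private theorem quad_apply {U J : Type*} [AddCommGroup U] [Module (ZMod p) U] [AddCommGroup J]
    (ι : U →+ J) (R : Module.End (ZMod p) U) (g : J → J) (hg : ∀ v, ι (R v) = g (ι v))
    (t : ℤ) (d : ℕ) (z : U) :
    ι ((R * R - algebraMap (ZMod p) (Module.End (ZMod p) U) (t : ZMod p) * R +
      algebraMap (ZMod p) (Module.End (ZMod p) U) (d : ZMod p)) z) =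
      g (g (ι z)) - t • g (ι z) + d • ι z := by
  simp only [LinearMap.add_apply, LinearMap.sub_apply, Module.End.mul_apply,
    Module.algebraMap_end_apply, Int.cast_smul_eq_zsmul, Nat.cast_smul_eq_nsmul,
    map_add, map_sub, map_zsmul, map_nsmul, hg]

/-- Two monic quadratic relations with the same constant term have the same middle term. -/
private theorem middle_eq {J : Type*} [AddCommGroup J] {u a b c : J}
    (h1 : u - a + c = 0) (h2 : u - b + c = 0) : b = a := by
  rw [← h1, add_left_inj, sub_right_inj] at h2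
  exact h2

/-- An eigen torsion point for the good primes outside a finite set is one for all good primes. -/
theorem mem_heckeEigTors_of_cofinite (hΔ : W.Δ ≠ 0) (hp2 : p ≠ 2) {B : Finset ℕ}
    {z₀ : Reps.tors N p} (hz₀ : z₀ ∈ eigTorsOff W p N B) : z₀ ∈ heckeEigTors W p N := by
  have hp : p.Prime := Fact.out
  have := EllTorsion.isElliptic_map_rat hΔ
  set V := eigTorsOff W p N B with hV
  have hst : ∀ σ : Γℚ, ∀ z ∈ V, JZero.torsionGaloisRep N p σ z ∈ V := by
    intro σ z hz ℓ hℓ h1 h2 h3 h4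
    exact ((Reps.galois_smul_heckeOperatorBar N σ ⟨ℓ, hℓ⟩ (z : JZero N)).symm.trans
      (congrArg (σ • ·) (hz ℓ hℓ h1 h2 h3 h4))).trans <|
        map_zsmul (DistribSMul.toAddMonoidHom (JZero N) σ) _ _
  let r : Γℚ →* Module.End (ZMod p) V := restrictRep (JZero.torsionGaloisRep N p) V hst
  let ι : V →+ JZero N := (Reps.tors N p).subtype.comp V.toAddSubgroup.subtype
  have hι : Function.Injective ι := Subtype.val_injective.comp Subtype.val_injective
  have hιr : ∀ (σ : Γℚ) (z : V), ι (r σ z) = σ • ι z := fun _ _ => rfl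
  have hιmem : ∀ z : V, ι z ∈ Pic0.torsion Qb (modularFunctionFieldBar N) (p ^ 1) := fun z => by
    rw [pow_one]; exact (z : Reps.tors N p).2
  obtain ⟨L, hL, hLfix⟩ := Reps.exists_level_galMat N p
  have hker : ∀ u ∈ L.fixingSubgroup, ∀ z : V, u • ι z = ι z := by
    intro u hu z
    have h : JZero.torsionGaloisRep N p u (z : Reps.tors N p) = (z : Reps.tors N p) := by
      apply (Reps.coordTors N p).injective
      rw [← Reps.galMat_mulVec, hLfix u fun x hx =>
        (IntermediateField.mem_fixingSubgroup_iff L u).mp hu x hx, Matrix.one_mulVec]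
    exact congrArg Subtype.val h
  let U : Subgroup Γℚ := (modRep W p).ker ⊓ L.fixingSubgroup
  have hU : IsOpen (U : Set Γℚ) :=
    (EllTorsion.isOpen_ker_galoisRepModuleEnd (W.map (Int.castRingHom ℚ)) p hp.ne_zero).inter
      L.fixingSubgroup_isOpen
  have quad : ∀ σ, r σ * r σ - algebraMap (ZMod p) _ (modTr W p σ) * r σ +
      algebraMap (ZMod p) _ (modDet W p σ) = 0 := by
    intro σ
    refine Density.forall_of_forall_isFrobeniusAt (P := fun σ => r σ * r σ -
        algebraMap (ZMod p) _ (modTr W p σ) * r σ +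
        algebraMap (ZMod p) _ (modDet W p σ) = 0) U hU
      (insert p (B ∪ (N.primeFactors ∪ W.Δ.natAbs.primeFactors))) ?_ ?_ ?_ σ
    · intro g u hu h
      have h1 : modRep W p (g * u) = modRep W p g := by
        rw [map_mul, MonoidHom.mem_ker.mp hu.1, mul_one]
      have h2 : r (g * u) = r g :=
        LinearMap.ext fun z => hι
          (((hιr (g * u) z).trans
            ((mul_smul g u (ι z)).trans (congrArg (g • ·) (hker u hu.2 z)))).trans (hιr g z).symm)
      exact quadratic_congr h2 (modTr_congr h1) (modDet_congr h1) h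
    · intro g k h
      have htr : modTr W p (g ^ k) = Reps.luc (modTr W p g) (modDet W p g) k := by
        have := moduleFinite_torsSpace (p := p) hΔ
        rw [modTr, map_pow]
        exact Reps.trace_pow_eq_luc (finrank_torsSpace hΔ) _ k
      exact quadratic_congr (map_pow r g k) htr (map_pow (modDet W p) g k) (quadratic_pow h k)
    · intro ℓ hℓ hℓS A hA τ hτ
      simp only [Finset.mem_insert, Finset.mem_union, Nat.mem_primeFactors, not_or] at hℓS
      have hℓN : ¬ ℓ ∣ N := fun h => hℓS.2.2.1 ⟨hℓ, h, NeZero.ne N⟩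
      have hgood : W.IsGoodPrimeFor ℓ := fun h =>
        hℓS.2.2.2 ⟨hℓ, Int.natCast_dvd.mp h, Int.natAbs_ne_zero.mpr hΔ⟩
      refine quadratic_congr rfl (modTr_frobenius hΔ hp2 hℓ hgood hℓS.1 hA hτ)
        (modDet_frobenius hΔ hℓ hℓS.1 hA hτ) ?_
      refine LinearMap.ext fun z => hι ?_
      have h := Reps.frobenius_rel_torsion N hp hℓ hℓN hℓS.1 hA hτ (hιmem z)
      have hT : heckeOperatorBar N ⟨ℓ, hℓ⟩ (τ • ι z) = W.apOfModel ℓ • (τ • ι z) :=
        (r τ z).2 ℓ hℓ hgood hℓN hℓS.1 hℓS.2.1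
      exact (quad_apply ι (r τ) (τ • ·) (hιr τ) _ _ z).trans
        (((congrArg (fun y => τ • τ • ι z - y + ℓ • ι z) hT).symm.trans h).trans (map_zero ι).symm)
  -- the two relations of Frobenius at an excluded prime
  intro ℓ hℓ hgood hℓN hℓp
  obtain ⟨A, hA, σ, hσ⟩ := GalCommon.exists_place_frobenius hℓ
  obtain ⟨x, hσz⟩ : ∃ x : V, σ • ι x = (z₀ : JZero N) :=
    ⟨r σ⁻¹ ⟨z₀, hz₀⟩, by rw [hιr, smul_inv_smul]; rfl⟩
  have q1 := quadratic_congr rfl (modTr_frobenius hΔ hp2 hℓ hgood hℓp hA hσ).symm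
    (modDet_frobenius hΔ hℓ hℓp hA hσ).symm (quad σ)
  have h1 := (quad_apply ι (r σ) (σ • ·) (hιr σ) _ _ x).symm.trans
    ((congrArg ι (LinearMap.congr_fun q1 x)).trans (map_zero ι))
  have h2 := Reps.frobenius_rel_torsion N hp hℓ hℓN hℓp hA hσ (hιmem x)
  exact ((congrArg (heckeOperatorBar N ⟨ℓ, hℓ⟩) hσz).symm.trans (middle_eq h1 h2)).trans
    (congrArg (W.apOfModel ℓ • ·) hσz)

end FLTAgent.LowerQ
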