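import Fermat.Agent.LowerQ.ModelNode
import Fermat.Agent.Kronecker.HeckeReduction
import Fermat.Agent.ModularCosets.Corollaries

/-!
# The reduced divisor of a normalised function

`Normal.dvd_ord_red`: the reduction on the component of `∞` of a normalised function has divisor
divisible by `p`. The function is raised to level `Mℓ²q`, `ℓ = 2` or `3`, a level without elliptic
points, where the nodes have thickness one (`Normal.dvd_ord_red_of_goodLevel`). Divisibility
descends since the two steps of the tower have degree prime to `p` (`dvd_ord_of_step`).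
-/

set_option autoImplicit false
set_option linter.style.haveILetI false
set_option linter.unusedSectionVars false
set_option synthInstance.maxHeartbeats 400000
set_option maxHeartbeats 800000

noncomputable section

open ModularCurve AlgebraicCurve

namespace FLTAgent.LowerQ

open FLTAgent.BadQ
open FLTAgent.Kronecker (alphaC coe_alphaC jSeries swapIdx)
open FLTAgent.ModularCosets (DivIdx)
open FLTAgent.MazurP (levelIncl coe_levelIncl levelIncl_galois)

local notation "Qb" => AlgebraicClosure ℚ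

variable {M q : ℕ} [NeZero M] [NeZero q] (hq : q.Prime) (hqM : ¬ q ∣ M)
  {A : ValuationSubring Qb} (hA : A.LiesOverPrime q)

local notation "FQ" => modularFunctionFieldBar (M * q)
local notation "k" => IsLocalRing.ResidueField A
local notation "E0" => modularFunctionFieldFullC k M

/-- Two maps out of the field of level `N` agreeing on the `j (d z)` are equal. -/
theorem algHom_ext_coe {N : ℕ} [NeZero N] {L : IntermediateField Qb (LaurentSeries Qb)}
    {φ ψ : modularFunctionFieldBar N →ₐ[Qb] L}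
    (h : ∀ d : DivIdx N, (φ (jAt d) : LaurentSeries Qb) = ψ (jAt d)) : φ = ψ :=
  AlgHom.ext fun x => Subtype.ext
    (DFunLike.congr_fun (algHom_ext_bar (φ := L.val.comp φ) (ψ := L.val.comp ψ) h) x)

theorem levelIncl_jAt {N N' : ℕ} [NeZero N] [NeZero N'] (h : N ∣ N') (d : DivIdx N) :
    levelIncl h (jAt d) =
      jAt ⟨(d : ℕ), Nat.mem_divisors.mpr ⟨d.dvd.trans h, NeZero.ne _⟩⟩ :=
  Subtype.ext (coe_levelIncl h _)

include hq hqM in
/-- The involution commutes with the inclusion of levels. -/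
theorem atkinLehner_levelIncl {M' : ℕ} [NeZero M'] (hqM' : ¬ q ∣ M') (h : M * q ∣ M' * q)
    (f : FQ) :
    atkinLehner hq hqM' (levelIncl h f) = levelIncl h (atkinLehner hq hqM f) := by
  have e : (atkinLehner hq hqM').comp (levelIncl h) =
      (levelIncl h).comp (atkinLehner hq hqM) := algHom_ext_coe fun d => by
    rw [AlgHom.comp_apply, AlgHom.comp_apply, levelIncl_jAt, atkinLehner_jAt, coe_levelIncl,
      atkinLehner_jAt]
  rw [← AlgHom.comp_apply, e, AlgHom.comp_apply]

/-- A normalised function stays normalised at a higher level. -/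
theorem Normal.levelUp {M' : ℕ} [NeZero M'] (hqM' : ¬ q ∣ M') (h : M * q ∣ M' * q) {n : ℕ} {f : FQ}
    (hf : Normal hq hqM (A := A) n f) :
    Normal hq hqM' (A := A) n (levelIncl h f) where
  fixed σ hσ := (levelIncl_galois h σ f).symm.trans (congrArg _ (hf.fixed σ hσ))
  ne_zero := (map_ne_zero _).mpr hf.ne_zero
  dvd P := by
    haveI := Kronecker.isFF_bar (M * q)
    haveI := Kronecker.isFF_bar (M' * q)
    rw [Place.ord_restrictAlong (levelIncl h) (FF.isIntegral_alongFF _)]
    exact (hf.dvd _).mul_left _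
  memI := by rw [mem_VI, coe_levelIncl]; exact hf.memI
  redI_ne := by rw [redI, coe_levelIncl]; exact hf.redI_ne
  memO := by
    rw [atkinLehner_levelIncl hq hqM hqM', mem_VI, coe_levelIncl]
    exact hf.memO
  redO_ne := by
    rw [atkinLehner_levelIncl hq hqM hqM', redI, coe_levelIncl]
    exact hf.redO_ne

include hq hqM hA in
/-- A step of degree prime to `p` keeps divisibility by `p`. -/
theorem dvd_ord_of_step {ℓ : ℕ} [NeZero ℓ] (hℓ : ℓ.Prime) (hqℓ : q ≠ ℓ) {p : ℕ}
    (hp : p.Prime) (hdeg : ¬ p ∣ if ℓ ∣ M then ℓ else ℓ + 1)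
    (g : E0) (g' : modularFunctionFieldFullC k (M * ℓ))
    (he : (g : LaurentSeries k) = g')
    (h : ∀ w : Place k (modularFunctionFieldFullC k (M * ℓ)), (p : ℤ) ∣ w.ord g')
    (v : Place k E0) : (p : ℤ) ∣ v.ord g := by
  haveI := Fact.mk hq
  have hqℓM : ¬ q ∣ M * ℓ := fun hd =>
    (hq.dvd_mul.mp hd).elim hqM fun h => hqℓ ((Nat.prime_dvd_prime_iff_eq hq hℓ).mp h)
  haveI := GalCommon.isAlgClosed_residueField A hq hA
  haveI := Reduction.isFF_fullC_residue M A hA hqM
  haveI := Reduction.isFF_fullC_residue (M * ℓ) A hA hqℓM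
  set φ := alphaC k M ℓ with hφdef
  have hφ : φ.toRingHom.IsIntegral := FF.isIntegral_alongFF φ
  have hsep : SeparableAlong k φ := by
    refine Kronecker.separableAlong_of_adjoin _ (Reduction.jF M k) ?_
    rw [show φ (Reduction.jF M k) = Reduction.jF (M * ℓ) k from
      Subtype.ext (coe_alphaC _ M ℓ _)]
    exact Reduction.isSeparable_fullC_residue (M * ℓ) A hA hqℓM
  have hsum := FF.sum_ramificationIndexAlong φ hφ hsep v
  have hn : finrankAlong k φ = if ℓ ∣ M then ℓ else ℓ + 1 := by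
    rw [← Kronecker.finrankAlong_alpha_eq (q := ℓ) hA hqM hqℓM,
      ModularCosets.finrankAlong_alphaBar hℓ]
  have hdvd : (p : ℤ) ∣ (finrankAlong k φ : ℤ) * v.ord g := by
    rw [← hsum, Finset.sum_mul]
    refine Finset.dvd_sum fun w hw => ?_
    rw [← Place.mem_fiberAlong.mp hw, ← Place.ord_restrictAlong φ hφ,
      show φ g = g' from Subtype.ext ((coe_alphaC _ M ℓ g).trans he)]
    exact h w
  refine ((Nat.prime_iff_prime_int.mp hp).dvd_or_dvd hdvd).resolve_left fun h2 => hdeg ?_
  rw [← hn]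
  exact Int.natCast_dvd_natCast.mp h2

/-- The reduced divisor of a normalised function is divisible by `p`. -/
theorem Normal.dvd_ord_red (hA : A.LiesOverPrime q) {p : ℕ} [Fact p.Prime] (hp2 : p ≠ 2)
    (hpM : 5 ≤ p ∨ 2 ∣ M) {f : FQ} (hf : Normal hq hqM (A := A) p f) (v : Place k E0) :
    (p : ℤ) ∣ v.ord (⟨redI A M q f, redI_mem A M q hq hqM hA f⟩ : E0) := by
  have hp : p.Prime := Fact.out
  suffices main : ∀ ℓ : ℕ, ℓ.Prime → q ≠ ℓ → (4 ∣ M * ℓ * ℓ ∨ 9 ∣ M * ℓ * ℓ) →
      (¬ p ∣ if ℓ ∣ M then ℓ else ℓ + 1) → ¬ p ∣ ℓ →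
      (p : ℤ) ∣ v.ord (⟨redI A M q f, redI_mem A M q hq hqM hA f⟩ : E0) by
    by_cases hq2 : q = 2
    · subst hq2
      have h5 : 5 ≤ p := hpM.resolve_right hqM
      refine main 3 Nat.prime_three (by norm_num) (Or.inr ⟨M, by ring⟩) (fun h => ?_) fun h => ?_
      · split_ifs at h
        · have := Nat.le_of_dvd (by norm_num) h; omega
        · have := Nat.le_of_dvd (by norm_num) h; omega
      · have := Nat.le_of_dvd (by norm_num) h; omega
    · refine main 2 Nat.prime_two hq2 (Or.inl ⟨M, by ring⟩) (fun h => ?_) fun h => ?_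
      · split_ifs at h with h2
        · exact hp2 ((Nat.prime_dvd_prime_iff_eq hp Nat.prime_two).mp h)
        · have h5 : 5 ≤ p := hpM.resolve_right h2
          have := Nat.le_of_dvd (by norm_num) h
          omega
      · exact hp2 ((Nat.prime_dvd_prime_iff_eq hp Nat.prime_two).mp h)
  intro ℓ hℓ hqℓ hgood hdeg hpℓ
  haveI := Fact.mk hℓ
  haveI : NeZero (M * ℓ) := ⟨mul_ne_zero (NeZero.ne M) hℓ.ne_zero⟩
  haveI : NeZero (M * ℓ * ℓ) := ⟨mul_ne_zero (NeZero.ne (M * ℓ)) hℓ.ne_zero⟩
  have hq1 : ¬ q ∣ M * ℓ := fun hd =>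
    (hq.dvd_mul.mp hd).elim hqM fun h => hqℓ ((Nat.prime_dvd_prime_iff_eq hq hℓ).mp h)
  have hq2 : ¬ q ∣ M * ℓ * ℓ := fun hd =>
    (hq.dvd_mul.mp hd).elim hq1 fun h => hqℓ ((Nat.prime_dvd_prime_iff_eq hq hℓ).mp h)
  have hlev : M * q ∣ M * ℓ * ℓ * q := ⟨ℓ * ℓ, by ring⟩
  have hf' := hf.levelUp hq hqM hq2 hlev
  set g : E0 := ⟨redI A M q f, redI_mem A M q hq hqM hA f⟩
  refine dvd_ord_of_step hq hqM hA hℓ hqℓ hp hdeg g (alphaC k M ℓ g)
    (coe_alphaC _ M ℓ g).symm (fun w => ?_) v
  refine dvd_ord_of_step hq hq1 hA hℓ hqℓ hp ?_ (alphaC k M ℓ g) _ ?_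
    (Normal.dvd_ord_red_of_goodLevel hgood hA hp.ne_zero hf') w
  · rw [if_pos (dvd_mul_left ℓ M)]; exact hpℓ
  · rw [coe_alphaC]
    show gval A (IsLocalRing.residue A) (f : LaurentSeries Qb) =
      gval A (IsLocalRing.residue A) (levelIncl hlev f : LaurentSeries Qb)
    rw [coe_levelIncl]

end FLTAgent.LowerQ
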