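import Fermat.Agent.GalCommon.Frobenius

/-!
# The decomposition group modulo inertia

`exists_map_eq_map_pow`: a homomorphism of finite level which kills inertia at `q` maps every
element of the decomposition group to a power of the image of a Frobenius element. The residues of
the integers of the level field form a finite subring, on which any endomorphism is a power of
Frobenius (`exists_eq_pow_frobenius`); the comparison is lifted by surjectivity of the stabiliser
onto the residual automorphisms.
-/

set_option autoImplicit false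
set_option linter.style.haveILetI false

noncomputable section

open Polynomial
open scoped Pointwise

namespace FLTAgent.LowerQ

open FLTAgent.GalCommon

local notation "Qb" => AlgebraicClosure ℚ
local notation "Γℚ" => (AlgebraicClosure ℚ ≃ₐ[ℚ] AlgebraicClosure ℚ)

/-- A ring endomorphism is a power of Frobenius on a finite subring. -/
theorem exists_eq_pow_frobenius {k : Type*} [Field k] {q : ℕ} [Fact q.Prime] [CharP k q]
    (θ : k →+* k) (S : Subring k) [Finite S] : ∃ n : ℕ, ∀ y ∈ S, θ y = y ^ q ^ n := by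
  classical
  haveI : Fintype S := Fintype.ofFinite S
  letI : Field S := Fintype.fieldOfDomain S
  haveI : CharP S q := CharP.subring k q S
  obtain ⟨f, -, hcard⟩ := FiniteField.card S q
  obtain ⟨g, hg⟩ := IsCyclic.exists_generator (α := Sˣ)
  set c : k := ((g : S) : k)
  have hq0 : q ≠ 0 := (Fact.out : q.Prime).ne_zero
  have hc : c ^ q ^ (f : ℕ) = c := by
    have := FiniteField.pow_card (g : S)
    rw [hcard] at this
    exact congrArg Subtype.val this
  set Q : k[X] := ∏ i ∈ Finset.range (f : ℕ), (X - C (c ^ q ^ i)) with hQ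
  have hroot : Q.eval c = 0 := by
    rw [hQ, eval_prod]
    exact Finset.prod_eq_zero (Finset.mem_range.mpr f.pos) (by simp)
  have hfrob : Q.map (frobenius k q) = Q := by
    rw [hQ, Polynomial.map_prod]
    simp only [Polynomial.map_sub, map_X, map_C, frobenius_def, ← pow_mul, ← pow_succ]
    have h1 := Finset.prod_range_succ' (fun i => X - C (c ^ q ^ i)) (f : ℕ)
    rw [Finset.prod_range_succ, hc, pow_zero, pow_one] at h1
    exact (mul_right_cancel₀ (X_sub_C_ne_zero c) h1).symm
  have hθ : Q.map θ = Q := by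
    ext i
    rw [coeff_map]
    have hi : Q.coeff i ∈ (⊥ : Subfield k) := by
      rw [Subfield.mem_bot_iff_pow_eq_self k q]
      conv_rhs => rw [← hfrob]
      rw [coeff_map, frobenius_def]
    exact (bot_le : ⊥ ≤ θ.eqLocusField (RingHom.id k)) hi
  have h2 : Q.eval (θ c) = 0 := by
    conv_lhs => rw [← hθ]
    rw [eval_map, eval₂_at_apply, hroot, map_zero]
  rw [hQ, eval_prod, Finset.prod_eq_zero_iff] at h2
  obtain ⟨n, -, hn⟩ := h2
  rw [eval_sub, eval_X, eval_C, sub_eq_zero] at hn
  refine ⟨n, fun y hy => ?_⟩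
  rcases eq_or_ne (⟨y, hy⟩ : S) 0 with h0 | h0
  · obtain rfl : y = 0 := congrArg Subtype.val h0
    rw [map_zero, zero_pow (pow_ne_zero _ hq0)]
  obtain ⟨j, hj⟩ : ∃ j : ℕ, c ^ j = y := by
    obtain ⟨j, hj⟩ := (mem_powers_iff_mem_zpowers (x := g)).mpr (hg (Units.mk0 ⟨y, hy⟩ h0))
    exact ⟨j, by
      have := congrArg (fun u : Sˣ => ((u : S) : k)) hj
      simpa using this⟩
  rw [← hj, map_pow, hn, ← pow_mul, ← pow_mul, mul_comm]

variable {A : ValuationSubring Qb} {q : ℕ}

/-- A homomorphism of finite level which kills inertia sends the decomposition group into the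
powers of the image of Frobenius. -/
theorem exists_map_eq_map_pow {G : Type*} [Group G] (hq : q.Prime) (hA : A.LiesOverPrime q)
    (ρ : Γℚ →* G) (L : IntermediateField ℚ Qb) [FiniteDimensional ℚ L]
    (hL : L.fixingSubgroup ≤ ρ.ker) (hI : ∀ i ∈ A.inertiaSubgroupIn ℚ, ρ i = 1)
    {φ : Γℚ} (hφ : A.IsFrobeniusAt φ q) {τ : Γℚ} (hτ : τ ∈ A.decompositionSubgroup ℚ) :
    ∃ n : ℕ, ρ τ = ρ φ ^ n := by
  haveI := Fact.mk hq
  haveI := charP_residueField hq hA
  haveI := isGalois_Qbar
  set H : Subgroup Γℚ := ρ.ker with hH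
  have hHopen : IsOpen (H : Set Γℚ) :=
    Subgroup.isOpen_mono hL (L.fixingSubgroup_isOpen)
  haveI : CompactSpace H := isCompact_iff_compactSpace.mp
    ((Subgroup.isClosed_of_isOpen H hHopen).isCompact)
  let R : Subring Zbar := FixedPoints.subring Zbar H
  haveI : Algebra.IsInvariant R Zbar H := ⟨fun b hb => ⟨⟨b, hb⟩, rfl⟩⟩
  haveI : SMulCommClass H R Zbar := ⟨fun h r b => by
    show h • ((r : Zbar) * b) = (r : Zbar) * (h • b)
    rw [smul_mul', r.2 h]⟩
  letI : TopologicalSpace Zbar := ⊥
  haveI : DiscreteTopology Zbar := ⟨rfl⟩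
  haveI : ContinuousSMul Γℚ Zbar :=
    continuousSMul_iff_stabilizer_isOpen.mpr isOpen_stabilizer_Zbar
  -- the residues of `R` form a finite subring
  have hsub : ∀ z : R, ((z : Zbar) : Qb) ∈ L := fun z => by
    rw [← InfiniteGalois.fixedField_fixingSubgroup L, IntermediateField.mem_fixedField_iff]
    exact fun σ hσ => congrArg Subtype.val (z.2 ⟨σ, hL hσ⟩)
  let ι : NumberField.RingOfIntegers L →+* Zbar :=
    ((L.val.toRingHom.comp (algebraMap (NumberField.RingOfIntegers L) L)).codRestrict Zbar
      fun x => x.2.map (L.val.restrictScalars ℤ))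
  haveI : NumberField L := {}
  haveI : Finite ((redHom A).comp ι).range := by
    have hker : RingHom.ker ((redHom A).comp ι) ≠ ⊥ := fun h => hq.ne_zero <| by
      have hmem : (q : NumberField.RingOfIntegers L) ∈ RingHom.ker ((redHom A).comp ι) := by
        rw [RingHom.mem_ker, map_natCast, natCast_residue_eq_zero_iff hq hA]
      rw [h, Ideal.mem_bot] at hmem
      exact_mod_cast hmem
    haveI := Ideal.finiteQuotientOfFreeOfNeBot _ hker
    exact Finite.of_equiv _ (RingHom.quotientKerEquivRange ((redHom A).comp ι)).toEquiv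
  let θ : IsLocalRing.ResidueField A →+* IsLocalRing.ResidueField A :=
    MulSemiringAction.toRingHom (A.decompositionSubgroup ℚ) _ ⟨τ, hτ⟩
  obtain ⟨n, hn⟩ := exists_eq_pow_frobenius (q := q) θ ((redHom A).comp ι).range
  refine ⟨n, ?_⟩
  have hφD := hφ.mem_decompositionSubgroup
  let F : A.decompositionSubgroup ℚ := ⟨φ, hφD⟩
  let s : A.decompositionSubgroup ℚ := (F ^ n)⁻¹ * ⟨τ, hτ⟩
  have hFn : ∀ m : ℕ, ∀ y : IsLocalRing.ResidueField A, (F ^ m) • y = y ^ q ^ m := fun m => by
    induction m with
    | zero => intro y; rw [pow_zero, one_smul, pow_zero, pow_one]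
    | succ m ih =>
      intro y
      rw [pow_succ', mul_smul, ih]
      exact (hφ.smul_residue_eq _).trans (by rw [← pow_mul, ← pow_succ])
  have hs : ∀ r : R, s • redHom A r = redHom A r := fun r => by
    let w : NumberField.RingOfIntegers L :=
      ⟨⟨((r : Zbar) : Qb), hsub r⟩, (isIntegral_algebraMap_iff (A := L) (B := Qb)
        (algebraMap L Qb).injective).mp (r : Zbar).2⟩
    have hw : redHom A r = ((redHom A).comp ι) w := rfl
    rw [mul_smul, inv_smul_eq_iff, hFn]
    exact hn _ ⟨w, hw.symm⟩
  -- extend to an element of `H`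
  let P : Ideal R := (center A).under R
  let e : (Zbar ⧸ center A) ≃+* IsLocalRing.ResidueField A :=
    (Ideal.quotEquivOfEq (by ext x; exact (redHom_eq_zero_iff A x).symm)).trans
      (RingHom.quotientKerEquivOfSurjective (redHom_surjective A hq hA))
  let φs : IsLocalRing.ResidueField A ≃+* IsLocalRing.ResidueField A :=
    MulSemiringAction.toRingEquiv (A.decompositionSubgroup ℚ) _ s
  let ψ : (Zbar ⧸ center A) ≃ₐ[R ⧸ P] (Zbar ⧸ center A) :=
    { e.trans (φs.trans e.symm) with
      commutes' := by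
        intro r
        obtain ⟨r, rfl⟩ := Ideal.Quotient.mk_surjective r
        apply e.injective
        show e (e.symm (φs (e (Ideal.Quotient.mk _ (r : Zbar))))) = _
        rw [RingEquiv.apply_symm_apply]
        exact hs r }
  obtain ⟨⟨⟨h, hhker⟩, hh⟩, hhψ⟩ := Ideal.Quotient.stabilizerHom_surjective_of_profinite (G := H)
    P (center A) ψ
  have hhD : h ∈ A.decompositionSubgroup ℚ := (mem_decompositionSubgroup_iff_center hq hA).mpr hh
  let g : A.decompositionSubgroup ℚ := ⟨h, hhD⟩
  have hg : g⁻¹ * s ∈ A.inertiaSubgroup ℚ := by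
    refine MonoidHom.mem_ker.mpr (RingEquiv.ext fun y => ?_)
    change (g⁻¹ * s) • y = y
    rw [mul_smul, inv_smul_eq_iff]
    obtain ⟨z, rfl⟩ := redHom_surjective A hq hA y
    rw [smul_redHom g z]
    have h2 := congrArg (fun f => e (f (Ideal.Quotient.mk (center A) z))) hhψ
    change redHom A (h • z) = e (e.symm (φs (redHom A z))) at h2
    rw [RingEquiv.apply_symm_apply] at h2
    exact h2.symm
  have hρ := hI _ ⟨_, hg, rfl⟩
  change ρ (h⁻¹ * ((φ ^ n)⁻¹ * τ)) = 1 at hρ
  rw [map_mul, map_inv, MonoidHom.mem_ker.mp hhker, inv_one, one_mul, map_mul, map_inv, map_pow,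
    inv_mul_eq_one] at hρ
  exact hρ.symm

end FLTAgent.LowerQ
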