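import Fermat.Agent.LowerQ.Algebra
import Fermat.Agent.LowerQ.Decomp
import Fermat.Agent.EllTorsion.Det
import Fermat.Agent.EllTorsion.Galois
import Fermat.Agent.Torsion.Conj

/-!
# The final algebra on `E[p]`

`scalar_of_frobenius_eq_curve`: if on a nonzero `E[p]`-isotypic module Frobenius at `q` is `-q`
times an involution commuting with Galois, and `E[p]` is irreducible and unramified at `q`, then
`q ≡ 1 mod p` and the decomposition group acts on `E[p]` by scalars. Frobenius becomes central on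
`E[p]`, hence a scalar of square `q²`, while its determinant is `q`. `exists_involution` provides
complex conjugation.
-/

set_option autoImplicit false
set_option linter.style.haveILetI false
set_option linter.unusedSectionVars false

noncomputable section

open WeierstrassCurve WeierstrassCurve.Affine WeierstrassCurve.Affine.Point
open scoped WeierstrassCurve.Affine

namespace FLTAgent.LowerQ

local notation "Qb" => AlgebraicClosure ℚ
local notation "Γℚ" => (AlgebraicClosure ℚ ≃ₐ[ℚ] AlgebraicClosure ℚ)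

/-- A mod `n` cyclotomic character read off from an exponent. -/
theorem cyclotomicMod_eq {n : ℕ} [NeZero n] (hn : Nat.card (rootsOfUnity n Qb) = n) (σ : Γℚ)
    {j : ℕ} (h : ∀ ζ : Qb, ζ ^ n = 1 → σ ζ = ζ ^ j) :
    ((modularCyclotomicCharacter Qb hn (σ : Qb ≃+* Qb) : (ZMod n)ˣ) : ZMod n) = j := by
  refine (modularCyclotomicCharacter.unique Qb hn (σ : Qb ≃+* Qb) fun t ht => ?_).symm
  have ht' : (t : Qb) ^ n = 1 := by
    have := congrArg Units.val ((mem_rootsOfUnity n t).mp ht)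
    simpa using this
  change σ (t : Qb) = _
  rw [h _ ht', ZMod.val_natCast, ← pow_mod_orderOf, ← pow_mod_orderOf (t : Qb) (j % n),
    Nat.mod_mod_of_dvd j (orderOf_dvd_of_pow_eq_one ht')]

/-- An element which inverts all roots of unity. -/
theorem exists_involution :
    ∃ c : Γℚ, c * c = 1 ∧ ∀ n : ℕ, 0 < n → ∀ ζ : Qb, ζ ^ n = 1 → c ζ = ζ ^ (n - 1) := by
  haveI : Algebra.IsAlgebraic ℚ Qb := AlgebraicClosure.isAlgebraic ℚ
  obtain ⟨ι⟩ : Nonempty (Qb →+* ℂ) :=
    ⟨(IsAlgClosed.lift (R := ℚ) (S := Qb) (M := ℂ)).toRingHom⟩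
  obtain ⟨c, hc, hcι⟩ := Torsion.exists_complexConj ι
  refine ⟨c, hc, fun n hn ζ hζ => ι.injective ?_⟩
  have h1 : ι ζ ^ n = 1 := by rw [← map_pow, hζ, map_one]
  have h0 : ι ζ ≠ 0 := fun h => by simp [h, zero_pow hn.ne'] at h1
  rw [hcι, map_pow, ← Complex.inv_eq_conj (Complex.norm_eq_one_of_pow_eq_one h1 hn.ne')]
  exact inv_eq_of_mul_eq_one_right (by rw [← pow_succ', Nat.sub_add_cancel hn, h1])

/-- If Frobenius acts on a nonzero `E[p]`-isotypic module as `-q` times an involution commuting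
with Galois, then `q ≡ 1 mod p` and the decomposition group acts on `E[p]` by scalars. -/
theorem scalar_of_frobenius_eq_curve (W : WeierstrassCurve ℚ) [W.IsElliptic] {p : ℕ}
    [Fact p.Prime] (hp2 : p ≠ 2) {q : ℕ} (hq : q.Prime) (hqp : q ≠ p)
    (hirr : GaloisRepIsIrreducible (K := Qb) ℚ W p)
    {A : ValuationSubring Qb} (hA : A.LiesOverPrime q)
    (hunr : ∀ σ ∈ A.inertiaSubgroupIn ℚ, ∀ x : Submodule.torsionBy ℤ (W⁄Qb).Point p, σ • x = x)
    {J : Type*} [AddCommGroup J] [DistribMulAction Γℚ J] (S : AddSubgroup J) (hS : S ≠ ⊥)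
    (htor : ∀ z ∈ S, p • z = 0) (hst : ∀ σ : Γℚ, ∀ z ∈ S, σ • z ∈ S)
    (hrel : ∀ c : Γℚ →₀ ℤ, (∀ x : (W⁄Qb).Point, p • x = 0 → (c.sum fun σ a => a • (σ • x)) = 0) →
      ∀ z ∈ S, (c.sum fun σ a => a • (σ • z)) = 0)
    (w : J →+ J) (hw : ∀ z, w (w z) = z) (hgal : ∀ (σ : Γℚ) (z : J), w (σ • z) = σ • w z)
    {φ : Γℚ} (hφ : A.IsFrobeniusAt φ q) (hkey : ∀ z ∈ S, φ • z = -(q • w z)) :
    p ∣ q - 1 ∧ ∀ σ ∈ A.decompositionSubgroup ℚ, ∃ c : ℤ,
      ∀ x : Submodule.torsionBy ℤ (W⁄Qb).Point p, σ • x = c • x := by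
  have hp : p.Prime := Fact.out
  set ρ : Γℚ →* Module.End (ZMod p) (Submodule.torsionBy ℤ (W⁄Qb).Point p) :=
    galoisRepModuleEnd ℚ W p with hρ
  have hdim := EllTorsion.finrank_torsionBy_rat W p
  obtain ⟨c₀, hc₀, hc₀ζ⟩ := exists_involution
  have hdet₀ : LinearMap.det (ρ c₀) = -1 := by
    rw [hρ, EllTorsion.det_galoisRepModuleEnd, cyclotomicMod_eq _ _ (hc₀ζ p hp.pos),
      Nat.cast_sub hp.one_le, ZMod.natCast_self, Nat.cast_one, zero_sub]
  have hcc : ρ c₀ * ρ c₀ = 1 := by rw [← map_mul, hc₀, map_one]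
  have hirr' : ∀ N : Submodule (ZMod p) _, (∀ σ, ∀ x ∈ N, ρ σ x ∈ N) → N = ⊥ ∨ N = ⊤ :=
    fun N h => hirr.2 N h
  have hrel' : ∀ x, evalV ρ x = 0 → ∀ z ∈ S, evalJ Γℚ J x z = 0 := by
    intro x hx z hz
    have h := hrel x.coeff (fun v hv => ?_) z hz
    · rw [evalJ, MonoidAlgebra.lift_apply]
      refine (AddMonoidHom.finsuppSum_apply ..).trans (Eq.trans ?_ h)
      exact Finsupp.sum_congr fun σ _ => rfl
    · have hv' : v ∈ Submodule.torsionBy ℤ (W⁄Qb).Point p := by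
        rw [Submodule.mem_torsionBy_iff, natCast_zsmul]; exact hv
      have h1 := congrArg Subtype.val (LinearMap.congr_fun hx ⟨v, hv'⟩)
      rw [evalV, MonoidAlgebra.lift_apply, Finsupp.sum, LinearMap.sum_apply,
        AddSubmonoidClass.coe_finsetSum] at h1
      exact h1
  have hzero := fun x => eval_eq_zero ρ hirr' hdim hp2 hcc hdet₀ S hS htor hst hrel' (x := x)
  -- Frobenius is central
  have hcomm : ∀ σ, Commute (ρ σ) (ρ φ) := fun σ => by
    refine sub_eq_zero.mp ?_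
    rw [← evalV_of ρ σ, ← evalV_of ρ φ, ← map_mul (evalV ρ), ← map_mul (evalV ρ), ← map_sub]
    refine hzero _ fun z hz => ?_
    simp only [map_sub, map_mul]
    change evalJ Γℚ J _ (evalJ Γℚ J _ z) - evalJ Γℚ J _ (evalJ Γℚ J _ z) = 0
    simp only [evalJ_of]
    rw [hkey z hz, hkey _ (hst σ z hz), hgal, smul_neg, sub_eq_zero, neg_inj]
    exact map_nsmul (DistribSMul.toAddMonoidHom J σ) q (w z)
  obtain ⟨a, ha⟩ := exists_scalar_of_commute ρ hirr' hdim hp2 hcc hdet₀ hcomm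
  haveI : Nontrivial (Submodule.torsionBy ℤ (W⁄Qb).Point p) := hirr.1
  -- its square is `q ^ 2`
  have hsq : a * a = (q : ZMod p) ^ 2 := by
    have h : evalV ρ (MonoidAlgebra.of ℤ Γℚ φ * MonoidAlgebra.of ℤ Γℚ φ -
        ((q ^ 2 : ℕ) : MonoidAlgebra ℤ Γℚ)) = 0 := hzero _ fun z hz => by
      rw [map_sub, map_mul, map_natCast]
      change evalJ Γℚ J _ (evalJ Γℚ J _ z) - ((q ^ 2 : ℕ) : AddMonoid.End J) z = 0
      simp only [evalJ_of]
      rw [hkey z hz, smul_neg, ← DistribSMul.toAddMonoidHom_apply J φ (q • w z), map_nsmul,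
        DistribSMul.toAddMonoidHom_apply, ← hgal, hkey z hz, map_neg, map_nsmul, hw,
        AddMonoid.End.natCast_apply, smul_neg, neg_neg, ← mul_nsmul, ← sq, sub_self]
    rw [map_sub, map_mul, evalV_of, map_natCast, ha, sub_eq_zero] at h
    obtain ⟨v, hv⟩ := exists_ne (0 : Submodule.torsionBy ℤ (W⁄Qb).Point p)
    have h1 := LinearMap.congr_fun h v
    rw [Module.End.mul_apply, Module.End.natCast_apply, ← Nat.cast_smul_eq_nsmul (ZMod p),
      LinearMap.smul_apply, LinearMap.smul_apply, Module.End.one_apply, Module.End.one_apply,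
      smul_smul] at h1
    have h2 := sub_eq_zero.mpr h1
    rw [← sub_smul, smul_eq_zero, or_iff_left hv, sub_eq_zero, Nat.cast_pow] at h2
    exact h2
  have hdetφ : a * a = (q : ZMod p) := by
    have h := EllTorsion.det_galoisRepModuleEnd W p φ
    rw [← hρ, ha, LinearMap.det_smul, hdim, map_one, mul_one,
      cyclotomicMod_eq _ _ (fun ζ hζ => GalCommon.frobenius_apply_of_pow_eq_one hq hA
        (fun hd => hqp ((Nat.prime_dvd_prime_iff_eq hq hp).mp hd)) hφ hζ), sq] at h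
    exact h
  refine ⟨?_, fun τ hτ => ?_⟩
  · have hq0 : (q : ZMod p) ≠ 0 := by
      rw [Ne, ZMod.natCast_eq_zero_iff]
      exact fun hd => hqp ((Nat.prime_dvd_prime_iff_eq hp hq).mp hd).symm
    have h1 : ((q - 1 : ℕ) : ZMod p) = 0 := by
      rw [Nat.cast_sub hq.one_le, Nat.cast_one, sub_eq_zero]
      refine mul_left_cancel₀ hq0 ?_
      rw [mul_one, ← sq, ← hsq, hdetφ]
    exact (ZMod.natCast_eq_zero_iff _ _).mp h1
  obtain ⟨L, hLfin, hL⟩ := EllTorsion.exists_finiteLevel_smul_eq W p hp.ne_zero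
  haveI := hLfin
  obtain ⟨n, hn⟩ := exists_map_eq_map_pow hq hA
    (galoisRep (S := ℚ) (K := Qb) W p) L
    (fun σ hσ => LinearEquiv.ext fun x => hL σ ((IntermediateField.mem_fixingSubgroup_iff L σ).mp hσ) x)
    (fun i hi => LinearEquiv.ext fun x => hunr i hi x) hφ hτ
  refine ⟨((a ^ n).val : ℤ), fun x => ?_⟩
  have h1 : τ • x = (ρ φ ^ n) x := by
    rw [← map_pow]
    exact (LinearEquiv.congr_fun hn x).trans (by rw [← map_pow]; rfl)
  rw [h1, ha, smul_pow, one_pow, LinearMap.smul_apply, Module.End.one_apply, natCast_zsmul,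
    ← Nat.cast_smul_eq_nsmul (ZMod p), ZMod.natCast_zmod_val]

end FLTAgent.LowerQ
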