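import Fermat.Agent.LowerQ.Core
import Fermat.Agent.LowerQ.Model
import Fermat.Agent.LowerQ.Scalar
import Fermat.Agent.LowerQ.Extend
import Fermat.Agent.MazurP.Residual

/-!
# Mazur's principle at `q ≠ p`

`isResiduallyModularOfLevel_of_not_scalar`: let `E[p]` be irreducible, `p` odd, modular of level
`Mq` with `q ∤ M`, and unramified at `q` (with `5 ≤ p` or `2 ∣ M`). Then it is modular of level `M`
unless `q ≡ 1 mod p` and the decomposition group at `q` acts on it by scalars. Otherwise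
`frob_eq_or_exists_torsion` makes Frobenius `-q` times a commuting involution on the eigen part,
and `scalar_of_frobenius_eq_curve` gives exactly that exception.
-/

set_option autoImplicit false
set_option linter.style.haveILetI false
set_option linter.unusedSectionVars false

noncomputable section

open WeierstrassCurve WeierstrassCurve.Affine WeierstrassCurve.Affine.Point ModularCurve
  AlgebraicCurve
open scoped WeierstrassCurve.Affine

namespace FLTAgent.LowerQ

open FLTAgent.MazurP FLTAgent.BadQ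

local notation "Qb" => AlgebraicClosure ℚ
local notation "Γℚ" => (AlgebraicClosure ℚ ≃ₐ[ℚ] AlgebraicClosure ℚ)

variable {M q : ℕ} [NeZero M] [NeZero q] (hq : q.Prime) (hqM : ¬ q ∣ M)

include hq hqM in
/-- Mazur's principle, given that reduced divisors of normalised functions are divisible by `p`. -/
theorem isResiduallyModularOfLevel_of_not_scalar_of_dvd (W : WeierstrassCurve ℤ) (hΔ : W.Δ ≠ 0) {p : ℕ}
    [Fact p.Prime] (hp2 : p ≠ 2) (hqp : q ≠ p)
    (hdvd : ∀ (A : ValuationSubring Qb) (hA : A.LiesOverPrime q)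
      (f : modularFunctionFieldBar (M * q)), Normal hq hqM (A := A) p f →
      ∀ v : Place (IsLocalRing.ResidueField A)
        (modularFunctionFieldFullC (IsLocalRing.ResidueField A) M),
        (p : ℤ) ∣ v.ord (⟨redI A M q f, redI_mem A M q hq hqM hA f⟩ :
          modularFunctionFieldFullC (IsLocalRing.ResidueField A) M))
    (hirr : W.ModRepIsIrreducible p) (hmod : W.IsResiduallyModularOfLevel p (M * q))
    (hfix : ∀ A : ValuationSubring Qb, A.LiesOverPrime q →
      ∀ σ ∈ A.inertiaSubgroupIn ℚ, FixesTorsion W p σ)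
    (hns : ¬ (p ∣ q - 1 ∧ ∀ A : ValuationSubring Qb, A.LiesOverPrime q →
      ∀ σ ∈ A.decompositionSubgroup ℚ, ∃ c : ℤ,
        ∀ x : Submodule.torsionBy ℤ ((W.map (Int.castRingHom ℚ))⁄Qb).Point p, σ • x = c • x)) :
    W.IsResiduallyModularOfLevel p M := by
  by_contra hnot
  haveI := EllTorsion.isElliptic_map_rat hΔ
  obtain ⟨E⟩ := nonempty_eigenPart W hΔ hp2 hirr hmod
  refine hns ?_
  suffices key : ∀ A : ValuationSubring Qb, A.LiesOverPrime q →
      p ∣ q - 1 ∧ ∀ σ ∈ A.decompositionSubgroup ℚ, ∃ c : ℤ,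
        ∀ x : Submodule.torsionBy ℤ ((W.map (Int.castRingHom ℚ))⁄Qb).Point p, σ • x = c • x by
    obtain ⟨A, hA, -⟩ := GalCommon.exists_place_frobenius hq
    exact ⟨(key A hA).1, fun A hA => (key A hA).2⟩
  intro A hA
  obtain ⟨σ₀, hσ₀⟩ := GalCommon.exists_isFrobeniusAt hq hA
  refine scalar_of_frobenius_eq_curve (W.map (Int.castRingHom ℚ)) hp2 hq hqp hirr hA
    (fun σ hσ x => Subtype.ext (hfix A hA σ hσ x (by
      rw [← natCast_zsmul]; exact (Submodule.mem_torsionBy_iff _ _).mp x.2)))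
    E.S E.ne_bot E.torsion E.galois_mem E.rel (wHom hq hqM) (wHom_wHom hq hqM)
    (wHom_galois hq hqM) hσ₀ fun z hz => ?_
  -- inertia fixes the class
  have hI : ∀ σ ∈ A.inertiaSubgroupIn ℚ, σ • z = z := by
    intro σ hσ
    have h := E.rel (Finsupp.single σ 1 + Finsupp.single 1 (-1)) (fun x hx => ?_) z hz
    · rw [Finsupp.sum_add_index' (by simp) (fun _ _ _ => add_zsmul _ _ _),
        Finsupp.sum_single_index (by simp), Finsupp.sum_single_index (by simp), one_smul,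
        neg_smul, one_smul, one_smul, add_neg_eq_zero] at h
      exact h
    · rw [Finsupp.sum_add_index' (by simp) (fun _ _ _ => add_zsmul _ _ _),
        Finsupp.sum_single_index (by simp), Finsupp.sum_single_index (by simp), one_smul,
        neg_smul, one_smul, one_smul, add_neg_eq_zero]
      exact hfix A hA σ hσ x hx
  obtain ⟨ℓ₀, hℓ₀, hℓ₀N, hℓ₀p, hgood₀, hne₀⟩ :=
    exists_not_eisenstein W hΔ hp2 hirr (M * q).primeFactors
  have hℓ₀N' : ¬ ℓ₀ ∣ M * q := fun h => hℓ₀N (Nat.mem_primeFactors.mpr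
    ⟨hℓ₀, h, mul_ne_zero (NeZero.ne M) (NeZero.ne q)⟩)
  refine (frob_eq_or_exists_torsion hq hqM hA hqp.symm (hdvd A hA)
    (fun ℓ => ℓ.Prime ∧ W.IsGoodPrimeFor ℓ ∧ ℓ ≠ p ∧ ¬ ℓ ∣ M * q)
    (fun ℓ h => ⟨h.1, h.2.2.2⟩) (fun ℓ => W.apOfModel ℓ)
    ⟨ℓ₀, ⟨hℓ₀, hgood₀, hℓ₀p, hℓ₀N'⟩, hne₀⟩ (E.torsion z hz) hI
    (fun ℓ hℓ h => E.hecke ℓ hℓ h.2.1 h.2.2.2 h.2.2.1 z hz) hσ₀).resolve_right ?_
  rintro ⟨x, hx0, hpx, hx⟩
  have hxmem : x ∈ Reps.tors M p := by
    rw [Pic0.mem_torsion, natCast_zsmul]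
    exact hpx
  refine hnot (isResiduallyModularOfLevel_of_mem
    (mem_heckeEigTors_of_cofinite hΔ hp2 (B := {q}) (z₀ := ⟨x, hxmem⟩)
      fun ℓ hℓ hg hℓM hℓp hℓq => hx ℓ hℓ ⟨hℓ, hg, hℓp, fun h => ?_⟩)
    fun h => hx0 (congrArg Subtype.val h))
  exact (hℓ.dvd_mul.mp h).elim hℓM fun h' =>
    hℓq (Finset.mem_singleton.mpr ((Nat.prime_dvd_prime_iff_eq hℓ hq).mp h'))

include hq hqM in
/-- If inertia at `q` fixes `E[p]`, then `q` can be removed from the level unless `q ≡ 1 mod p` and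
the decomposition group at `q` acts on `E[p]` by scalars. -/
theorem isResiduallyModularOfLevel_of_not_scalar (W : WeierstrassCurve ℤ) (hΔ : W.Δ ≠ 0) {p : ℕ}
    [Fact p.Prime] (hp2 : p ≠ 2) (hpM : 5 ≤ p ∨ 2 ∣ M) (hqp : q ≠ p)
    (hirr : W.ModRepIsIrreducible p) (hmod : W.IsResiduallyModularOfLevel p (M * q))
    (hfix : ∀ A : ValuationSubring Qb, A.LiesOverPrime q →
      ∀ σ ∈ A.inertiaSubgroupIn ℚ, FixesTorsion W p σ)
    (hns : ¬ (p ∣ q - 1 ∧ ∀ A : ValuationSubring Qb, A.LiesOverPrime q →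
      ∀ σ ∈ A.decompositionSubgroup ℚ, ∃ c : ℤ,
        ∀ x : Submodule.torsionBy ℤ ((W.map (Int.castRingHom ℚ))⁄Qb).Point p, σ • x = c • x)) :
    W.IsResiduallyModularOfLevel p M :=
  isResiduallyModularOfLevel_of_not_scalar_of_dvd hq hqM W hΔ hp2 hqp
    (fun _ hA _ hf => Normal.dvd_ord_red hq hqM hA hp2 hpM hf) hirr hmod hfix hns

end FLTAgent.LowerQ
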