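import Fermat.Agent.Lift.Main

/-!
# Two glued reductions exchanged by an involution

In the abstract setting `Lift.Data`, an involution over the constants exchanging the two
reductions (`Data.Swap`) and an automorphism compatible with Frobenius act on the gluing labels
of classes with power reductions by `μ ↦ (μ ∘ Frob)⁻¹` and `μ ↦ (μ ∘ Frob) ^ q`
(`Wit.map_swap`, `Wit.map_frob`). Hence `Good.frob_eq_swap`: on such classes Frobenius is `-q`
times the involution.
-/

set_option autoImplicit false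
set_option linter.style.haveILetI false
set_option linter.unusedSectionVars false

noncomputable section

open AlgebraicCurve SemilinearAut

namespace FLTAgent.Lift

open FLTAgent.Reduction

namespace Data

variable {K k F F₀ E : Type*} [Field K] [Field k] [Field F] [Field F₀] [Field E] [Algebra K F]
  [Algebra K F₀] [Algebra k E] {A : ValuationSubring K} {π : A →+* k} {q g g' : ℕ}

/-- An involution over the constants exchanging the two reductions. -/
structure Swap (D : Data A π q F F₀ E g g') (w : SemilinearAut K F) : Prop where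
  base : ∀ c : K, baseAut w c = c
  invol : ∀ f : F, w • w • f = f
  mem : ∀ f : F, w • f ∈ D.Ginf.V ↔ f ∈ D.Gzero.V
  red : ∀ f : F, D.Ginf.red (w • f) = D.Gzero.red f
  alpha : w • D.α D.j = D.β D.j

variable {D : Data A π q F F₀ E g g'} {w σ : SemilinearAut K F} {σb : SemilinearAut k E}

namespace Swap

theorem beta (h : D.Swap w) : w • D.β D.j = D.α D.j := by rw [← h.alpha, h.invol]

theorem smul_T (h : D.Swap w) : w • D.T = D.T := by
  rw [Data.T, smul_mul', h.alpha, h.beta, mul_comm]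

theorem mem_zero (h : D.Swap w) (f : F) : w • f ∈ D.Gzero.V ↔ f ∈ D.Ginf.V := by
  rw [← h.mem, h.invol]

theorem red_zero (h : D.Swap w) (f : F) : D.Gzero.red (w • f) = D.Ginf.red f := by
  rw [← h.red, h.invol]

theorem mem_V (h : D.Swap w) {f : F} (hf : f ∈ D.V) : w • f ∈ D.V :=
  ⟨(h.mem f).mpr hf.2, (h.mem_zero f).mpr hf.1⟩

theorem red_pair (h : D.Swap w) (f : F) : D.red (w • f) = ((D.red f).2, (D.red f).1) :=
  Prod.ext (h.red f) (h.red_zero f)

theorem regAway (h : D.Swap w) {y : F} (hy : RegAway (K := K) D.T y) :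
    RegAway (K := K) D.T (w • y) := fun R hR => by
  have h1 : 0 ≤ (w⁻¹ • R).ord D.T := by
    rwa [← SemilinearAut.ord_smul w, smul_inv_smul, h.smul_T]
  have := vanish_smul w (hy _ h1)
  rwa [smul_inv_smul] at this

theorem swap_mem_RR (h : D.Swap w) {x : E × E} (hx : x ∈ D.RR) : (x.2, x.1) ∈ D.RR := by
  obtain ⟨⟨h1, h2⟩, y, hy, hyr, rfl⟩ := hx
  exact ⟨⟨h2, h1⟩, w • y, h.mem_V hy, h.regAway hyr, h.red_pair y⟩

theorem frob_mem_Xaff (h : D.Swap w) {Q : Place k E} (hQ : Q ∈ D.Xaff) : D.frob • Q ∈ D.Xaff := by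
  refine ⟨mem_Xaff_smul_ord hQ, fun x hx => ?_⟩
  rw [frob_frob_of_mem_Xaff hQ]
  exact (hQ.2 _ (h.swap_mem_RR hx)).symm

theorem onInv (h : D.Swap w) : D.inv.Swap w where
  base := h.base
  invol := h.invol
  mem := h.mem
  red := h.red
  alpha := by
    show w • D.α D.j⁻¹ = D.β D.j⁻¹
    rw [map_inv₀, smul_inv'', h.alpha, map_inv₀]

theorem frob_mem_X (h : D.Swap w) {Q : Place k E} (hQ : Q ∈ D.X) : D.frob • Q ∈ D.X := by
  rcases hQ with hQ | hQ
  · exact Or.inl (h.frob_mem_Xaff hQ)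
  · exact Or.inr ⟨by rw [D.ord_tau_smul]; exact hQ.1, h.onInv.frob_mem_Xaff hQ.2⟩

theorem sp_glued_fin [Infinite k] (h : D.Swap w) {Q : Place k E} (hQ : Q ∈ D.X)
    (hfin : 0 ≤ Q.ord D.tau) {P : Place K F} (hP : D.sp P = (true, Q)) :
    D.sp (w • P) = (true, D.frob • Q) := by
  have hdisc : IsDisc A D.T P := sp_finite_iff.mp (by rw [hP]; exact hfin)
  have hvT : valAt (w • P) D.T = valAt P D.T := by
    conv_lhs => rw [← h.smul_T]
    rw [valAt_smul_semilinear D.curve w (Vanish.zero_iff.mpr hdisc.1), h.base]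
  have hdisc' : IsDisc A D.T (w • P) := by
    refine ⟨?_, ?_⟩
    · rw [← h.smul_T, SemilinearAut.ord_smul]; exact hdisc.1
    · rw [hvT]; exact hdisc.2
  refine IsSp.unique (isSp_sp hdisc')
    ⟨isCanon_true _, by rw [D.ord_tau_smul]; exact hfin, fun y hy hyr => ?_⟩
  have hy'V := h.mem_V hy
  have hy'r := h.regAway hyr
  have hA := valAt_mem hdisc hy'V hy'r
  have hval : valAt (w • P) y = valAt P (w • y) := by
    conv_lhs => rw [← h.invol y]
    rw [valAt_smul_semilinear D.curve w (hy'r P hdisc.1), h.base]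
  rw [resVal_of_eq (w • P) y ⟨_, hA⟩ hval, ← resVal_of_eq P (w • y) ⟨_, hA⟩ rfl,
    (isSp_sp hdisc).2.2 _ hy'V hy'r, hP]
  show valAt Q (D.Ginf.red (w • y)) = valAt (D.frob • Q) (D.Ginf.red y)
  have hX := (mem_Xaff_iff.mpr ⟨hQ, hfin⟩).2 _
    (h.swap_mem_RR ⟨regPair_red hy hyr, y, hy, hyr, rfl⟩)
  rw [h.red]
  exact hX

theorem sp_glued [Infinite k] (h : D.Swap w) {Q : Place k E} (hQ : Q ∈ D.X) {P : Place K F}
    (hP : D.sp P = (true, Q)) : D.sp (w • P) = (true, D.frob • Q) := by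
  rcases le_or_gt 0 (Q.ord D.tau) with hfin | hfin
  · exact h.sp_glued_fin hQ hfin hP
  · rw [← sp_inv]
    refine h.onInv.sp_glued_fin (by rwa [D.X_inv]) ?_ (by rwa [sp_inv])
    rw [D.tau_inv, Place.ord_inv]
    omega

end Swap

theorem Compat.tau_fix (h : D.Compat σ σb) : σb • D.tau = D.tau := by
  have hV : D.α D.j ∈ D.Ginf.V := D.alpha_mem_inf _ D.param.mem
  have h1 := h.red_inf _ hV
  rw [h.alpha_fix, D.red_alpha_inf _ D.param.mem] at h1
  exact h1.symm

theorem Compat.sp_map_fin [Infinite k] (h : D.Compat σ σb) {Q : Place k E}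
    (hfin : 0 ≤ Q.ord D.tau) {P : Place K F} (hP : D.sp P = (true, Q)) :
    D.sp (σ • P) = (true, σb • Q) := by
  have hdisc : IsDisc A D.T P := sp_finite_iff.mp (by rw [hP]; exact hfin)
  have hvT : valAt (σ • P) D.T = baseAut σ (valAt P D.T) := by
    conv_lhs => rw [← h.smul_T]
    exact valAt_smul_semilinear D.curve σ (Vanish.zero_iff.mpr hdisc.1)
  have hdisc' : IsDisc A D.T (σ • P) := by
    refine ⟨?_, ?_⟩
    · rw [← h.smul_T, SemilinearAut.ord_smul]; exact hdisc.1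
    · rw [hvT]; exact (h.base_mem hdisc.2).1
  have hfin' : 0 ≤ (σb • Q).ord D.tau := by
    rw [← h.tau_fix, SemilinearAut.ord_smul]; exact hfin
  refine IsSp.unique (isSp_sp hdisc') ⟨isCanon_true _, hfin', fun y hy hyr => ?_⟩
  set y' := σ⁻¹ • y with hy'
  have hyy : σ • y' = y := smul_inv_smul σ y
  have hy'V : y' ∈ D.V := ⟨(h.inverse.mem_inf y).mpr hy.1, (h.inverse.mem_zero y).mpr hy.2⟩
  have hy'r : RegAway (K := K) D.T y' := fun R hR => by
    have h1 : 0 ≤ (σ • R).ord D.T := by rw [← h.smul_T, SemilinearAut.ord_smul]; exact hR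
    have := vanish_smul σ⁻¹ (hyr _ h1)
    rwa [inv_smul_smul] at this
  have hA := valAt_mem hdisc hy'V hy'r
  obtain ⟨hA', hπ⟩ := h.base_mem hA
  have hval : valAt (σ • P) y = baseAut σ (valAt P y') := by
    rw [← hyy]
    exact valAt_smul_semilinear D.curve σ (hy'r P hdisc.1)
  rw [resVal_of_eq (σ • P) y ⟨_, hA'⟩ hval, hπ, ← resVal_of_eq P y' ⟨_, hA⟩ rfl,
    (isSp_sp hdisc).2.2 y' hy'V hy'r, hP]
  show baseAut σb (valAt Q (D.Ginf.red y')) = valAt (σb • Q) (D.Ginf.red y)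
  have hreg : Vanish Q (D.Ginf.red y') 0 := (regPair_red hy'V hy'r).1 Q hfin
  rw [← valAt_smul_semilinear D.param.curveBar σb hreg, ← h.red_inf y' hy'V.1, hyy]

theorem Compat.sp_map [Infinite k] (h : D.Compat σ σb) {Q : Place k E} {P : Place K F}
    (hP : D.sp P = (true, Q)) : D.sp (σ • P) = (true, σb • Q) := by
  rcases le_or_gt 0 (Q.ord D.tau) with hfin | hfin
  · exact h.sp_map_fin hfin hP
  · rw [← sp_inv]
    refine h.onInv.sp_map_fin ?_ (by rwa [sp_inv])
    rw [D.tau_inv, Place.ord_inv]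
    omega

/-- The image of a label under Frobenius. -/
theorem Wit.map_frob [Infinite k] (hw : D.Swap w) (hσ : D.Compat σ D.frob) {n : ℕ} (hn : n ≠ 0)
    {z : Pic0 K F} {μ : Place k E → k} (W : D.Wit n z μ) :
    Nonempty (D.Wit n (σ • z) fun Q => μ (D.frob • Q) ^ q) := by
  have e1 : D.Ginf.red (σ • W.h) * (W.good.map hσ).w1 =
      D.frob • (D.Ginf.red W.h * W.good.w1) := by
    rw [hσ.red_inf _ W.h_mem.1]
    exact (smul_mul' D.frob _ _).symm
  have e0 : D.Gzero.red (σ • W.h) * (W.good.map hσ).w0 =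
      D.frob • (D.Gzero.red W.h * W.good.w0) := by
    rw [hσ.red_zero _ W.h_mem.2]
    exact (smul_mul' D.frob _ _).symm
  refine ⟨⟨W.good.map hσ, σ • W.h, σ • W.G,
    ⟨(hσ.mem_inf _).mpr W.h_mem.1, (hσ.mem_zero _).mpr W.h_mem.2⟩, fun P => ?_, fun P => ?_,
    fun Q hQ P hP => ?_, fun Q hQ => ?_, fun Q hQ => ?_⟩⟩
  · rw [SemilinearAut.divisor_smul_apply]
    exact W.G_nonneg _
  · have h1 := vanish_smul σ (W.bound (σ⁻¹ • P))
    rw [smul_inv_smul] at h1
    show Vanish P (σ • W.h) (-((degZeroSMulHom σ W.good.Z : Divisor K F) P + (σ • W.G) P))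
    rwa [coe_degZeroSMulHom, SemilinearAut.divisor_smul_apply, SemilinearAut.divisor_smul_apply]
  · rw [SemilinearAut.divisor_smul_apply]
    refine W.away (D.frob • Q) (hw.frob_mem_X hQ) _ ?_
    have hinv : D.frob⁻¹ • Q = D.frob • Q := inv_smul_eq_iff.mpr (D.frob_frob_of_mem_X hQ).symm
    rw [← hinv]
    exact hσ.inverse.sp_map hP
  · rw [e1]
    have hR := hw.frob_mem_X hQ
    conv_lhs => rw [← D.frob_frob_of_mem_X hQ]
    rw [valAt_smul_semilinear D.param.curveBar D.frob (W.reg hn hR).1]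
    exact (map_ne_zero _).mpr (W.val_ne _ hR)
  · rw [e0, e1]
    have hR := hw.frob_mem_X hQ
    have hQQ : D.frob • D.frob • Q = Q := D.frob_frob_of_mem_X hQ
    conv_rhs => rw [show valAt Q (D.frob • (D.Ginf.red W.h * W.good.w1)) =
      valAt (D.frob • D.frob • Q) (D.frob • (D.Ginf.red W.h * W.good.w1)) by rw [hQQ],
      valAt_smul_semilinear D.param.curveBar D.frob (W.reg hn hR).1, D.frob_base, ← mul_pow]
    have h0 := valAt_smul_semilinear D.param.curveBar D.frob (W.reg hn hR).2.1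
    rw [hQQ] at h0
    rw [h0, D.frob_base]
    congr 1
    rw [← W.glue _ hR, hQQ]

/-- The image of a good class under the involution. -/
def Good.swap (hw : D.Swap w) {n : ℕ} {z : Pic0 K F} (a : D.Good n z) :
    D.Good n (w • z) where
  Z := degZeroSMulHom w a.Z
  f := w • a.f
  w1 := a.w0
  w0 := a.w1
  rep := by
    refine ⟨?_, (smul_ne_zero_iff_ne w).mpr a.rep.ne_zero, ?_⟩
    · rw [← pic0_smul_mk, a.rep.mk_eq]
    · rw [coe_degZeroSMulHom, ← divOf_smul_semilinear D.curve, ← a.rep.div_eq]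
      exact (map_zsmul (DistribSMul.toAddMonoidHom (Divisor K F) w) _ _).symm
  mem := hw.mem_V a.mem
  w1_ne := a.w0_ne
  w0_ne := a.w1_ne
  red_eq := by rw [hw.red_pair, a.red_eq]

/-- The image of a label under the involution. -/
theorem Wit.map_swap [Infinite k] (hw : D.Swap w) {n : ℕ} (hn : n ≠ 0) {z : Pic0 K F}
    {μ : Place k E → k} (W : D.Wit n z μ) :
    Nonempty (D.Wit n (w • z) fun Q => (μ (D.frob • Q))⁻¹) := by
  refine ⟨⟨W.good.swap hw, w • W.h, w • W.G, hw.mem_V W.h_mem, fun P => ?_, fun P => ?_,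
    fun Q hQ P hP => ?_, fun Q hQ => ?_, fun Q hQ => ?_⟩⟩
  · rw [SemilinearAut.divisor_smul_apply]
    exact W.G_nonneg _
  · have h1 := vanish_smul w (W.bound (w⁻¹ • P))
    rw [smul_inv_smul] at h1
    show Vanish P (w • W.h) (-((degZeroSMulHom w W.good.Z : Divisor K F) P + (w • W.G) P))
    rwa [coe_degZeroSMulHom, SemilinearAut.divisor_smul_apply, SemilinearAut.divisor_smul_apply]
  · rw [SemilinearAut.divisor_smul_apply]
    refine W.away (D.frob • Q) (hw.frob_mem_X hQ) _ ?_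
    have hwinv : w⁻¹ • P = w • P := by
      rw [inv_smul_eq_iff]
      refine FF.place_eq_of_le fun f hf => ?_
      rw [SemilinearAut.smul_toValuationSubring, SemilinearAut.smul_toValuationSubring,
        ValuationSubring.mem_pointwise_smul_iff_inv_smul_mem,
        ValuationSubring.mem_pointwise_smul_iff_inv_smul_mem]
      have e : w⁻¹ • w⁻¹ • f = f := by rw [inv_smul_eq_iff, inv_smul_eq_iff, hw.invol]
      rwa [e]
    rw [hwinv]
    exact hw.sp_glued hQ hP
  · have hR := hw.frob_mem_X hQ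
    show valAt Q (D.Ginf.red (w • W.h) * W.good.w0) ≠ 0
    rw [hw.red]
    have := W.glue _ hR
    rw [D.frob_frob_of_mem_X hQ] at this
    rw [this]
    exact mul_ne_zero (W.mu_ne hn hR) (W.val_ne _ hR)
  · have hR := hw.frob_mem_X hQ
    show valAt (D.frob • Q) (D.Gzero.red (w • W.h) * W.good.w1) =
      (μ (D.frob • Q))⁻¹ * valAt Q (D.Ginf.red (w • W.h) * W.good.w0)
    rw [hw.red, hw.red_zero]
    have := W.glue _ hR
    rw [D.frob_frob_of_mem_X hQ] at this
    rw [this, inv_mul_cancel_left₀ (W.mu_ne hn hR)]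

/-- Frobenius acts on the good classes as minus `q` times the involution. -/
theorem Good.frob_eq_swap [IsAlgClosed K] [IsAlgClosed k] {n : ℕ} (hn : (n : k) ≠ 0)
    (hX : 1 ≤ D.nX) {z : Pic0 K F} (gd : D.Good n z) (hw : D.Swap w) (hσ : D.Compat σ D.frob) :
    σ • z = -(q • (w • z)) := by
  have hn0 : n ≠ 0 := fun e => hn (by rw [e, Nat.cast_zero])
  obtain ⟨μ, ⟨W⟩⟩ := gd.exists_wit hn0 hX
  obtain ⟨W₁⟩ := W.map_frob hw hσ hn0
  obtain ⟨W₂⟩ := W.map_swap hw hn0
  obtain ⟨r, hr⟩ : ∃ r, q = r + 1 := ⟨q - 1, (Nat.sub_add_cancel D.q_prime.one_lt.le).symm⟩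
  obtain ⟨W₃⟩ := W₂.exists_nsmul hn0 r
  obtain ⟨U⟩ := W₁.add hn0 W₃
  rw [← hr] at U
  refine eq_neg_of_add_eq_zero_left (U.eq_zero_of_const hn hX (a := 1) fun Q hQ => ?_)
  rw [Pi.mul_apply, Pi.pow_apply, inv_pow]
  exact mul_inv_cancel₀ (pow_ne_zero q (W.mu_ne hn0 (hw.frob_mem_X hQ)))

end Data

end FLTAgent.Lift
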